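import Fermat.Agent.Root.Semistable.Defs
import Fermat.Statements.S50
import Fermat.Prelude.Def_WeierstrassCurve_ConductorLevel
import Fermat.Statements.S59

/-!
# Consequences of the modularity of semistable curves
-/

set_option autoImplicit false

noncomputable section

open WeierstrassCurve
open scoped WeierstrassCurve.Affine

namespace FA.SS

open FA.Theta (badProd)

/-- Semistable curves are modular of the product of their bad primes. -/
def SemistableModular : Prop :=
  ∀ W : WeierstrassCurve ℤ, W.Δ ≠ 0 → W.IsSemistableModel → W.IsModularModelOfLevel (badProd W)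

lemma badProd_eq_conductorLevel {W : WeierstrassCurve ℤ} (hΔ : W.Δ ≠ 0) :
    badProd W = W.conductorLevel := by
  refine Nat.dvd_antisymm ?_ ?_
  · refine (FA.Root.squarefree_badProd W).dvd_pow_iff_dvd one_ne_zero |>.mp ?_
    rw [pow_one]
    exact Finset.prod_primes_dvd _ (fun q hq => (Nat.prime_of_mem_primeFactors hq).prime)
      fun q hq => (W.prime_dvd_conductorLevel_iff hΔ (Nat.prime_of_mem_primeFactors hq)).mpr
        (Int.natCast_dvd.mpr (Nat.dvd_of_mem_primeFactors hq))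
  · conv_lhs => rw [← Nat.prod_primeFactors_of_squarefree W.squarefree_conductorLevel]
    refine Finset.prod_primes_dvd _ (fun q hq => (Nat.prime_of_mem_primeFactors hq).prime)
      fun q hq => ?_
    have hq' := Nat.prime_of_mem_primeFactors hq
    exact (FA.Root.prime_dvd_badProd_iff hΔ hq').mpr
      ((W.prime_dvd_conductorLevel_iff hΔ hq').mp (Nat.dvd_of_mem_primeFactors hq))

variable (h : SemistableModular)

include h in
theorem mlc1_of {W : WeierstrassCurve ℤ} (hΔ : W.Δ ≠ 0) (hW : W.IsSemistableModel) :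
    Mlc1IsModularModelOfExactConductorLevel W :=
  ⟨badProd W, FA.Root.badProd_pos W, FA.Root.squarefree_badProd W,
    fun _ hq => FA.Root.prime_dvd_badProd_iff hΔ hq, h W hΔ hW⟩

include h in
theorem conductorLevel_of {W : WeierstrassCurve ℤ} (hΔ : W.Δ ≠ 0) (hW : W.IsSemistableModel) :
    W.IsModularModelOfLevel W.conductorLevel :=
  badProd_eq_conductorLevel hΔ ▸ h W hΔ hW

include h in
theorem isModular_of {W : WeierstrassCurve ℤ} (hΔ : W.Δ ≠ 0) (hW : W.IsSemistableModel) :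
    (W.map (Int.castRingHom ℚ)).IsModular :=
  ⟨W, ⟨1, one_smul _ _⟩, badProd W, FA.Root.badProd_pos W, h W hΔ hW⟩

include h in
theorem residual_three_of {W : WeierstrassCurve ℤ} (hΔ : W.Δ ≠ 0) (hW : W.IsSemistableModel) :
    ∃ M : ℕ, 0 < M ∧ W.IsResiduallyModularOfLevel 3 M ∧
      (∀ q : ℕ, q.Prime → q ≠ 3 → ¬ q ^ 3 ∣ M) ∧
      (3 ^ 2 ∣ M →
        ∀ A : ValuationSubring (AlgebraicClosure ℚ), A.LiesOverPrime 3 →
          ∀ x : Submodule.torsionBy ℤ
              ((W.map (Int.castRingHom ℚ))⁄(AlgebraicClosure ℚ)).Point (3 : ℕ),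
            (∀ σ ∈ A.inertiaSubgroupIn ℚ, σ • x = x) → x = 0) := by
  obtain ⟨f, hf, hfq⟩ := h W hΔ hW
  obtain ⟨𝔪, hm, h3⟩ := FLTPrelim.exists_maximalIdeal_natCast_prime_mem Nat.prime_three
  have hsq := FA.Root.squarefree_badProd W
  have hno : ∀ q : ℕ, q.Prime → ¬ q * q ∣ badProd W := fun q hq hd =>
    hq.ne_one (Nat.isUnit_iff.mp (hsq q hd))
  refine ⟨badProd W, FA.Root.badProd_pos W, ⟨f, 𝔪, hf, hm, h3, fun l hl hg hlM _ =>
    ⟨(W.apOfModel l : integralClosure ℤ ℂ), ?_, by rw [sub_self]; exact 𝔪.zero_mem⟩⟩,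
    fun q hq _ hd => hno q hq ((dvd_mul_right _ q).trans (by rwa [pow_succ, pow_two] at hd)),
    fun hd => absurd (by rwa [pow_two] at hd) (hno 3 Nat.prime_three)⟩
  rw [hfq l hl hg hlM]
  push_cast
  rfl

end FA.SS

end

namespace FA.SS

/-- A semistable model with a cube-free level divisible by all bad primes is not singular. -/
lemma Δ_ne_zero_of_level {W : WeierstrassCurve ℤ} {N : ℕ}
    (hbad : ∀ ℓ : ℕ, ℓ.Prime → (ℓ : ℤ) ∣ W.Δ → ℓ ∣ N) (hN3 : ∀ q : ℕ, q.Prime → ¬ q ^ 3 ∣ N) :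
    W.Δ ≠ 0 := by
  intro h0
  obtain ⟨q, hqN, hq⟩ := Nat.exists_infinite_primes (N + 1)
  have hd : q ∣ N := hbad q hq (h0 ▸ dvd_zero _)
  rcases Nat.eq_zero_or_pos N with rfl | hpos
  · exact hN3 2 Nat.prime_two (dvd_zero _)
  · have := Nat.le_of_dvd hpos hd
    omega

end FA.SS
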