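import Fermat.Agent.Root.Chain

/-!
# Modularity of semistable curves: the inputs

* `LiftSeed`: modularity lifting at `2` for the seeds (supersingular at `2`, negative discriminant
  with odd valuations at every bad prime);
* `ThreeToSeed`: a seed with the same `3`-torsion;
* `FiveToThree`: a curve with the same `5`-torsion and irreducible `3`-torsion, to which
  `ThreeToSeed` applies;
* `ThreeToFive`: a curve with the same `3`-torsion and irreducible `5`-torsion.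
-/

set_option autoImplicit false

noncomputable section

open WeierstrassCurve

namespace FA.SS

open FA.Theta (badProd)

/-- Negative discriminant with odd valuations, supersingular reduction at `2`. -/
structure IsSeed (W : WeierstrassCurve ℤ) : Prop where
  neg : W.Δ < 0
  ss : W.IsSemistableModel
  good : W.IsGoodPrimeFor 2
  a1_even : (2 : ℤ) ∣ W.a₁
  irr : W.ModRepIsIrreducible 2
  odd : ∀ q : ℕ, q.Prime → (q : ℤ) ∣ W.Δ → Odd (padicValInt q W.Δ)
  ne3 : ∃ q : ℕ, q.Prime ∧ (q : ℤ) ∣ W.Δ ∧ q ≠ 3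

/-- Modularity of the seeds. -/
def LiftSeed : Prop :=
  ∀ W : WeierstrassCurve ℤ, IsSeed W → W.IsModularModelOfLevel (badProd W)

/-- A seed with the same `3`-torsion. -/
def ThreeToSeed : Prop :=
  ∀ W : WeierstrassCurve ℤ, W.Δ ≠ 0 → W.IsSemistableModel →
    ((2 : ℤ) ∣ W.Δ → 3 ∣ padicValInt 2 W.Δ) →
    ∃ W' : WeierstrassCurve ℤ, IsSeed W' ∧
      FA.Switch.TorsIso 3 (FA.Frob.ratCurve W) (FA.Frob.ratCurve W') ∧
      ((3 : ℤ) ∣ W.Δ ↔ (3 : ℤ) ∣ W'.Δ)

/-- A curve with the same `5`-torsion and irreducible `3`-torsion. -/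
def FiveToThree : Prop :=
  ∀ W : WeierstrassCurve ℤ, W.Δ ≠ 0 → W.IsSemistableModel →
    ∃ W' : WeierstrassCurve ℤ, W'.Δ ≠ 0 ∧ W'.IsSemistableModel ∧ W'.ModRepIsIrreducible 3 ∧
      ((2 : ℤ) ∣ W'.Δ → 3 ∣ padicValInt 2 W'.Δ) ∧
      FA.Switch.TorsIso 5 (FA.Frob.ratCurve W) (FA.Frob.ratCurve W') ∧
      ((5 : ℤ) ∣ W.Δ ↔ (5 : ℤ) ∣ W'.Δ)

/-- A curve with the same `3`-torsion and irreducible `5`-torsion. -/
def ThreeToFive : Prop :=
  ∀ W : WeierstrassCurve ℤ, W.Δ ≠ 0 → W.IsSemistableModel →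
    ∃ W' : WeierstrassCurve ℤ, W'.Δ ≠ 0 ∧ W'.IsSemistableModel ∧ W'.ModRepIsIrreducible 5 ∧
      FA.Switch.TorsIso 3 (FA.Frob.ratCurve W) (FA.Frob.ratCurve W') ∧
      ((3 : ℤ) ∣ W.Δ ↔ (3 : ℤ) ∣ W'.Δ)

end FA.SS

end
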