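import Fermat.Agent.Switch.FiveSwitch
import Fermat.Agent.Root.Semistable.Defs

/-!
# A curve with the same `5`-torsion and irreducible `3`-torsion

The `5`-switch for an arbitrary semistable curve.  At `2` the target is the curve itself for good
reduction, and the node given by the cusp parameter, with valuation of the discriminant divisible
by `3`, for bad reduction.
-/

set_option autoImplicit false
set_option linter.unusedSectionVars false

open WeierstrassCurve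
open scoped Pointwise

namespace FA.SS

open FA.Switch

noncomputable section

local notation "Qb" => AlgebraicClosure ℚ
local notation "GQ" => AlgebraicClosure ℚ ≃ₐ[ℚ] AlgebraicClosure ℚ

lemma dvd_iff_dvd_of_padicValInt {a b : ℤ} (ha : a ≠ 0) (hb : b ≠ 0) {q : ℕ} (hq : q.Prime)
    (h : padicValInt q a = padicValInt q b) : (q : ℤ) ∣ b ↔ (q : ℤ) ∣ a := by
  have : Fact q.Prime := ⟨hq⟩
  rw [← pow_one (q : ℤ), padicValInt_dvd_iff, padicValInt_dvd_iff, h]
  simp [ha, hb]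

/-- The parameter at `2`, for any positive valuation of the discriminant. -/
lemma exists_five_param_two {W : WeierstrassCurve ℤ} (hW : W.IsSemistableModel)
    (hd2 : (2 : ℤ) ∣ W.Δ) {B : Base} (hBa : B.a = (W.c₄ : ℚ)) (hBb : B.b = (W.c₆ : ℚ))
    {e : Fin 2 → Qb} (he : B.InV e) (hind : det2 B.w e ≠ 0)
    {A : ValuationSubring Qb} (hA : A.LiesOverPrime 2) {k : ℕ} (hk : 2 ≤ k) :
    ∃ (r s x y z : Qb) (n : ℤ), (∀ σ : GQ, σ • A = A → σ r = r ∧ σ s = s) ∧
      klC4 (r * B.w 0 + s * e 0) (r * B.w 1 + s * e 1) = x ∧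
      klC6 (r * B.w 0 + s * e 0) (r * B.w 1 + s * e 1) = y ∧
      x ^ 3 - y ^ 2 = 1728 * z ∧ A.valuation x ≤ 1 ∧ A.valuation y ≤ 1 ∧
      A.valuation z = A.valuation ((2 ^ (5 * k) * W.Δ : ℤ) : Qb) ∧
      A.valuation (x - ((n ^ 2 : ℤ) : Qb)) ≤ A.valuation (2 : Qb) ^ 10 ∧
      A.valuation (y - ((-n ^ 3 : ℤ) : Qb)) ≤ A.valuation (2 : Qb) ^ 10 ∧
      (4 : ℤ) ∣ n ^ 3 + W.c₆ := by
  have hq := Nat.prime_two
  have h4 : ¬ (2 : ℤ) ∣ W.c₄ := hW 2 hq (by exact_mod_cast hd2)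
  have ha : A.valuation (B.a : Qb) = 1 := by
    rw [hBa, Rat.cast_intCast]
    exact FA.Local.natCast_eq_one_of_not_dvd (v := A.valuation) hq (v_natPrime_lt hA)
      (by exact_mod_cast h4)
  have hd : A.valuation ((W.Δ : ℚ) : Qb) < 1 := by
    rw [Rat.cast_intCast]
    exact (intCast_lt_one_iff hq hA _).mpr (by exact_mod_cast hd2)
  obtain ⟨T, X, hdat, hpar⟩ := B.exists_cusp he hind (W.Δ : ℚ)
    (by rw [hBa, hBb]; exact_mod_cast W.c_relation.symm) ha hd
  have v2 : A.valuation ((2 : ℕ) : Qb) = A.valuation (2 : Qb) := by norm_num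
  set ε := A.valuation (2 : Qb) with hε
  have hε1 : ε ≤ 1 := v2 ▸ (v_natPrime_lt hA).le
  have hvT : A.valuation T ≤ ε := by
    rw [hdat.val, Rat.cast_intCast, ← v2, ← pow_one (A.valuation ((2 : ℕ) : Qb))]
    exact (intCast_le_pow_iff hq hA _ 1).mpr (by simpa using hd2)
  obtain ⟨n, hn⟩ := exists_int_near hq hA hdat.fixX hdat.unitX.le 10
  rw [v2] at hn
  have hn1 : A.valuation (n : Qb) ≤ 1 := FA.Local.intCast_le_one n
  obtain ⟨r, s, hfix, e4, e6⟩ := hpar ((2 : ℚ) ^ k) 1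
  simp only [Rat.cast_one, one_pow, Rat.cast_pow, Rat.cast_ofNat] at e4 e6
  set U : Qb := ((2 : Qb) ^ k) ^ 5 * T with hU
  have hvU : A.valuation U = ε ^ (5 * k) * A.valuation T := by
    rw [hU, map_mul, ← pow_mul, map_pow, mul_comm 5 k]
  have hU10 : A.valuation U ≤ ε ^ 10 := by
    rw [hvU]
    exact (mul_le_of_le_one_right' (hvT.trans hε1)).trans
      (pow_le_pow_of_le_one zero_le hε1 (by omega))
  have hU1 : A.valuation U < 1 := by
    rw [hvU]
    exact (mul_le_of_le_one_left' (pow_le_one₀ zero_le hε1)).trans_lt hdat.small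
  have mU : U ∈ A := (A.valuation_le_one_iff U).mp hU1.le
  have mT : T ∈ A := (A.valuation_le_one_iff T).mp hdat.small.le
  have mX : X ∈ A := (A.valuation_le_one_iff X).mp hdat.unitX.le
  have hx1 : A.valuation (c4UV U 1) ≤ 1 := (A.valuation_le_one_iff _).mpr (by
    simp only [c4UV, one_pow, mul_one]
    apply_rules [sub_mem, add_mem, mul_mem, pow_mem, ofNat_mem, one_mem])
  have hy1 : A.valuation (c6UV U 1) ≤ 1 := (A.valuation_le_one_iff _).mpr (by
    simp only [c6UV, one_pow, mul_one]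
    apply_rules [sub_mem, add_mem, mul_mem, pow_mem, ofNat_mem, one_mem, neg_mem])
  have hH : A.valuation (c4UV U 1 - 1) ≤ A.valuation U := by
    rw [show c4UV U 1 - 1 = U * (U ^ 3 + 228 * U ^ 2 + 494 * U - 228) by simp only [c4UV]; ring]
    exact v_mul_le_left ((A.valuation_le_one_iff _).mpr
      (by apply_rules [sub_mem, add_mem, mul_mem, pow_mem, ofNat_mem]))
  have hG : A.valuation (c6UV U 1 + 1) ≤ A.valuation U := by
    rw [show c6UV U 1 + 1 = U * (522 * U ^ 4 - U ^ 5 + 10005 * U ^ 3 + 10005 * U - 522) by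
      simp only [c6UV]; ring]
    exact v_mul_le_left ((A.valuation_le_one_iff _).mpr
      (by apply_rules [sub_mem, add_mem, mul_mem, pow_mem, ofNat_mem]))
  refine ⟨r, s, _, _, X ^ 6 * (U * (U ^ 2 - 11 * U - 1) ^ 5), n, hfix, e4, e6, ?_, ?_, ?_, ?_, ?_,
    ?_, ?_⟩
  · linear_combination X ^ 6 * c4UV_syzygy U
  · rw [map_mul, map_pow, hdat.unitX, one_pow, one_mul]; exact hx1
  · rw [map_mul, map_pow, hdat.unitX, one_pow, one_mul]; exact hy1
  · rw [map_mul, map_mul, map_pow, map_pow, hdat.unitX, one_pow, one_mul,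
      show U ^ 2 - 11 * U - 1 = -1 + U * (U - 11) by ring,
      v_add_eq_one (by rw [A.valuation.map_neg, A.valuation.map_one])
        (v_mul_lt_one hU1 ((A.valuation_le_one_iff _).mpr (sub_mem mU (ofNat_mem A 11)))),
      one_pow, mul_one, hvU, hdat.val, Rat.cast_intCast, Int.cast_mul, Int.cast_pow, map_mul,
      map_pow, Int.cast_ofNat]
  · rw [show X ^ 2 * c4UV U 1 - ((n ^ 2 : ℤ) : Qb) =
      X ^ 2 * (c4UV U 1 - 1) + (X ^ 2 - (n : Qb) ^ 2) by push_cast; ring]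
    refine A.valuation.map_add_le ?_ ((v_sub_sq_le hdat.unitX.le hn1).trans hn)
    rw [map_mul, map_pow, hdat.unitX, one_pow, one_mul]
    exact hH.trans hU10
  · rw [show X ^ 3 * c6UV U 1 - ((-n ^ 3 : ℤ) : Qb) =
      X ^ 3 * (c6UV U 1 + 1) - (X ^ 3 - (n : Qb) ^ 3) by push_cast; ring]
    refine (A.valuation.map_sub _ _).trans
      (max_le ?_ ((v_sub_cube_le hdat.unitX.le hn1).trans hn))
    rw [map_mul, map_pow, hdat.unitX, one_pow, one_mul]
    exact hG.trans hU10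
  · have key : A.valuation ((n ^ 3 + W.c₆ : ℤ) : Qb) ≤ A.valuation ((2 : ℕ) : Qb) ^ 2 := by
      rw [v2, show ((n ^ 3 + W.c₆ : ℤ) : Qb) = X ^ 3 * (c6UV T 1 + 1) - (X ^ 3 - (n : Qb) ^ 3) by
        push_cast
        linear_combination -(hdat.eq6.trans (by rw [hBb, Rat.cast_intCast]))]
      refine (A.valuation.map_sub _ _).trans (max_le ?_
        ((v_sub_cube_le hdat.unitX.le hn1).trans (hn.trans (pow_le_pow_of_le_one zero_le hε1
          (by norm_num)))))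
      rw [map_mul, map_pow, hdat.unitX, one_pow, one_mul,
        show c6UV T 1 + 1 = T * (T * (522 * T ^ 3 - T ^ 4 + 10005 * T ^ 2 + 10005) - 2 * 261) by
          simp only [c6UV]; ring, map_mul, pow_two ε]
      refine mul_le_mul' hvT ((A.valuation.map_sub _ _).trans (max_le ?_ ?_))
      · exact (v_mul_le_left ((A.valuation_le_one_iff _).mpr
          (by apply_rules [sub_mem, add_mem, mul_mem, pow_mem, ofNat_mem]))).trans hvT
      · exact v_mul_le_left ((A.valuation_le_one_iff _).mpr (ofNat_mem A 261))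
    have := (intCast_le_pow_iff hq hA _ 2).mp key
    exact_mod_cast this

set_option maxHeartbeats 3200000 in
/-- **The `5`-switch with a prescribed target at `2`.** -/
theorem exists_five_switch_target (W : WeierstrassCurve ℤ) (hΔ : W.Δ ≠ 0) (hW : W.IsSemistableModel)
    (htwo : ∀ (B : Base), B.a = (W.c₄ : ℚ) → B.b = (W.c₆ : ℚ) → ∀ (e : Fin 2 → Qb), B.InV e →
      det2 B.w e ≠ 0 → ∀ (A : ValuationSubring Qb), A.LiesOverPrime 2 →
      ∃ (r s x y z : Qb) (D₂ : ℤ) (Wq : WeierstrassCurve ℤ),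
        (∀ σ : GQ, σ • A = A → σ r = r ∧ σ s = s) ∧
        klC4 (r * B.w 0 + s * e 0) (r * B.w 1 + s * e 1) = x ∧
        klC6 (r * B.w 0 + s * e 0) (r * B.w 1 + s * e 1) = y ∧
        x ^ 3 - y ^ 2 = 1728 * z ∧ A.valuation x ≤ 1 ∧ A.valuation y ≤ 1 ∧
        A.valuation z = A.valuation (D₂ : Qb) ∧ D₂ ≠ 0 ∧ 3 ∣ padicValInt 2 D₂ ∧
        A.valuation (x - (Wq.c₄ : Qb)) ≤ A.valuation (2 : Qb) ^ prec 2 ∧
        A.valuation (y - (Wq.c₆ : Qb)) ≤ A.valuation (2 : Qb) ^ prec 2 ∧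
        ((2 : ℤ) ∣ Wq.Δ → ¬ (2 : ℤ) ∣ Wq.c₄)) :
    ∃ W' : WeierstrassCurve ℤ, W'.Δ ≠ 0 ∧ W'.IsSemistableModel ∧ W'.ModRepIsIrreducible 3 ∧
      ((2 : ℤ) ∣ W'.Δ → 3 ∣ padicValInt 2 W'.Δ) ∧
      TorsIso 5 (FA.Frob.ratCurve W) (FA.Frob.ratCurve W') ∧
      ((5 : ℤ) ∣ W.Δ ↔ (5 : ℤ) ∣ W'.Δ) := by
  classical
  obtain ⟨B, hBa, hBb⟩ := exists_base (a := (W.c₄ : ℚ)) (b := (W.c₆ : ℚ))
    (Int.cast_ne_zero.mpr (c₄_ne_zero W hW)) (Int.cast_ne_zero.mpr (c₆_ne_zero W hW))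
    (fun h => by
      have h' : W.c₄ ^ 3 = W.c₆ ^ 2 := by exact_mod_cast h
      have := W.c_relation
      rw [h', sub_self] at this
      exact hΔ ((mul_eq_zero.mp this).resolve_left (by norm_num)))
  obtain ⟨e, he, hind', hef⟩ := B.exists_frame
  have hind : det2 B.w e ≠ 0 := fun h => hind' (by simp only [det2] at h; linear_combination -h)
  obtain ⟨hw4, hw6⟩ := base_sat hBa hBb
  -- the exceptional primes
  obtain ⟨N, hN0, hN⟩ := exists_good_outside [B.w 0, B.w 1, e 0, e 1, (det2 B.w e)⁻¹]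
  set S : Finset ℕ := {2, 3, 5} ∪ W.Δ.natAbs.primeFactors ∪ N.primeFactors with hSdef
  have hS : ∀ p ∈ S, p.Prime := fun p hp => by
    simp only [hSdef, Finset.mem_union, Finset.mem_insert, Finset.mem_singleton] at hp
    rcases hp with ((rfl | rfl | rfl) | h) | h
    exacts [Nat.prime_two, Nat.prime_three, Nat.prime_five, Nat.prime_of_mem_primeFactors h,
      Nat.prime_of_mem_primeFactors h]
  have hmS : ∀ p, p = 2 ∨ p = 3 ∨ p = 5 → p ∈ S := fun p hp => by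
    rcases hp with rfl | rfl | rfl <;> simp [hSdef]
  have hout : ∀ p, p.Prime → p ∉ S → p ≠ 2 ∧ p ≠ 3 ∧ p ≠ 5 ∧ ¬ p ∣ N := fun p hp hpS => by
    refine ⟨fun h => hpS (hmS p (.inl h)), fun h => hpS (hmS p (.inr (.inl h))),
      fun h => hpS (hmS p (.inr (.inr h))), fun h => hpS ?_⟩
    exact Finset.mem_union_right _ (Nat.mem_primeFactors.mpr ⟨hp, h, hN0.ne'⟩)
  choose! P hP using fun (p : ℕ) (hp : p.Prime) => FA.Deform.exists_liesOverPrime hp
  -- the target at `2`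
  obtain ⟨r₂, s₂, x₂, y₂, z₂, D₂, Wq, hfix₂, e4₂, e6₂, hz₂, hx₂, hy₂, hvz₂, hD₂, hD₂3, hx₂n,
    hy₂n, hWq⟩ := htwo B hBa hBb e he hind (P 2) (hP 2 Nat.prime_two)
  -- targets
  set r : ℕ → Qb := fun p => if p = 2 then r₂ else 1 with hr
  set s : ℕ → Qb := fun p => if p = 2 then s₂ else 0 with hs
  set x : ℕ → Qb := fun p => if p = 2 then x₂ else (W.c₄ : Qb) with hxdef
  set y : ℕ → Qb := fun p => if p = 2 then y₂ else (W.c₆ : Qb) with hydef
  set D₀ : ℕ → ℤ := fun p => if p = 2 then D₂ else W.Δ with hD₀def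
  set z : ℕ → Qb := fun p => if p = 2 then z₂ else (W.Δ : Qb) with hzdef
  set Wp : ℕ → WeierstrassCurve ℤ := fun p => if p = 2 then Wq else W with hWp
  set m₀ : ℕ → ℕ := fun p => padicValInt p (1728 * D₀ p) + 11 with hm₀
  set P4 : MvPolynomial (Fin 2) Qb := klC4
    (MvPolynomial.X 0 * MvPolynomial.C (B.w 0) + MvPolynomial.X 1 * MvPolynomial.C (e 0))
    (MvPolynomial.X 0 * MvPolynomial.C (B.w 1) + MvPolynomial.X 1 * MvPolynomial.C (e 1))
  set P6 : MvPolynomial (Fin 2) Qb := klC6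
    (MvPolynomial.X 0 * MvPolynomial.C (B.w 0) + MvPolynomial.X 1 * MvPolynomial.C (e 0))
    (MvPolynomial.X 0 * MvPolynomial.C (B.w 1) + MvPolynomial.X 1 * MvPolynomial.C (e 1))
  have hP46 : ∀ v : Fin 2 → Qb,
      MvPolynomial.eval v P4 = klC4 (v 0 * B.w 0 + v 1 * e 0) (v 0 * B.w 1 + v 1 * e 1) ∧
      MvPolynomial.eval v P6 = klC6 (v 0 * B.w 0 + v 1 * e 0) (v 0 * B.w 1 + v 1 * e 1) :=
    fun v => by constructor <;> simp [P4, P6, map_klC4, map_klC6]
  have hfix : ∀ p ∈ S, ∀ σ : GQ, σ • P p = P p → σ (r p) = r p ∧ σ (s p) = s p := by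
    intro p _ σ hσ
    by_cases hp : p = 2
    · subst hp; simpa [hr, hs] using hfix₂ σ hσ
    · simp [hr, hs, hp]
  have htarget : ∀ p, klC4 (r p * B.w 0 + s p * e 0) (r p * B.w 1 + s p * e 1) = x p ∧
      klC6 (r p * B.w 0 + s p * e 0) (r p * B.w 1 + s p * e 1) = y p := fun p => by
    by_cases hp : p = 2
    · subst hp; simp [hr, hs, hxdef, hydef, e4₂, e6₂]
    · simp [hr, hs, hxdef, hydef, hp, hw4, hw6]
  choose! ν hν4 hν6 using fun p (hp : p ∈ S) => show ∃ ν : ℕ,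
      (∀ v : Fin 2 → Qb, (∀ i, (P p).valuation (v i - ![r p, s p] i) ≤
          (P p).valuation (p : Qb) ^ ν) →
        (P p).valuation (MvPolynomial.eval v P4 - x p) ≤ (P p).valuation (p : Qb) ^ m₀ p) ∧
      (∀ v : Fin 2 → Qb, (∀ i, (P p).valuation (v i - ![r p, s p] i) ≤
          (P p).valuation (p : Qb) ^ ν) →
        (P p).valuation (MvPolynomial.eval v P6 - y p) ≤ (P p).valuation (p : Qb) ^ m₀ p) by
    have hA := hP p (hS p hp)
    obtain ⟨ν₄, h₄⟩ := exists_continuity (hS p hp) hA P4 ![r p, s p] (m₀ p)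
    obtain ⟨ν₆, h₆⟩ := exists_continuity (hS p hp) hA P6 ![r p, s p] (m₀ p)
    have e4' : MvPolynomial.eval ![r p, s p] P4 = x p := by
      rw [(hP46 _).1]; exact (htarget p).1
    have e6' : MvPolynomial.eval ![r p, s p] P6 = y p := by
      rw [(hP46 _).2]; exact (htarget p).2
    refine ⟨max ν₄ ν₆, fun v hv => ?_, fun v hv => ?_⟩
    · rw [← e4']; exact h₄ v fun i => (hv i).trans (pow_q_anti hA (le_max_left _ _))
    · rw [← e6']; exact h₆ v fun i => (hv i).trans (pow_q_anti hA (le_max_right _ _))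
  obtain ⟨m, M, a, b, hm0, hmS', hM0, hMS, ha0, hab, happr⟩ :=
    exists_approx S hS P (fun p hp => hP p (hS p hp)) r s hfix ν
  -- the family
  set sj : ℕ → ℤ := fun j => b + M * (a * j) with hsj
  set V : ℕ → Fin 2 → Qb := fun j i =>
    (((a : ℚ) / m : ℚ) : Qb) * B.w i + (((sj j : ℚ) / m : ℚ) : Qb) * e i with hVdef
  have hV : ∀ j, B.InV (V j) := fun j => B.inV_base.lin he _ _
  choose c4 c6 hc4 hc6 using fun j => (hV j).exists_invariants
  have hVev : ∀ j, MvPolynomial.eval ![(a : Qb) / m, (sj j : Qb) / m] P4 = (c4 j : Qb) ∧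
      MvPolynomial.eval ![(a : Qb) / m, (sj j : Qb) / m] P6 = (c6 j : Qb) := fun j => by
    rw [(hP46 _).1, (hP46 _).2, hc4, hc6]
    simp [hVdef]
  have hclose : ∀ j, ∀ p ∈ S, (P p).valuation ((c4 j : Qb) - x p) ≤ (P p).valuation (p : Qb) ^ m₀ p ∧
      (P p).valuation ((c6 j : Qb) - y p) ≤ (P p).valuation (p : Qb) ^ m₀ p := fun j p hp => by
    obtain ⟨h₁, h₂⟩ := happr p hp 0 (a * j)
    rw [mul_zero, add_zero] at h₁
    have hv : ∀ i, (P p).valuation (![(a : Qb) / m, (sj j : Qb) / m] i - ![r p, s p] i) ≤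
        (P p).valuation (p : Qb) ^ ν p := fun i => by fin_cases i; exacts [h₁, h₂]
    rw [← (hVev j).1, ← (hVev j).2]
    exact ⟨hν4 p hp _ hv, hν6 p hp _ hv⟩
  have hxy1 : ∀ p ∈ S, (P p).valuation (x p) ≤ 1 ∧ (P p).valuation (y p) ≤ 1 := fun p _ => by
    by_cases h : p = 2
    · subst h; simp [hxdef, hydef, hx₂, hy₂]
    · simp [hxdef, hydef, h, FA.Local.intCast_le_one]
  have hscaled : ∀ j, (m : Qb) ^ 20 * (c4 j : Qb) =
      klC4 ((a : Qb) * B.w 0 + sj j * e 0) ((a : Qb) * B.w 1 + sj j * e 1) ∧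
      (m : Qb) ^ 30 * (c6 j : Qb) =
      klC6 ((a : Qb) * B.w 0 + sj j * e 0) ((a : Qb) * B.w 1 + sj j * e 1) := fun j => by
    have hm' : (m : Qb) ≠ 0 := Nat.cast_ne_zero.mpr hm0.ne'
    have e' : ∀ i, (a : Qb) * B.w i + sj j * e i = (m : Qb) * V j i := fun i => by
      simp only [hVdef]; push_cast; field_simp
    rw [hc4, hc6, e' 0, e' 1, klC4_smul, klC6_smul]
    exact ⟨rfl, rfl⟩
  have hgood : ∀ p, p.Prime → p ∉ S → ∀ i : Fin 2, (P p).valuation (B.w i) ≤ 1 ∧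
      (P p).valuation (e i) ≤ 1 ∧ (P p).valuation (det2 B.w e)⁻¹ ≤ 1 ∧
      (P p).valuation (m : Qb) = 1 := fun p hp hpS i => by
    have h := hN p hp (hout p hp hpS).2.2.2 (P p) (hP p hp)
    refine ⟨h _ (by fin_cases i <;> simp), h _ (by fin_cases i <;> simp), h _ (by simp),
      v_natCast_eq_one hp (hP p hp) fun hd => hpS (hmS' p hp hd)⟩
  have hint : ∀ j, ∃ C₄ C₆ : ℤ, (C₄ : ℚ) = c4 j ∧ (C₆ : ℚ) = c6 j := fun j => by
    have key : ∀ p, p.Prime → (P p).valuation (c4 j : Qb) ≤ 1 ∧ (P p).valuation (c6 j : Qb) ≤ 1 := by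
      intro p hp
      by_cases hpS : p ∈ S
      · have h1 := pow_le_one₀ (zero_le (a := (P p).valuation (p : Qb)))
          (v_natPrime_lt (hP p hp)).le (n := m₀ p)
        constructor
        · rw [← sub_add_cancel (c4 j : Qb) (x p)]
          exact (P p).valuation.map_add_le ((hclose j p hpS).1.trans h1) (hxy1 p hpS).1
        · rw [← sub_add_cancel (c6 j : Qb) (y p)]
          exact (P p).valuation.map_add_le ((hclose j p hpS).2.trans h1) (hxy1 p hpS).2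
      · have hg := hgood p hp hpS
        have hy : ∀ i, (a : Qb) * B.w i + sj j * e i ∈ P p := fun i =>
          ((P p).valuation_le_one_iff _).mp ((P p).valuation.map_add_le
            ((map_mul _ _ _).trans_le (mul_le_one' (FA.Local.intCast_le_one a) (hg i).1))
            ((map_mul _ _ _).trans_le (mul_le_one' (FA.Local.intCast_le_one _) (hg i).2.1)))
        constructor
        · have h := congrArg (P p).valuation (hscaled j).1
          rw [map_mul, map_pow, (hg 0).2.2.2, one_pow, one_mul] at h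
          rw [h, (P p).valuation_le_one_iff]
          exact klC4_mem (hy 0) (hy 1)
        · have h := congrArg (P p).valuation (hscaled j).2
          rw [map_mul, map_pow, (hg 0).2.2.2, one_pow, one_mul] at h
          rw [h, (P p).valuation_le_one_iff]
          exact klC6_mem (hy 0) (hy 1)
    obtain ⟨C₄, h₄⟩ := exists_int_of_integral (x := c4 j) fun p hp => ⟨P p, hP p hp, (key p hp).1⟩
    obtain ⟨C₆, h₆⟩ := exists_int_of_integral (x := c6 j) fun p hp => ⟨P p, hP p hp, (key p hp).2⟩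
    exact ⟨C₄, C₆, h₄, h₆⟩
  choose C4 C6 hC4 hC6 using hint
  -- the coefficients
  obtain ⟨W₀, hW₀⟩ := exists_congr_model S hS m₀ Wp
  have hprec : ∀ p, prec p ≤ m₀ p := fun p => by
    simp only [hm₀, prec]; split_ifs <;> omega
  have hm1 : ∀ p, 0 < m₀ p := fun p => by simp [hm₀]
  have hdvd1 : ∀ p : ℕ, (p : ℤ) ∣ ((p ^ m₀ p : ℕ) : ℤ) := fun p => by
    exact_mod_cast dvd_pow_self p (hm1 p).ne'
  have hWp4 : ∀ p ∈ S, (p : ℤ) ∣ (Wp p).Δ → ¬ (p : ℤ) ∣ (Wp p).c₄ := fun p hp => by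
    by_cases h : p = 2
    · subst h; simpa [hWp] using hWq
    · simp only [hWp, if_neg h]; exact hW p (hS p hp)
  have hW₀4 : ∀ p ∈ S, (p : ℤ) ∣ W₀.Δ → ¬ (p : ℤ) ∣ W₀.c₄ := fun p hp hd h4 =>
    hWp4 p hp (by simpa using dvd_sub hd ((hdvd1 p).trans (hW₀ p hp).dvd_Δ))
      (by simpa using dvd_sub h4 ((hdvd1 p).trans (hW₀ p hp).dvd_c₄))
  have hcong : ∀ j, ∀ p ∈ S, (p : ℤ) ^ prec p ∣ C4 j - W₀.c₄ ∧
      (p : ℤ) ^ prec p ∣ C6 j - W₀.c₆ := fun j p hp => by
    have hA := hP p (hS p hp)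
    have hWx : (P p).valuation (x p - ((Wp p).c₄ : Qb)) ≤ (P p).valuation (p : Qb) ^ prec p ∧
        (P p).valuation (y p - ((Wp p).c₆ : Qb)) ≤ (P p).valuation (p : Qb) ^ prec p := by
      by_cases h : p = 2
      · subst h
        simp only [hxdef, hydef, hWp, if_pos, Nat.cast_ofNat]
        exact ⟨hx₂n, hy₂n⟩
      · simp [hxdef, hydef, hWp, h]
    have step : ∀ (C : ℤ) (c : ℚ) (t : Qb) (w₀ wp : ℤ), (C : ℚ) = c →
        (P p).valuation ((c : Qb) - t) ≤ (P p).valuation (p : Qb) ^ m₀ p →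
        (P p).valuation (t - (wp : Qb)) ≤ (P p).valuation (p : Qb) ^ prec p →
        ((p ^ m₀ p : ℕ) : ℤ) ∣ w₀ - wp → (p : ℤ) ^ prec p ∣ C - w₀ := by
      intro C c t w₀ wp hC h1 h2 h3
      refine (intCast_le_pow_iff (hS p hp) hA _ _).mp ?_
      rw [show ((C - w₀ : ℤ) : Qb) = ((c : Qb) - t) + (t - (wp : Qb)) - ((w₀ - wp : ℤ) : Qb) by
        rw [← hC]; push_cast; ring]
      refine ((P p).valuation.map_sub _ _).trans (max_le ((P p).valuation.map_add_le
        (h1.trans (pow_q_anti hA (hprec p))) h2) ?_)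
      exact (intCast_le_pow_iff (hS p hp) hA _ _).mpr
        ((pow_dvd_pow _ (hprec p)).trans (by rwa [Nat.cast_pow] at h3))
    exact ⟨step _ _ _ _ _ (hC4 j) (hclose j p hp).1 hWx.1 (hW₀ p hp).dvd_c₄,
      step _ _ _ _ _ (hC6 j) (hclose j p hp).2 hWx.2 (hW₀ p hp).dvd_c₆⟩
  have hcop : ∀ j, ∀ p : ℕ, p.Prime → p ∉ S → ¬ ((p : ℤ) ∣ C4 j ∧ (p : ℤ) ∣ C6 j) := by
    rintro j p hp hpS ⟨h4, h6⟩
    have hA := hP p hp
    obtain ⟨n2, n3, n5, -⟩ := hout p hp hpS
    refine not_dvd_both (w := B.w) (e := e) hp hA n2 n3 n5 (fun i => (hgood p hp hpS i).1)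
      (fun i => (hgood p hp hpS i).2.1) (hgood p hp hpS 0).2.2.1 hind (a := a) (b := sj j)
      (fun ⟨h₁, h₂⟩ => hab p hp hpS h₁ ?_) ⟨?_, ?_⟩
    · simp only [hsj] at h₂
      simpa using dvd_sub h₂ (dvd_mul_of_dvd_right (dvd_mul_of_dvd_left h₁ (j : ℤ)) (M : ℤ))
    · rw [← (hscaled j).1, map_mul, map_pow, (hgood p hp hpS 0).2.2.2, one_pow, one_mul, ← hC4,
        Rat.cast_intCast]
      exact (intCast_lt_one_iff hp hA _).mpr h4
    · rw [← (hscaled j).2, map_mul, map_pow, (hgood p hp hpS 0).2.2.2, one_pow, one_mul, ← hC6,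
        Rat.cast_intCast]
      exact (intCast_lt_one_iff hp hA _).mpr h6
  choose Wj hWj4 hWj6 hWjs hWjr using fun j => exists_model S hS (hmS 2 (.inl rfl))
    (hmS 3 (.inr (.inl rfl))) W₀ hW₀4 (C4 j) (C6 j) (fun p hp => (hcong j p hp).1)
    (fun p hp => (hcong j p hp).2) (hcop j)
  have hdisc : ∀ j, ∀ p ∈ S, (Wj j).Δ ≠ 0 ∧ padicValInt p (Wj j).Δ = padicValInt p (D₀ p) := by
    intro j p hp
    refine padic_disc (hS p hp) (hP p (hS p hp)) (x := x p) (y := y p) (z := z p) (n := m₀ p)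
      (C₄ := C4 j) (C₆ := C6 j) ?_ ?_ ?_ ?_ (hxy1 p hp).1 (hxy1 p hp).2 ?_ ?_ (by simp [hm₀])
    · rw [← hWj4, ← hWj6]; linear_combination -(Wj j).c_relation
    · by_cases h : p = 2
      · subst h; simpa [hxdef, hydef, hzdef] using hz₂
      · simp [hxdef, hydef, hzdef, h, v_cast_rel]
    · simp only [hD₀def]; split_ifs <;> simp [hΔ, hD₂]
    · by_cases h : p = 2
      · subst h; simpa [hzdef, hD₀def] using hvz₂
      · simp [hzdef, hD₀def, h]
    · simpa [← hC4] using (hclose j p hp).1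
    · simpa [← hC6] using (hclose j p hp).2
  have hred : ∀ j, ∀ p ∈ S, (Wj j).reductionMod p = (Wp p).reductionMod p := fun j p hp =>
    (hWjr j p hp).trans ((hW₀ p hp).reduction (hm1 p))
  -- irreducibility at `3`
  set v₀ : Fin 2 → Qb := fun i => (((a : ℚ) / m : ℚ) : Qb) * B.w i + (((b : ℚ) / m : ℚ) : Qb) * e i
    with hv₀
  set e' : Fin 2 → Qb := fun i => ((0 : ℚ) : Qb) * B.w i + (((M * a : ℚ) / m : ℚ) : Qb) * e i
    with he'
  have hv₀V : B.InV v₀ := B.inV_base.lin he _ _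
  have he'V : B.InV e' := B.inV_base.lin he _ _
  obtain ⟨p4, hp4⟩ := mem_lifts_of_invariant fun σ => (hv₀V.map_lineP he'V σ).1
  obtain ⟨p6, hp6⟩ := mem_lifts_of_invariant fun σ => (hv₀V.map_lineP he'V σ).2
  have hVj : ∀ (j : ℕ) i, v₀ i + ((j : ℚ) : Qb) * e' i = V j i := fun j i => by
    simp only [hv₀, he', hVdef, hsj]; push_cast; ring
  have hev : ∀ j : ℕ, p4.eval (j : ℚ) = (C4 j : ℚ) ∧ p6.eval (j : ℚ) = (C6 j : ℚ) := fun j => by
    constructor <;> apply Rat.cast_injective (α := Qb)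
    · rw [← eval_map_ratCast, hp4, eval_klC4_lineP, hVj, hVj, hC4, hc4]
    · rw [← eval_map_ratCast, hp6, eval_klC6_lineP, hVj, hVj, hC6, hc6]
  have hMa : (((M * a : ℚ) / m : ℚ) : Qb) ≠ 0 := by
    have : ((M : ℚ) * a) / m ≠ 0 := div_ne_zero (mul_ne_zero (Nat.cast_ne_zero.mpr hM0.ne')
      (Int.cast_ne_zero.mpr ha0)) (Nat.cast_ne_zero.mpr hm0.ne')
    exact_mod_cast this
  have hind₀ : e' 0 * v₀ 1 - e' 1 * v₀ 0 ≠ 0 := by
    have ham : (((a : ℚ) / m : ℚ) : Qb) ≠ 0 := by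
      have : (a : ℚ) / m ≠ 0 := div_ne_zero (Int.cast_ne_zero.mpr ha0) (Nat.cast_ne_zero.mpr hm0.ne')
      exact_mod_cast this
    rw [show e' 0 * v₀ 1 - e' 1 * v₀ 0 =
      -((((M * a : ℚ) / m : ℚ) : Qb) * (((a : ℚ) / m : ℚ) : Qb) * det2 B.w e) by
        simp only [he', hv₀, det2, Rat.cast_zero]; ring]
    exact neg_ne_zero.mpr (mul_ne_zero (mul_ne_zero hMa ham) hind)
  have hef' : klF (e' 0) (e' 1) ≠ 0 := by
    simp only [he', Rat.cast_zero, zero_mul, zero_add, klF_smul]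
    exact mul_ne_zero (pow_ne_zero _ hMa) hef
  have t4 := TopCoeff.klC4 (TopCoeff.lineP v₀ e' 0) (TopCoeff.lineP v₀ e' 1)
  have t6 := TopCoeff.klC6 (TopCoeff.lineP v₀ e' 0) (TopCoeff.lineP v₀ e' 1)
  have hne : p4.coeff 20 ^ 3 ≠ p6.coeff 30 ^ 2 := fun h => by
    have h' := congrArg (algebraMap ℚ Qb) h
    rw [map_pow, map_pow, ← Polynomial.coeff_map, ← Polynomial.coeff_map, hp4, hp6, t4.2, t6.2]
      at h'
    have hsy := klein_syzygy (e' 0) (e' 1)
    rw [h', sub_self] at hsy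
    exact mul_ne_zero (by norm_num) (pow_ne_zero 5 hef') hsy.symm
  have hΔj : ∀ j, (Wj j).Δ ≠ 0 := fun j => (hdisc j 2 (hmS 2 (.inl rfl))).1
  obtain ⟨j, hirr⟩ : ∃ j, (Wj j).ModRepIsIrreducible 3 := by
    by_contra hall
    push Not at hall
    obtain ⟨Q, hQdeg, hQ⟩ := exists_poly_root p4 p6
      (by rw [← Polynomial.natDegree_map (algebraMap ℚ Qb), hp4]; exact t4.1)
      (by rw [← Polynomial.natDegree_map (algebraMap ℚ Qb), hp6]; exact t6.1) hne 0 (fun j _ => by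
        obtain ⟨u, hu⟩ := exists_root_of_reducible (Wj j) (hΔj j) (hall j)
        exact ⟨u, by rw [(hev j).1, (hev j).2, ← hWj4, ← hWj6]; exact hu⟩)
    refine no_poly_root hind₀ hef' (Q.map (algebraMap ℚ Qb)) (by rwa [Polynomial.natDegree_map]) ?_
    rw [← hp4, ← hp6, ← Polynomial.coe_mapRingHom, ← map_psiQ, hQ, map_zero]
  have h5S : 5 ∈ S := hmS 5 (.inr (.inr rfl))
  refine ⟨Wj j, hΔj j, hWjs j, hirr, fun _ => ?_, ?_, ?_⟩
  · rw [(hdisc j 2 (hmS 2 (.inl rfl))).2]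
    simpa [hD₀def] using hD₂3
  · have key : ∀ (E : WeierstrassCurve ℤ), E.Δ ≠ 0 →
        TorsIso 5 (FA.Frob.ratCurve E) (shortKl (E.c₄ : ℚ) (E.c₆ : ℚ)) := fun E hE => by
      have := FA.Frob.ratCurve_isElliptic_of_Δ hE
      have : (shortKl (E.c₄ : ℚ) (E.c₆ : ℚ)).IsElliptic := shortKl_isElliptic fun h => by
        have h' : E.c₄ ^ 3 = E.c₆ ^ 2 := by exact_mod_cast h
        have := E.c_relation
        rw [h', sub_self] at this
        exact hE ((mul_eq_zero.mp this).resolve_left (by norm_num))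
      have : Fact (Nat.Prime 5) := ⟨Nat.prime_five⟩
      obtain ⟨C, hC⟩ := isIntegralModelOf_shortKl E
      exact TorsIso.of_vc C hC
    refine ((key W hΔ).trans ?_).trans (key (Wj j) (hΔj j)).symm
    refine B.inV_base.torsIso (hV j) ?_ ?_
    · refine ⟨hw4.trans (by simp), hw6.trans (by simp), ?_⟩
      intro h
      refine hΔ ?_
      have h' : W.c₄ ^ 3 = W.c₆ ^ 2 := by
        simp only [eq_ratCast, Rat.cast_intCast] at h; exact_mod_cast h
      have := W.c_relation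
      rw [h', sub_self] at this
      exact (mul_eq_zero.mp this).resolve_left (by norm_num)
    · refine ⟨?_, ?_, ?_⟩
      · rw [hWj4, hC4, ← hc4]; simp
      · rw [hWj6, hC6, ← hc6]; simp
      · intro h
        refine hΔj j ?_
        have h' : (Wj j).c₄ ^ 3 = (Wj j).c₆ ^ 2 := by
          simp only [eq_ratCast, Rat.cast_intCast] at h; exact_mod_cast h
        have := (Wj j).c_relation
        rw [h', sub_self] at this
        exact (mul_eq_zero.mp this).resolve_left (by norm_num)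
  · refine dvd_iff_dvd_of_padicValInt (hΔj j) hΔ Nat.prime_five ?_
    rw [(hdisc j 5 h5S).2]
    simp [hD₀def]

/-- **The `5`-switch for semistable curves.** -/
theorem fiveToThree : FiveToThree := fun W hΔ hW => by
  refine exists_five_switch_target W hΔ hW fun B hBa hBb e he hind A hA => ?_
  obtain ⟨hw4, hw6⟩ := base_sat hBa hBb
  by_cases h2 : (2 : ℤ) ∣ W.Δ
  · have h4 : ¬ (2 : ℤ) ∣ W.c₄ := hW 2 Nat.prime_two (by exact_mod_cast h2)
    obtain ⟨k, hk, hk3⟩ : ∃ k : ℕ, 2 ≤ k ∧ 3 ∣ padicValInt 2 W.Δ + 5 * k :=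
      ⟨(padicValInt 2 W.Δ + 1) % 3 + 2, by omega, by omega⟩
    obtain ⟨r, s, x, y, z, n, hfix, e4, e6, hz, hx, hy, hvz, hxn, hyn, hn4⟩ :=
      exists_five_param_two hW h2 hBa hBb he hind hA hk
    obtain ⟨a, ha⟩ : ∃ a : ℤ, n = 1 + 4 * a := by
      have h0 : ((n ^ 3 + W.c₆ : ℤ) : ZMod 4) = 0 :=
        (ZMod.intCast_zmod_eq_zero_iff_dvd _ _).mpr hn4
      have key : ∀ t : ZMod 4, t ^ 3 + 3 = 0 → t = 1 := by decide
      have h1 := key (n : ZMod 4) (by rw [← c₆_mod_four h4]; simpa using h0)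
      obtain ⟨c, hc⟩ := (ZMod.intCast_eq_intCast_iff_dvd_sub 1 n 4).mp (by simpa using h1.symm)
      exact ⟨c, by push_cast at hc; linarith⟩
    subst ha
    refine ⟨r, s, x, y, z, 2 ^ (5 * k) * W.Δ, ⟨1, a, 0, 0, 0⟩, hfix, e4, e6, hz, hx, hy, hvz,
      mul_ne_zero (pow_ne_zero _ two_ne_zero) hΔ, ?_, ?_, ?_, ?_⟩
    · have : Fact (Nat.Prime 2) := ⟨Nat.prime_two⟩
      rw [padicValInt.mul (pow_ne_zero _ two_ne_zero) hΔ,
        show ((2 : ℤ) ^ (5 * k)) = ((2 ^ (5 * k) : ℕ) : ℤ) by push_cast; rfl, padicValInt.of_nat,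
        padicValNat.prime_pow, add_comm]
      exact hk3
    · rw [show (⟨1, a, 0, 0, 0⟩ : WeierstrassCurve ℤ).c₄ = (1 + 4 * a) ^ 2 by
        simp [WeierstrassCurve.c₄, WeierstrassCurve.b₂, WeierstrassCurve.b₄]]
      exact hxn
    · rw [show (⟨1, a, 0, 0, 0⟩ : WeierstrassCurve ℤ).c₆ = -(1 + 4 * a) ^ 3 by
        simp [WeierstrassCurve.c₆, WeierstrassCurve.b₂, WeierstrassCurve.b₄, WeierstrassCurve.b₆]]
      exact hyn
    · intro _ hd
      rw [show (⟨1, a, 0, 0, 0⟩ : WeierstrassCurve ℤ).c₄ = (1 + 4 * a) ^ 2 by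
        simp [WeierstrassCurve.c₄, WeierstrassCurve.b₂, WeierstrassCurve.b₄]] at hd
      have := Int.prime_two.dvd_of_dvd_pow hd
      omega
  · refine ⟨1, 0, W.c₄, W.c₆, W.Δ, W.Δ, W, fun σ _ => by simp, by simpa using hw4,
      by simpa using hw6, v_cast_rel, FA.Local.intCast_le_one _, FA.Local.intCast_le_one _, rfl, hΔ,
      ?_, by simp, by simp, fun h => absurd h h2⟩
    rw [padicValInt.eq_zero_of_not_dvd (by exact_mod_cast h2)]
    exact dvd_zero 3

end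

end FA.SS
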