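import Fermat.Agent.Root.Semistable.SeedBase
import Fermat.Agent.Root.LiftTwoEnd
import Fermat.Agent.Two.DepthAlg

/-!
# Modularity lifting at `2` for the seeds

Approximate eigenfunctionals from depth algebras and patching, and the limit.
-/

set_option autoImplicit false
set_option linter.unusedSectionVars false
set_option linter.style.haveILetI false
set_option synthInstance.maxHeartbeats 400000
set_option maxHeartbeats 1600000

noncomputable section

open IsLocalRing Matrix WeierstrassCurve FA.EC FA.Frob FA.Deform FA.LocalDef FA.HeckeH1 FA.JTorsion FA.TW FA.Two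
open scoped MatrixGroups Pointwise

namespace FA.SS.Seed

open FA.RT (curveRep)
open FA.RT.Tate
open FA.Theta (badProd)
open FA.ModField (IsTameGen)

local notation "Qb" => AlgebraicClosure ℚ
local notation "GQ" => AlgebraicClosure ℚ ≃ₐ[ℚ] AlgebraicClosure ℚ
local notation "M2" k:max => Matrix (Fin 2) (Fin 2) k

local instance : Fact (Nat.Prime 2) := ⟨Nat.prime_two⟩

variable {W : WeierstrassCurve ℤ} [(ratCurve W).IsElliptic] {O : Type} [CommRing O] [IsDomain O]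
  [IsDiscreteValuationRing O] [IsAdicComplete (maximalIdeal O) O] [CharZero O]
  [CharP (ResidueField O) 2] [Fintype (ResidueField O)]
  {N : ℕ} {B : TateBasis 2 W} {avoid : Finset ℕ} (C : CurveBase W O N B avoid)

/-- The artinian point of the curve satisfies the conditions on further lifts. -/
theorem extraOK (hW : IsSeed W) (ιp : ℤ_[2] →+* O) (h2 : (2 : O) ∈ maximalIdeal O) :
    ExtraOK (seedBd C hW) ιp (ptFamily C hW ιp h2) where
  unr _ l hl hl2 hlD _ A hA σ hσ := (isCurvePoint C hW ιp h2).unr l hl hl2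
    (fun h => hlD ((dvd_badProd_iff hW.neg.ne hl).2 h)) A hA σ hσ
  ram _ l hl hlD A hA σ hσ := (isCurvePoint C hW ιp h2).ram l hl
    (fun e => two_not_dvd_D C hW (e ▸ hlD)) ((dvd_badProd_iff hW.neg.ne hl).1 hlD) A hA σ hσ
  det _ σ := (isCurvePoint C hW ιp h2).det σ
  flat _ A hA := (isCurvePoint C hW ιp h2).flat A hA
  aux _ x A hA φ hφ := (ptFamily_conds C hW ιp h2 ∅).aux () x A hA φ hφ

/-- A prime is unramified in the residual representation away from the omitted primes. -/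
theorem rb_unr (hW : IsSeed W) {ℓ : Nat.Primes} (hℓ : ℓ ∉ (seedBd C hW).S)
    (A : ValuationSubring Qb) (hA : A.LiesOverPrime (ℓ : ℕ)) (σ : GQ)
    (hσ : σ ∈ A.inertiaSubgroupIn ℚ) : C.rb σ = 1 := by
  rw [mem_Bd_S C hW, not_or] at hℓ
  exact (FA.LocalDef.repTwo_eq_one_iff C.S0.r0 σ).2 (C.S0.unr ℓ ℓ.2
    (fun e => hℓ.1 (by rw [e]; exact dvd_mul_right _ _))
    (fun h => hℓ.1 (by rw [C.D_eq] at h; exact h.mul_left 2)) A hA σ hσ)

/-- **Approximate eigenfunctionals of a curve at `p = 2`**, from the depth algebras. -/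
theorem exists_approx (hω : ∃ w : ResidueField O, w ^ 2 + w + 1 = 0)
    (hW : IsSeed W) (h2 : (2 : O) ∈ maximalIdeal O) (ιp : ℤ_[2] →+* O) :
    ∃ ψ : Hom1 (GamH (seedBd C hW).D ⊤) O →ₗ[O] O ⧸ maximalIdeal O ^ N,
      (∃ z ∈ Par (GamH (seedBd C hW).D ⊤) O, ψ z = 1) ∧
      ∀ ℓ : Nat.Primes, ℓ ∉ (seedBd C hW).S → ∀ z ∈ Par (GamH (seedBd C hW).D ⊤) O,
        ψ ((Tc (seedBd C hW).D ⊤ (ℓ : ℕ)).act z) =
          Ideal.Quotient.mk (maximalIdeal O ^ N) ((W.apOfModel ℓ : ℤ) : O) * ψ z := by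
  classical
  rcases Nat.eq_zero_or_pos N with rfl | hN
  · haveI : Subsingleton (O ⧸ maximalIdeal O ^ 0) :=
      Ideal.Quotient.subsingleton_iff.2 (by rw [pow_zero, Ideal.one_eq_top])
    exact ⟨0, ⟨0, zero_mem _, Subsingleton.elim _ _⟩, fun _ _ _ _ => Subsingleton.elim _ _⟩
  obtain ⟨alg⟩ := FA.JTorsion.exists_algebra_qbar
  letI := alg
  obtain ⟨P⟩ := exists_auxPlaces C hW hN
  have hB : (seedBd C hW).BaseOK C.rb := ⟨h2, two_mem C hW, C.span_rb⟩
  have hsq : ∀ l : ℕ, l.Prime → ¬ l * l ∣ (seedBd C hW).D := fun l hl h =>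
    hl.not_isUnit (FA.Root.squarefree_badProd W l h)
  obtain ⟨Pts, M, f, hf, S₀, hloc, hdet, hT0, hop⟩ :=
    P.exists_baseSep hB ιp C.isOpen_ker_rb (residualFrob C hW) (two_not_dvd_lev C hW) hsq
  have hH : S₀.Hyp P ∅ := ⟨h2, C.det_rb, hloc⟩
  obtain ⟨Fr, hFr⟩ := FA.RT.exists_frame_of_span C.rb C.span_rb
  have hup := FA.RT.exists_upper_ne_zero C.rb C.span_rb
  haveI := (seedBd C hW).finite_alg
  obtain ⟨N₀⟩ := exists_baseNew P hB ιp hf S₀ hop hH (ptFamily C hW ιp h2) Fr hFr hup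
  haveI : Finite (ResidueField N₀.M₀.R) := by
    have hker : RingHom.ker N₀.M₀.π = maximalIdeal N₀.M₀.R :=
      eq_maximalIdeal (RingHom.ker_isMaximal_of_surjective _ N₀.M₀.π_surjective)
    exact Finite.of_equiv _ ((RingHom.quotientKerEquivOfSurjective N₀.M₀.π_surjective).symm.trans
      (Ideal.quotEquivOfEq hker)).toEquiv
  have hL : ∀ n, Nonempty (FA.Patch.Level O (Fin (2 * C.r)) Empty (Fin C.r ⊕ Fin C.r) N₀.M₀.R
      Unit Empty (fun _ => N₀.ρ) Empty.elim Empty.elim (fun _ => N₀.act₀.toRingHom) n) := fun n => by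
    obtain ⟨T, -, -, -, hbound⟩ := exists_twData C hW hω n
    obtain ⟨D⟩ := T.exists_depthAlg P hB S₀ hloc hT0 hdet C.isOpen_ker_rb (residualFrob C hW)
      (fun l hl A hA σ hσ => rb_unr C hW hl A hA σ hσ) (two_not_dvd_D C hW)
      fun l hl _ h => hl.not_isUnit (FA.Root.squarefree_badProd W l h)
    obtain ⟨L⟩ := BaseData.TWData.nonempty_depthNew D N₀ Fr hFr hup
    exact L.nonempty_level (S := C.S0) C.D_eq.symm (fun _ => rfl) (extraOK C hW ιp h2)
      (residualFrob C hW) (fun q hq => ⟨(C.aux q hq).1, (C.aux q hq).2.1, (C.aux q hq).2.2.1,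
        Finset.notMem_empty q, (C.aux q hq).2.2.2.2⟩) hbound
  let L := fun n => (hL n).some
  let fc : O ⧸ maximalIdeal O ^ (N + 1) →ₐ[O] O ⧸ maximalIdeal O ^ N :=
    Ideal.Quotient.factorₐ O (Ideal.pow_le_pow_right N.le_succ)
  let x : N₀.M₀.R →ₐ[O] O ⧸ maximalIdeal O ^ N := fc.comp (N₀.M₀.proj (.inr ()))
  obtain ⟨ψ, hψ, hone⟩ := exists_functional (Y := Fin C.r ⊕ Fin C.r) (by simp [two_mul]) N₀.pos L x
  refine P.exists_descent hf hB ιp hN (fun ℓ : Nat.Primes => ((W.apOfModel ℓ : ℤ) : O))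
    (N₀.lift ψ) (BaseNew.lift_one hone) (fun ℓ hℓ v => ?_) fun q v => ?_
  · obtain ⟨A, hA⟩ := FA.Deform.exists_liesOverPrime ℓ.2
    obtain ⟨σ, hσ⟩ := exists_isFrobeniusAt ℓ.2 hA
    rw [BaseNew.lift_eigen x hψ _ (N₀.M₀.rR σ).trace (fun j => ?_) v]
    · refine congrArg (· * _) ?_
      show fc (N₀.M₀.proj (.inr ()) (N₀.M₀.rR σ).trace) = _
      exact congrArg fc ((N₀.M₀.proj_trace (.inr ()) σ).trans (ptRep_trace C hW ιp h2 hℓ hA hσ).1)
    · rw [← hT0 ℓ hℓ A hA σ hσ, S₀.val_trace]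
      exact (N₀.M₀.proj_trace (.inl j) σ).symm
  · rw [BaseNew.lift_eigen x hψ _ ((N₀.M₀.rR (P.s q * P.γ)).trace - (N₀.M₀.rR P.γ).trace)
      (fun j => ?_) v]
    · have h1 : C.ptRep ιp (P.s q) = 1 :=
        (ptRep_aux C hW ιp h2 q.2 (P.lies q) (P.frob q)).2.2 _ (P.tame q).1
      have e : x ((N₀.M₀.rR (P.s q * P.γ)).trace - (N₀.M₀.rR P.γ).trace) = 0 := by
        have ep : ∀ g, x (N₀.M₀.rR g).trace = fc (C.ptRep ιp g).trace := fun g =>
          congrArg fc (N₀.M₀.proj_trace (.inr ()) g)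
        rw [map_sub x, ep, ep, map_mul, h1, one_mul, sub_self]
      rw [e, zero_mul]
    · rw [← hop, SepAlg.nOp, SepAlg.op_eq, map_sub, S₀.val_trace, S₀.val_trace, map_sub]
      exact (congrArg₂ (fun a b : S₀.fam.B j.1 => a - b) (N₀.M₀.proj_trace (.inl j) _) (N₀.M₀.proj_trace (.inl j) _)).symm

/-- **Modularity lifting at `2` for the seeds.** -/
theorem _root_.FA.SS.liftSeed : LiftSeed := by
  classical
  intro W hW
  have hneg := hW.neg
  haveI : (ratCurve W).IsElliptic := FA.Frob.ratCurve_isElliptic_of_Δ hneg.ne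
  haveI : NeZero (badProd W) := ⟨(FA.Root.badProd_pos W).ne'⟩
  obtain ⟨O, _, _, _, _, _, _, h2, hmax, ⟨ι⟩, j, hj⟩ := FA.RT.exists_coefficients 2
  haveI : Fintype (ResidueField O) := Fintype.ofFinite _
  have h2' : (2 : O) ∈ maximalIdeal O := by exact_mod_cast h2
  haveI : CharP (ResidueField O) 2 := (CharP.charP_iff_prime_eq_zero Nat.prime_two).mpr (by
    rw [← map_natCast (residue O), residue_eq_zero_iff]
    exact h2)
  obtain ⟨B⟩ := exists_tateBasis (p := 2) (W := W)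
  obtain ⟨w, hw⟩ := hj 1 1
  have hω : ∃ w : ResidueField O, w ^ 2 + w + 1 = 0 := ⟨w, by
    rw [map_one, one_mul, CharTwo.sub_eq_add] at hw
    rw [sq]
    exact hw⟩
  refine FA.Two.isModularModelOfLevel_of_bounded_approx (O := O) W hneg.ne (badProd W)
    ((2 * badProd W).primeFactors.subtype Nat.Prime) (fun ℓ hℓ => ?_) fun N => ?_
  · exact Finset.mem_subtype.2 (Nat.mem_primeFactors.2
      ⟨ℓ.2, hℓ.mul_left 2, mul_ne_zero two_ne_zero (FA.Root.badProd_pos W).ne'⟩)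
  · obtain ⟨C⟩ := exists_curveBase W O hW N B (Finset.range (N + 1))
    obtain ⟨ψ, hz, hψ⟩ := exists_approx C hω hW h2' ι
    refine ⟨ψ, hz, fun ℓ hℓ hℓN => hψ ℓ fun hS => ?_⟩
    rcases (mem_Bd_S C hW).1 hS with hd | hQ
    · exact hℓ (Finset.mem_subtype.2 (Nat.mem_primeFactors.2
        ⟨ℓ.2, hd, mul_ne_zero two_ne_zero (FA.Root.badProd_pos W).ne'⟩))
    · exact (C.aux _ hQ).2.2.2.1 (Finset.mem_range.2 (Nat.lt_succ_of_le hℓN))

end FA.SS.Seed

end
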