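import Mathlib.Tactic.Ring
import Mathlib.Algebra.Ring.Hom.Defs

/-!
# The explicit members of the family of curves with given `3`-torsion

For `a³ - b² = 1728 d` the members have invariants `(a Φ, Ψ)` and discriminant `d D³`, where
`Φ, Ψ, D` are forms in the parameters `(r, σ)`; the member `(1, 0)` is the curve itself.
-/

set_option autoImplicit false

namespace FA.SS

variable {R : Type*} [CommRing R]

/-- `c₄` of a member, divided by `a`. -/
def phi4 (b d r σ : R) : R :=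
  r ^ 4 + 648 * d * r ^ 2 * σ ^ 2 - 216 * (b * d) * r * σ ^ 3 - 34992 * d ^ 2 * σ ^ 4

/-- `c₆` of a member. -/
def psi6 (a b d r σ : R) : R :=
  b * r ^ 6 + 2592 * d * r ^ 5 * σ - 1620 * (b * d) * r ^ 4 * σ ^ 2 +
    (540 * a ^ 3 * d - 933120 * d ^ 2) * r ^ 3 * σ ^ 3 + 174960 * (b * d ^ 2) * r ^ 2 * σ ^ 4 +
    (34992 * a ^ 3 * d ^ 2 + 30233088 * d ^ 3) * r * σ ^ 5 -
    b * d ^ 2 * (5832 * a ^ 3 + 1259712 * d) * σ ^ 6

/-- The form whose cube is the ratio of the discriminants. -/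
def disc4 (a b d r σ : R) : R :=
  r ^ 4 - b * r ^ 3 * σ - 648 * d * r ^ 2 * σ ^ 2 + 108 * (b * d) * r * σ ^ 3 +
    (11664 * d ^ 2 - 27 * a ^ 3 * d) * σ ^ 4

lemma map_phi4 {S : Type*} [CommRing S] (f : R →+* S) (b d r σ : R) :
    f (phi4 b d r σ) = phi4 (f b) (f d) (f r) (f σ) := by
  simp [phi4, map_ofNat]

lemma map_psi6 {S : Type*} [CommRing S] (f : R →+* S) (a b d r σ : R) :
    f (psi6 a b d r σ) = psi6 (f a) (f b) (f d) (f r) (f σ) := by
  simp [psi6, map_ofNat]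

lemma map_disc4 {S : Type*} [CommRing S] (f : R →+* S) (a b d r σ : R) :
    f (disc4 a b d r σ) = disc4 (f a) (f b) (f d) (f r) (f σ) := by
  simp [disc4, map_ofNat]

end FA.SS
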