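import Fermat.Agent.Switch.Level3.Cusp
import Fermat.Agent.Root.Semistable.Forms

/-!
# The explicit frame of a twisted plane of level `3`

The covariant `e = D · J ∇c₄ / 4` is equivariant for the symmetries of `(c₄, c₆)`, so its value at
the base point lies in the twisted plane; in the frame `(w, e)` the invariants are the explicit
forms.
-/

set_option autoImplicit false

open Matrix

namespace FA.SS

noncomputable section

open FA.Switch (det2 det2_mulVec)
open FA.Switch.L3 (hc4 hc6 hD symM hesse_syzygy exists_hD_scalar)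

local notation "Qb" => AlgebraicClosure ℚ
local notation "GQ" => AlgebraicClosure ℚ ≃ₐ[ℚ] AlgebraicClosure ℚ

/-- A quarter of the rotated gradient of `c₄`. -/
def polar4 (x : Fin 2 → Qb) : Fin 2 → Qb :=
  ![162 * x 0 * x 1 ^ 2, -(x 0 ^ 3 + 54 * x 1 ^ 3)]

/-- The rotated gradient of `D`. -/
def polarD (x : Fin 2 → Qb) : Fin 2 → Qb :=
  ![x 0 ^ 3 - 108 * x 1 ^ 3, -(3 * x 0 ^ 2 * x 1)]

lemma polar_det2 (x : Fin 2 → Qb) : det2 (polar4 x) (polarD x) = hc6 (x 0) (x 1) := by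
  simp [det2, polar4, polarD, hc6]
  ring

lemma polar4_eq (x y : Fin 2 → Qb) :
    48 * det2 (polar4 x) y = 8 * (hc4 (x 0 + y 0) (x 1 + y 1) - hc4 (x 0 - y 0) (x 1 - y 1)) -
      (hc4 (x 0 + 2 * y 0) (x 1 + 2 * y 1) - hc4 (x 0 - 2 * y 0) (x 1 - 2 * y 1)) := by
  simp [det2, polar4, hc4]
  ring

lemma polarD_eq (x y : Fin 2 → Qb) :
    12 * det2 (polarD x) y = 8 * (hD (x 0 + y 0) (x 1 + y 1) - hD (x 0 - y 0) (x 1 - y 1)) -
      (hD (x 0 + 2 * y 0) (x 1 + 2 * y 1) - hD (x 0 - 2 * y 0) (x 1 - 2 * y 1)) := by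
  simp [det2, polarD, hD]
  ring

lemma mulVec_shift (g : Matrix (Fin 2) (Fin 2) Qb) (c : Qb) (x y : Fin 2 → Qb) (i : Fin 2) :
    g.mulVec ![x 0 + c * y 0, x 1 + c * y 1] i = g.mulVec x i + c * g.mulVec y i := by
  fin_cases i <;> simp [Matrix.mulVec, dotProduct, Fin.sum_univ_two] <;> ring

/-- A symmetry multiplies `D` by its determinant and commutes with the covariant. -/
lemma polar4_mulVec (g : symM Qb) {x : Fin 2 → Qb} (hx : hc6 (x 0) (x 1) ≠ 0) :
    hD ((g : Matrix (Fin 2) (Fin 2) Qb).mulVec x 0) ((g : Matrix (Fin 2) (Fin 2) Qb).mulVec x 1) =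
      (g : Matrix (Fin 2) (Fin 2) Qb).det * hD (x 0) (x 1) ∧
    (g : Matrix (Fin 2) (Fin 2) Qb).det • polar4 ((g : Matrix (Fin 2) (Fin 2) Qb).mulVec x) =
      (g : Matrix (Fin 2) (Fin 2) Qb).mulVec (polar4 x) := by
  obtain ⟨ζ, -, hζ⟩ := exists_hD_scalar g
  set M : Matrix (Fin 2) (Fin 2) Qb := (g : Matrix (Fin 2) (Fin 2) Qb)
  have hM : M.det ≠ 0 := g.2.1
  have k4 : ∀ (c : Qb) (y : Fin 2 → Qb),
      hc4 (M.mulVec x 0 + c * M.mulVec y 0) (M.mulVec x 1 + c * M.mulVec y 1) =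
        hc4 (x 0 + c * y 0) (x 1 + c * y 1) := fun c y => by
    rw [← mulVec_shift, ← mulVec_shift]
    exact (g.2.2 _).1.trans (by simp)
  have kD : ∀ (c : Qb) (y : Fin 2 → Qb),
      hD (M.mulVec x 0 + c * M.mulVec y 0) (M.mulVec x 1 + c * M.mulVec y 1) =
        ζ * hD (x 0 + c * y 0) (x 1 + c * y 1) := fun c y => by
    rw [← mulVec_shift, ← mulVec_shift]
    exact (hζ _).trans (by simp)
  have p4 : ∀ y, det2 (polar4 (M.mulVec x)) (M.mulVec y) = det2 (polar4 x) y := fun y => by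
    have a1 := k4 1 y; have a2 := k4 (-1) y; have a3 := k4 2 y; have a4 := k4 (-2) y
    simp only [one_mul, neg_mul, ← sub_eq_add_neg] at a1 a2 a3 a4
    refine mul_left_cancel₀ (show (48 : Qb) ≠ 0 by norm_num) ?_
    rw [polar4_eq, polar4_eq, a1, a2, a3, a4]
  have pD : ∀ y, det2 (polarD (M.mulVec x)) (M.mulVec y) = ζ * det2 (polarD x) y := fun y => by
    have a1 := kD 1 y; have a2 := kD (-1) y; have a3 := kD 2 y; have a4 := kD (-2) y
    simp only [one_mul, neg_mul, ← sub_eq_add_neg] at a1 a2 a3 a4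
    refine mul_left_cancel₀ (show (12 : Qb) ≠ 0 by norm_num) ?_
    rw [polarD_eq, mul_left_comm, polarD_eq, a1, a2, a3, a4]
    ring
  have jac : ∀ (P Q z t : Fin 2 → Qb),
      det2 P z * det2 Q t - det2 P t * det2 Q z = det2 P Q * det2 z t := fun P Q z t => by
    simp only [det2]; ring
  have hdet : M.det = ζ := by
    have h := jac (polar4 (M.mulVec x)) (polarD (M.mulVec x)) (M.mulVec ![1, 0]) (M.mulVec ![0, 1])
    rw [p4, p4, pD, pD, polar_det2, (g.2.2 x).2, det2_mulVec] at h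
    have h' := jac (polar4 x) (polarD x) ![1, 0] ![0, 1]
    rw [polar_det2] at h'
    have e1 : det2 ![(1 : Qb), 0] ![0, 1] = 1 := by simp [det2]
    rw [e1] at h h'
    refine mul_right_cancel₀ hx ?_
    linear_combination ζ * h' - h
  refine ⟨by rw [hζ x, hdet], ?_⟩
  have hz : ∀ z, det2 (M.det • polar4 (M.mulVec x)) z = det2 (M.mulVec (polar4 x)) z := fun z => by
    obtain ⟨y, rfl⟩ : ∃ y, M.mulVec y = z :=
      ⟨M⁻¹.mulVec z, by rw [mulVec_mulVec, mul_nonsing_inv _ hM.isUnit, one_mulVec]⟩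
    rw [det2_mulVec, ← p4 y]
    simp only [det2, Pi.smul_apply, smul_eq_mul]
    ring
  funext i
  have h1 := hz ![0, 1]
  have h2 := hz ![-1, 0]
  simp only [det2, cons_val_zero, cons_val_one, mul_one, mul_zero, sub_zero, zero_sub, mul_neg,
    neg_neg] at h1 h2
  fin_cases i
  · exact h1
  · exact h2

lemma frame_identities (u v r s : Qb) :
    hc4 (r * u + s * (hD u v * (162 * u * v ^ 2))) (r * v + s * (hD u v * -(u ^ 3 + 54 * v ^ 3))) =
      hc4 u v * phi4 (hc6 u v) (hD u v ^ 3) r s ∧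
    hc6 (r * u + s * (hD u v * (162 * u * v ^ 2))) (r * v + s * (hD u v * -(u ^ 3 + 54 * v ^ 3))) =
      psi6 (hc4 u v) (hc6 u v) (hD u v ^ 3) r s := by
  constructor <;> simp only [hc4, hc6, hD, phi4, psi6] <;> ring

/-- The twisted plane has the explicit frame. -/
theorem exists_member_frame (B : FA.Switch.L3.Base) (d : ℚ) (hd : B.a ^ 3 - B.b ^ 2 = 1728 * d) :
    ∃ e3 : Fin 2 → Qb, B.InV e3 ∧ det2 B.w e3 ≠ 0 ∧ ∀ r s : Qb,
      hc4 (r * B.w 0 + s * e3 0) (r * B.w 1 + s * e3 1) =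
        (B.a : Qb) * phi4 (B.b : Qb) (d : Qb) r s ∧
      hc6 (r * B.w 0 + s * e3 0) (r * B.w 1 + s * e3 1) =
        psi6 (B.a : Qb) (B.b : Qb) (d : Qb) r s := by
  have e4 : hc4 (B.w 0) (B.w 1) = (B.a : Qb) := B.sat.eq4.trans (eq_ratCast _ _)
  have e6 : hc6 (B.w 0) (B.w 1) = (B.b : Qb) := B.sat.eq6.trans (eq_ratCast _ _)
  have eD : hD (B.w 0) (B.w 1) ^ 3 = (d : Qb) := by
    have h := congrArg (Rat.cast : ℚ → Qb) hd
    push_cast at h
    refine mul_left_cancel₀ (show (1728 : Qb) ≠ 0 by norm_num) ?_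
    rw [← hesse_syzygy, e4, e6, h]
  have hδ : hD (B.w 0) (B.w 1) ≠ 0 := B.sat.hD_ne_zero
  have hb : hc6 (B.w 0) (B.w 1) ≠ 0 := by rw [e6]; exact_mod_cast B.hb
  refine ⟨hD (B.w 0) (B.w 1) • polar4 B.w, fun σ => ?_, ?_, fun r s => ?_⟩
  · obtain ⟨h1, h2⟩ := polar4_mulVec (B.cocycle σ) hb
    rw [mulVec_smul, ← h2, smul_smul, mul_comm, ← h1, B.cocycle_spec]
    funext i
    have k := FA.Switch.L3.map_hD (σ : Qb →+* Qb) (B.w 0) (B.w 1)
    simp only [RingHom.coe_coe] at k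
    fin_cases i <;> simp [polar4, k, map_ofNat]
  · intro h
    refine mul_ne_zero hδ (show (B.a : Qb) ≠ 0 from by exact_mod_cast B.ha) ?_
    simp [det2, polar4] at h
    rw [← e4, hc4]
    linear_combination -h
  · rw [← e4, ← e6, ← eD]
    simpa [polar4] using frame_identities (B.w 0) (B.w 1) r s

end

end FA.SS
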