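import Fermat.Agent.Root.Semistable.Target
import Fermat.Agent.Root.Semistable.FrameThree

/-!
# Targets at `2` for every admissible semistable curve

If `2 ∣ Δ` the target comes from the cusp; if the reduction is supersingular it is the base point;
if it is ordinary it is the second vector of the explicit frame, whose model has `a₁ = 0`, `a₃ = 1`.
-/

set_option autoImplicit false

open WeierstrassCurve
open scoped Pointwise

namespace FA.SS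

noncomputable section

local notation "Qb" => AlgebraicClosure ℚ

variable {W : WeierstrassCurve ℤ}

/-- An even `a₁` at a good prime `2` forces an odd `a₃`. -/
lemma a₃_odd_of_a₁_even (hd : ¬ (2 : ℤ) ∣ W.Δ) (h1 : (2 : ℤ) ∣ W.a₁) : ¬ (2 : ℤ) ∣ W.a₃ := by
  intro h3
  have e : ∀ {x : ℤ}, (2 : ℤ) ∣ x → (x : ZMod 2) = 0 := fun h =>
    (ZMod.intCast_zmod_eq_zero_iff_dvd _ 2).mpr (by exact_mod_cast h)
  refine hd ?_
  have h : (W.Δ : ZMod 2) = 0 := by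
    simp only [WeierstrassCurve.Δ, WeierstrassCurve.b₂, WeierstrassCurve.b₄, WeierstrassCurve.b₆,
      WeierstrassCurve.b₈]
    push_cast
    rw [e h1, e h3, show (2 : ZMod 2) = 0 from rfl, show (4 : ZMod 2) = 0 from rfl]
    ring
  exact_mod_cast (ZMod.intCast_zmod_eq_zero_iff_dvd _ 2).mp h

/-- An odd `a₁` makes `c₄` congruent to `1` modulo `4`. -/
lemma c₄_mod_four (h1 : ¬ (2 : ℤ) ∣ W.a₁) : ((W.c₄ : ℤ) : ZMod 4) = 1 := by
  have ho : ((W.a₁ : ℤ) : ZMod 4) = 1 ∨ ((W.a₁ : ℤ) : ZMod 4) = 3 := by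
    obtain ⟨k, hk⟩ := (Int.not_even_iff_odd.mp fun h => h1 (even_iff_two_dvd.mp h))
    rw [hk]
    push_cast
    have : ∀ x : ZMod 4, 2 * x + 1 = 1 ∨ 2 * x + 1 = 3 := by decide
    exact this _
  simp only [WeierstrassCurve.c₄, WeierstrassCurve.b₂, WeierstrassCurve.b₄]
  push_cast
  rw [show (24 : ZMod 4) = 0 from rfl, show (4 : ZMod 4) = 0 from rfl]
  rcases ho with h | h <;> rw [h] <;> simp
  decide

/-- An odd `a₁` makes `c₄` odd. -/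
lemma c₄_odd_of_a₁_odd (h1 : ¬ (2 : ℤ) ∣ W.a₁) : ¬ (2 : ℤ) ∣ W.c₄ := by
  rintro ⟨k, hk⟩
  have h := c₄_mod_four h1
  rw [hk] at h
  push_cast at h
  have h2 : ∀ x : ZMod 4, 2 * x ≠ 1 := by decide
  exact h2 _ h

/-- The discriminant of the ordinary target is odd. -/
lemma ordinary_disc_odd (hd : ¬ (2 : ℤ) ∣ W.Δ) (h1 : ¬ (2 : ℤ) ∣ W.a₁) :
    ¬ (2 : ℤ) ∣ -19683 * W.Δ ^ 4 * (W.c₄ ^ 3 - 432 * W.Δ) ^ 3 := by
  intro h
  rcases Int.prime_two.dvd_or_dvd h with h | h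
  · rcases Int.prime_two.dvd_or_dvd h with h | h
    · norm_num at h
    · exact hd (Int.prime_two.dvd_of_dvd_pow h)
  · have h' := Int.prime_two.dvd_of_dvd_pow h
    exact c₄_odd_of_a₁_odd h1 (Int.prime_two.dvd_of_dvd_pow
      ((dvd_sub_left (dvd_mul_of_dvd_left (by norm_num) _)).mp h'))

/-- The constant term of the model of the ordinary target. -/
lemma exists_a₆ (hd : ¬ (2 : ℤ) ∣ W.Δ) (h1 : ¬ (2 : ℤ) ∣ W.a₁) :
    ∃ c : ℤ, 1 + 4 * c = 27 * W.c₆ * W.Δ ^ 2 * (W.c₄ ^ 3 + 216 * W.Δ) := by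
  have h : ((27 * W.c₆ * W.Δ ^ 2 * (W.c₄ ^ 3 + 216 * W.Δ) - 1 : ℤ) : ZMod 4) = 0 := by
    obtain ⟨k, hk⟩ := (Int.not_even_iff_odd.mp fun h => hd (even_iff_two_dvd.mp h))
    push_cast
    rw [c₄_mod_four h1, FA.Switch.c₆_mod_four (c₄_odd_of_a₁_odd h1), hk]
    push_cast
    have : ∀ x : ZMod 4,
        27 * 3 * (2 * x + 1) ^ 2 * (1 ^ 3 + 216 * (2 * x + 1)) - 1 = 0 := by decide
    exact this _
  obtain ⟨c, hc⟩ := (ZMod.intCast_zmod_eq_zero_iff_dvd _ 4).mp h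
  refine ⟨c, ?_⟩
  push_cast at hc
  linarith

lemma model_c₄ (a₄ a₆ : ℤ) : (⟨0, 0, 1, a₄, a₆⟩ : WeierstrassCurve ℤ).c₄ = -48 * a₄ := by
  simp [WeierstrassCurve.c₄, WeierstrassCurve.b₂, WeierstrassCurve.b₄]
  ring

lemma model_c₆ (a₄ a₆ : ℤ) :
    (⟨0, 0, 1, a₄, a₆⟩ : WeierstrassCurve ℤ).c₆ = -216 * (1 + 4 * a₆) := by
  simp [WeierstrassCurve.c₆, WeierstrassCurve.b₂, WeierstrassCurve.b₄, WeierstrassCurve.b₆]

open FA.Switch (det2) in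
/-- The target when the reduction at `2` is good and ordinary. -/
lemma exists_target_ordinary (hΔ2 : ¬ (2 : ℤ) ∣ W.Δ) (h1 : ¬ (2 : ℤ) ∣ W.a₁)
    (B : FA.Switch.L3.Base) (ha : B.a = (W.c₄ : ℚ)) (hb : B.b = (W.c₆ : ℚ)) (e : Fin 2 → Qb)
    (he : B.InV e) (hind : det2 B.w e ≠ 0) (A : ValuationSubring Qb) :
    ∃ r s x y z D₀ Wq, TargetTwo B e A r s x y z D₀ Wq := by
  have hrel : (W.c₄ : Qb) ^ 3 - (W.c₆ : Qb) ^ 2 = 1728 * (W.Δ : Qb) := by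
    exact_mod_cast W.c_relation.symm
  obtain ⟨v, hv, -, hform⟩ := exists_member_frame B (W.Δ : ℚ)
    (by rw [ha, hb]; exact_mod_cast W.c_relation.symm)
  obtain ⟨f4, f6⟩ := hform 0 1
  rw [ha, hb] at f6
  rw [ha, hb] at f4
  simp only [Rat.cast_intCast, zero_mul, zero_add, one_mul] at f4 f6
  obtain ⟨c, hc⟩ := exists_a₆ hΔ2 h1
  have hc' : (1 : Qb) + 4 * (c : Qb) =
      27 * (W.c₆ : Qb) * (W.Δ : Qb) ^ 2 * ((W.c₄ : Qb) ^ 3 + 216 * (W.Δ : Qb)) := by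
    exact_mod_cast hc
  have ev := FA.Switch.frame_eq hind v
  have e0 := congrFun ev 0
  have e1 := congrFun ev 1
  refine ⟨det2 v e / det2 B.w e, det2 B.w v / det2 B.w e,
    ((-34992 * W.c₄ * W.Δ ^ 2 : ℤ) : Qb),
    ((-(W.c₆ * W.Δ ^ 2 * (5832 * W.c₄ ^ 3 + 1259712 * W.Δ)) : ℤ) : Qb),
    ((-19683 * W.Δ ^ 4 * (W.c₄ ^ 3 - 432 * W.Δ) ^ 3 : ℤ) : Qb),
    -19683 * W.Δ ^ 4 * (W.c₄ ^ 3 - 432 * W.Δ) ^ 3,
    ⟨0, 0, 1, 729 * W.c₄ * W.Δ ^ 2, c⟩,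
    fun σ _ => ⟨FA.Switch.coord_fixed σ (B.cocycle σ).2.1 (hv σ) (he σ) (B.cocycle_spec σ) (he σ),
      FA.Switch.coord_fixed σ (B.cocycle σ).2.1 (B.cocycle_spec σ) (hv σ) (B.cocycle_spec σ)
        (he σ)⟩,
    ?_, ?_, ?_, FA.Local.intCast_le_one _, FA.Local.intCast_le_one _, rfl,
    ordinary_disc_odd hΔ2 h1, ?_, ?_, dvd_zero 2, by norm_num⟩
  · rw [← e0, ← e1, f4]
    simp only [phi4]
    push_cast
    ring
  · rw [← e0, ← e1, f6]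
    simp only [psi6]
    push_cast
    ring
  · push_cast
    linear_combination
      (W.Δ : Qb) ^ 4 * (5832 * (W.c₄ : Qb) ^ 3 + 1259712 * (W.Δ : Qb)) ^ 2 * hrel
  · rw [model_c₄, show ((-34992 * W.c₄ * W.Δ ^ 2 : ℤ) : Qb) -
        ((-48 * (729 * W.c₄ * W.Δ ^ 2) : ℤ) : Qb) = 0 by push_cast; ring, map_zero]
    exact zero_le
  · rw [model_c₆, show ((-(W.c₆ * W.Δ ^ 2 * (5832 * W.c₄ ^ 3 + 1259712 * W.Δ)) : ℤ) : Qb) -
        ((-216 * (1 + 4 * c) : ℤ) : Qb) = 0 by push_cast; linear_combination (216 : Qb) * hc',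
      map_zero]
    exact zero_le

/-- **Every admissible semistable curve has a target at `2`.** -/
theorem hasTargetTwo : HasTargetTwo := by
  intro W hΔ hW h3 B ha hb e he hind A hA
  by_cases hd : (2 : ℤ) ∣ W.Δ
  · obtain ⟨r, s, x, y, z, Wq, T⟩ :=
      FA.Switch.exists_target_two hΔ hW ha hb he hind hd (h3 hd) hA
    obtain ⟨hq, hD⟩ := T.atTwo rfl
    exact ⟨r, s, x, y, z, 1, Wq, T.fixed, T.eq4, T.eq6, T.rel, T.int4, T.int6, T.disc, hD,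
      by simpa using T.near4, by simpa using T.near6, by rw [hq]; exact dvd_zero 2,
      by rw [hq]; norm_num⟩
  by_cases h1 : (2 : ℤ) ∣ W.a₁
  · refine ⟨1, 0, (W.c₄ : Qb), (W.c₆ : Qb), (W.Δ : Qb), W.Δ, W,
      fun σ _ => ⟨map_one σ, map_zero σ⟩, ?_, ?_, by exact_mod_cast W.c_relation.symm,
      FA.Local.intCast_le_one _, FA.Local.intCast_le_one _, rfl, hd, by simp, by simp, h1,
      a₃_odd_of_a₁_even hd h1⟩
    · rw [← (FA.Switch.base_sat₃ ha hb).1]; simp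
    · rw [← (FA.Switch.base_sat₃ ha hb).2]; simp
  exact exists_target_ordinary hd h1 B ha hb e he hind A

end

end FA.SS
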