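import Fermat.Agent.Root.Semistable.Forms
import Fermat.Agent.Switch.Sieve
import Mathlib.RingTheory.Int.Basic

/-!
# Members of the family of curves with given `3`-torsion and no `5`-parameter

In the box `r = 1 + M k`, `s = M l` with `k < N`, `1 ≤ l ≤ N`, `N = m³`, a positive proportion of
the `m⁶` pairs is coprime, while `O(m⁴)` of them have invariants of the shape
`(u v⁵, u² + 10 u v + 5 v²)`.
-/

set_option autoImplicit false

noncomputable section

open Finset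

namespace FA.SS

/-- A binary quartic form given by its coefficients. -/
def binQuartic (c₄ c₃ c₂ c₁ c₀ r s : ℤ) : ℤ :=
  c₄ * r ^ 4 + c₃ * (r ^ 3 * s) + c₂ * (r ^ 2 * s ^ 2) + c₁ * (r * s ^ 3) + c₀ * s ^ 4

lemma abs_binQuartic_le (c₄ c₃ c₂ c₁ c₀ : ℤ) {r s R : ℤ} (hr : |r| ≤ R) (hs : |s| ≤ R) :
    |binQuartic c₄ c₃ c₂ c₁ c₀ r s| ≤ (|c₄| + |c₃| + |c₂| + |c₁| + |c₀|) * R ^ 4 := by
  have hR : 0 ≤ R := (abs_nonneg r).trans hr
  have hm : ∀ i j : ℕ, i + j = 4 → |r ^ i * s ^ j| ≤ R ^ 4 := fun i j h => by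
    rw [abs_mul, abs_pow, abs_pow, ← h, pow_add]
    exact mul_le_mul (pow_le_pow_left₀ (abs_nonneg _) hr _) (pow_le_pow_left₀ (abs_nonneg _) hs _)
      (by positivity) (by positivity)
  have m4 := hm 4 0 rfl
  have m3 := hm 3 1 rfl
  have m2 := hm 2 2 rfl
  have m1 := hm 1 3 rfl
  have m0 := hm 0 4 rfl
  simp only [pow_zero, pow_one, mul_one, one_mul] at m4 m3 m2 m1 m0
  unfold binQuartic
  refine (abs_add_le _ _).trans ?_
  simp only [add_mul]
  refine add_le_add ((abs_add_le _ _).trans (add_le_add ((abs_add_le _ _).trans (add_le_add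
    ((abs_add_le _ _).trans (add_le_add ?_ ?_)) ?_)) ?_)) ?_ <;> rw [abs_mul] <;>
    exact mul_le_mul_of_nonneg_left (by assumption) (abs_nonneg _)

lemma phi4_eq (b d r s : ℤ) :
    phi4 b d r s = binQuartic 1 0 (648 * d) (-(216 * (b * d))) (-(34992 * d ^ 2)) r s := by
  unfold phi4 binQuartic; ring

lemma disc4_eq (a b d r s : ℤ) : disc4 a b d r s =
    binQuartic 1 (-b) (-(648 * d)) (108 * (b * d)) (11664 * d ^ 2 - 27 * a ^ 3 * d) r s := by
  unfold disc4 binQuartic; ring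

/-- A nonzero quartic form has at most four zeros among coprime pairs `(r, s)` with `0 < s`. -/
lemma card_zeros_le (c₄ c₃ c₂ c₁ c₀ : ℤ) (hne : c₄ ≠ 0 ∨ c₃ ≠ 0) (T : Finset (ℤ × ℤ))
    (hT : ∀ x ∈ T, 0 < x.2 ∧ IsCoprime x.1 x.2 ∧ binQuartic c₄ c₃ c₂ c₁ c₀ x.1 x.2 = 0) :
    T.card ≤ 4 := by
  classical
  set f : Polynomial ℚ := Polynomial.C (c₄ : ℚ) * Polynomial.X ^ 4 +
    Polynomial.C (c₃ : ℚ) * Polynomial.X ^ 3 + Polynomial.C (c₂ : ℚ) * Polynomial.X ^ 2 +
    Polynomial.C (c₁ : ℚ) * Polynomial.X + Polynomial.C (c₀ : ℚ) with hf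
  have hf0 : f ≠ 0 := fun h => by
    rcases hne with hc | hc
    · have := congrArg (fun g : Polynomial ℚ => g.coeff 4) h
      simp [-map_intCast, hf] at this
      exact hc this
    · have := congrArg (fun g : Polynomial ℚ => g.coeff 3) h
      simp [-map_intCast, hf] at this
      exact hc this
  have hdeg : f.natDegree ≤ 4 := by rw [hf]; compute_degree
  refine le_trans (Finset.card_le_card_of_injOn (t := f.roots.toFinset)
    (fun x => (x.1 : ℚ) / x.2) (fun x hx => ?_) ?_)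
    ((Multiset.toFinset_card_le _).trans ((Polynomial.card_roots' f).trans hdeg))
  · obtain ⟨hs, -, h⟩ := hT x hx
    have hs' : (x.2 : ℚ) ≠ 0 := Int.cast_ne_zero.mpr hs.ne'
    have h' : (binQuartic c₄ c₃ c₂ c₁ c₀ x.1 x.2 : ℚ) = 0 := by rw [h]; rfl
    simp only [binQuartic, Int.cast_add, Int.cast_mul, Int.cast_pow] at h'
    rw [Finset.mem_coe, Multiset.mem_toFinset, Polynomial.mem_roots hf0]
    simp only [Polynomial.IsRoot, hf, Polynomial.eval_add, Polynomial.eval_mul, Polynomial.eval_C,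
      Polynomial.eval_pow, Polynomial.eval_X]
    field_simp
    linear_combination h'
  · intro x hx y hy h
    obtain ⟨hxs, hxc, -⟩ := hT x hx
    obtain ⟨hys, hyc, -⟩ := hT y hy
    obtain ⟨h1, h2⟩ := Rat.div_int_inj hxs hys (Int.isCoprime_iff_nat_coprime.mp hxc)
      (Int.isCoprime_iff_nat_coprime.mp hyc) h
    exact Prod.ext h1 h2

/-- The part of a factor of `κ F³` coprime to the cofactor is a divisor of `κ` times a cube. -/
lemma exists_cube_part {m n κ F : ℕ} (hm : 0 < m) (hco : Nat.Coprime m n)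
    (h : m * n = κ * F ^ 3) : ∃ c x : ℕ, c ∣ κ ∧ m = c * x ^ 3 := by
  obtain ⟨x, hx⟩ : ∃ x, x = Nat.gcd m F := ⟨_, rfl⟩
  have hxm : x ∣ m := hx ▸ Nat.gcd_dvd_left m F
  have h3 : x ^ 3 ∣ m := ((hco.coprime_dvd_left hxm).pow_left 3).dvd_of_dvd_mul_right (by
    rw [h]; exact (pow_dvd_pow_of_dvd (hx ▸ Nat.gcd_dvd_right m F) 3).mul_left _)
  obtain ⟨c, hc⟩ := h3
  refine ⟨c, x, ?_, by rw [hc, mul_comm]⟩
  have h1 : m ∣ κ * x ^ 3 := by
    have h2 : m ∣ Nat.gcd m F ^ 3 * κ := by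
      have hd : Nat.gcd m (F ^ 3) ∣ Nat.gcd m F ^ 3 := gcd_pow_right_dvd_pow_gcd (a := m) (b := F)
      refine (Nat.dvd_gcd (dvd_mul_right m κ) ?_).trans
        ((Nat.gcd_mul_right m κ (F ^ 3)).dvd.trans (mul_dvd_mul_right hd κ))
      rw [mul_comm (F ^ 3), ← h]; exact dvd_mul_right m n
    rwa [mul_comm, hx]
  rw [hc, mul_comm (x ^ 3)] at h1
  exact Nat.dvd_of_mul_dvd_mul_right
    (pow_pos (Nat.pos_of_ne_zero fun h0 => hm.ne' (by rw [hc, h0]; simp)) 3) h1

/-- Bounds for the parameters in terms of the invariants. -/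
lemma param_bound {u v : ℤ} {C n : ℕ} (hC : 0 < C) (hn : 0 < n)
    (h6 : |u * v ^ 5| ≤ (C : ℤ) * (n : ℤ) ^ 6)
    (h2 : |u ^ 2 + 10 * u * v + 5 * v ^ 2| ≤ (C : ℤ) * (n : ℤ) ^ 2) :
    |u| ≤ 101 * C * (n : ℤ) ∧ |v| ≤ 101 * C * (n : ℤ) := by
  have hC1 : (1 : ℤ) ≤ C := by exact_mod_cast hC
  have hn1 : (1 : ℤ) ≤ n := by exact_mod_cast hn
  have hCn : (C : ℤ) * n ^ 2 ≤ (C * n) ^ 2 := by nlinarith [mul_le_mul_of_nonneg_right hC1 (show (0 : ℤ) ≤ C * n ^ 2 by positivity)]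
  have hlow : 5 * |v| ^ 2 - 10 * |u| * |v| ≤ |u ^ 2 + 10 * u * v + 5 * v ^ 2| := by
    refine le_trans ?_ (le_abs_self _)
    have h' := neg_abs_le (u * v)
    rw [abs_mul] at h'
    nlinarith [sq_abs v, sq_nonneg u]
  have hv : |v| ≤ 10 * C * n := by
    by_contra hcon
    push Not at hcon
    have hu' : |u| ≤ n := by
      by_contra hc
      push Not at hc
      have h5 : ((10 : ℤ) * C * n) ^ 5 ≤ |v| ^ 5 := pow_le_pow_left₀ (by positivity) hcon.le 5
      have e : |u * v ^ 5| = |u| * |v| ^ 5 := by rw [abs_mul, abs_pow]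
      have h7 : ((n : ℤ) + 1) * ((10 : ℤ) * C * n) ^ 5 ≤ |u| * |v| ^ 5 :=
        mul_le_mul (by omega) h5 (by positivity) (abs_nonneg _)
      have h8 : (C : ℤ) * (n : ℤ) ^ 6 < ((n : ℤ) + 1) * ((10 : ℤ) * C * n) ^ 5 := by
        have h9 : (C : ℤ) ≤ (10 * C) ^ 5 := le_trans (by omega) (le_self_pow₀ (by omega) (by norm_num))
        calc (C : ℤ) * (n : ℤ) ^ 6 ≤ (10 * C) ^ 5 * (n : ℤ) ^ 6 :=
              mul_le_mul_of_nonneg_right h9 (by positivity)
          _ < _ := by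
              have : (0 : ℤ) < (10 * C) ^ 5 * (n : ℤ) ^ 5 := by positivity
              nlinarith
      omega
    have h10 : 10 * |u| ≤ |v| := by nlinarith [abs_nonneg u]
    have h11 : 4 * |v| ^ 2 ≤ |u ^ 2 + 10 * u * v + 5 * v ^ 2| := by
      nlinarith [mul_le_mul_of_nonneg_right h10 (abs_nonneg v)]
    have h12 : ((10 : ℤ) * C * n) ^ 2 ≤ |v| ^ 2 := pow_le_pow_left₀ (by positivity) hcon.le 2
    nlinarith [show (0 : ℤ) < (C : ℤ) * n by positivity]
  refine ⟨?_, hv.trans (by nlinarith [show (0 : ℤ) ≤ C * n by positivity])⟩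
  by_contra hcon
  push Not at hcon
  have hup : |u| * (|u| - 10 * |v|) ≤ |u ^ 2 + 10 * u * v + 5 * v ^ 2| := by
    refine le_trans ?_ (le_abs_self _)
    have h' := neg_abs_le (u * v)
    rw [abs_mul] at h'
    nlinarith [sq_abs u, sq_nonneg v]
  have h1 : (C : ℤ) * n < |u| - 10 * |v| := by nlinarith
  have h3 : (C : ℤ) * n < |u| := by have := abs_nonneg v; omega
  nlinarith [mul_lt_mul'' h3 h1 (by positivity) (by positivity)]

/-- **Some member has no `5`-parameter.** -/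
theorem exists_pair_no_param {a b d : ℤ} (ha : a ≠ 0) (hb : b ≠ 0) (hd : d ≠ 0) {M : ℕ}
    (hM : 0 < M) (hsmall : ∀ p, p.Prime → p ≤ 40 → p ∣ M) :
    ∃ r s : ℤ, IsCoprime r s ∧ (M : ℤ) ∣ r - 1 ∧ (M : ℤ) ∣ s ∧ disc4 a b d r s ≠ 0 ∧
      ∀ u v e : ℤ, IsCoprime u v → e ∣ 5 →
        ¬ (u * v ^ 5 = e ^ 3 * (d * (disc4 a b d r s) ^ 3) ∧
          u ^ 2 + 10 * u * v + 5 * v ^ 2 = e * (a * phi4 b d r s)) := by
  classical
  by_contra hcon
  push Not at hcon
  -- constants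
  set SD : ℤ := |1| + |(-b)| + |(-(648 * d))| + |108 * (b * d)| + |11664 * d ^ 2 - 27 * a ^ 3 * d|
  set SP : ℤ := |1| + |0| + |648 * d| + |(-(216 * (b * d)))| + |(-(34992 * d ^ 2))|
  set A : ℤ := (SD + SP) * (2 * (M : ℤ)) ^ 4 with hA
  obtain ⟨C, hC⟩ : ∃ C : ℕ, C = (125 * |d| * A ^ 3).toNat + (5 * |a| * A).toNat + 1 := ⟨_, rfl⟩
  set κ₀ : ℕ := 125 * d.natAbs with hκ₀
  set K : ℕ := (κ₀ + 1) * (101 * C) with hK
  set G : ℕ := 2 * (κ₀ + 1) * (2 * K) with hG
  obtain ⟨m, hm⟩ : ∃ m : ℕ, m = 32 * G * G + 32 := ⟨_, rfl⟩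
  set N : ℕ := m ^ 3 with hN
  have hm32 : 32 ≤ m := by omega
  have hmN : m ≤ N := by rw [hN]; exact le_self_pow₀ (by omega) (by norm_num)
  -- the box
  set pt := Finset.range N ×ˢ Finset.Icc 1 N with hpt
  set ρ : ℕ × ℕ → ℤ × ℤ := fun x => (1 + (M : ℤ) * x.1, (M : ℤ) * x.2) with hρ
  have hρinj : Function.Injective ρ := fun x y h => by
    simp only [hρ, Prod.mk.injEq, add_right_inj, mul_eq_mul_left_iff, Nat.cast_inj,
      Int.natCast_eq_zero, hM.ne', or_false] at h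
    exact Prod.ext h.1 h.2
  -- pairs which are not coprime
  set P := (Finset.range (N + 1)).filter fun p => p.Prime ∧ 40 < p with hP
  set E₁ : ℕ → Finset (ℕ × ℕ) := fun p =>
    pt.filter fun x => ¬ p ∣ M ∧ p ∣ 1 + M * x.1 ∧ p ∣ x.2 with hE₁
  set Good := pt.filter fun x => Nat.Coprime (1 + M * x.1) (M * x.2) with hGood
  have hsub : pt \ Good ⊆ P.biUnion E₁ := fun x hx => by
    simp only [hGood, Finset.mem_sdiff, Finset.mem_filter, not_and] at hx
    obtain ⟨p, hp, hp1, hp2⟩ := Nat.Prime.not_coprime_iff_dvd.mp (hx.2 hx.1)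
    have hpM : ¬ p ∣ M := fun h => hp.one_lt.ne'
      (Nat.dvd_one.mp ((Nat.dvd_add_left (h.mul_right _)).mp hp1))
    have hpl : p ∣ x.2 := (hp.dvd_mul.mp hp2).resolve_left hpM
    have hxpt := hx.1
    simp only [hpt, Finset.mem_product, Finset.mem_range, Finset.mem_Icc] at hxpt
    refine Finset.mem_biUnion.mpr ⟨p, ?_, Finset.mem_filter.mpr ⟨hx.1, hpM, hp1, hpl⟩⟩
    simp only [hP, Finset.mem_filter, Finset.mem_range]
    refine ⟨?_, hp, ?_⟩
    · have := Nat.le_of_dvd (by omega) hpl; omega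
    · by_contra h; exact hpM (hsmall p hp (by omega))
  have c1 : ∀ p ∈ P, ((E₁ p).card : ℝ) ≤ 2 * (N : ℝ) ^ 2 * ((p : ℝ) ^ 2)⁻¹ + 2 := by
    intro p hp
    obtain ⟨hp', -⟩ := (Finset.mem_filter.mp hp).2
    by_cases hpM : p ∣ M
    · have : E₁ p = ∅ := Finset.filter_eq_empty_iff.mpr fun x _ h => h.1 hpM
      rw [this, Finset.card_empty, Nat.cast_zero]; positivity
    set I := ((Finset.range N).filter fun k => p ∣ 1 + M * k).image fun k : ℕ => (k : ℤ) with hIdef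
    set J := ((Finset.Icc 1 N).filter fun l => p ∣ l).image fun k : ℕ => (k : ℤ) with hJdef
    have hI : I.card ≤ N / p + 1 := by
      refine FA.Switch.card_congr_le hp'.pos (A := 0) (fun z hz => ?_) fun z hz z' hz' => ?_
      · obtain ⟨k, hk, rfl⟩ := Finset.mem_image.mp hz
        simp only [Finset.mem_filter, Finset.mem_range] at hk
        simp [hk.1]
      · obtain ⟨k, hk, rfl⟩ := Finset.mem_image.mp hz
        obtain ⟨k', hk', rfl⟩ := Finset.mem_image.mp hz'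
        have h1 := Int.natCast_dvd_natCast.mpr (Finset.mem_filter.mp hk).2
        have h2 := Int.natCast_dvd_natCast.mpr (Finset.mem_filter.mp hk').2
        push_cast at h1 h2
        have h3 : (p : ℤ) ∣ (M : ℤ) * ((k : ℤ) - k') := by simpa [mul_sub] using dvd_sub h1 h2
        exact ((Nat.prime_iff_prime_int.mp hp').dvd_or_dvd h3).resolve_left
          fun h => hpM (Int.natCast_dvd_natCast.mp h)
    have hJ : J.card ≤ N / p + 1 := by
      refine FA.Switch.card_congr_le hp'.pos (A := 1) (fun z hz => ?_) fun z hz z' hz' => ?_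
      · obtain ⟨k, hk, rfl⟩ := Finset.mem_image.mp hz
        simp only [Finset.mem_filter, Finset.mem_Icc] at hk
        simp only [Finset.mem_Ico]
        omega
      · obtain ⟨k, hk, rfl⟩ := Finset.mem_image.mp hz
        obtain ⟨k', hk', rfl⟩ := Finset.mem_image.mp hz'
        exact dvd_sub (Int.natCast_dvd_natCast.mpr (Finset.mem_filter.mp hk).2)
          (Int.natCast_dvd_natCast.mpr (Finset.mem_filter.mp hk').2)
    rw [hIdef, Finset.card_image_of_injective _ Nat.cast_injective] at hI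
    rw [hJdef, Finset.card_image_of_injective _ Nat.cast_injective] at hJ
    have h : (E₁ p).card ≤ (N / p + 1) * (N / p + 1) := by
      refine le_trans (Finset.card_le_card (t := ((Finset.range N).filter fun k => p ∣ 1 + M * k) ×ˢ
        ((Finset.Icc 1 N).filter fun l => p ∣ l)) fun x hx => ?_)
        ((Finset.card_product _ _).trans_le (Nat.mul_le_mul hI hJ))
      simp only [hE₁, hpt, Finset.mem_filter, Finset.mem_product] at hx
      simp only [Finset.mem_product, Finset.mem_filter]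
      exact ⟨⟨hx.1.1, hx.2.2.1⟩, hx.1.2, hx.2.2.2⟩
    have h' : ((E₁ p).card : ℝ) ≤ ((N : ℝ) / p + 1) * ((N : ℝ) / p + 1) := by
      refine (Nat.cast_le.mpr h).trans ?_
      push_cast
      gcongr <;> exact Nat.cast_div_le
    refine h'.trans ?_
    rw [← div_eq_mul_inv, show 2 * (N : ℝ) ^ 2 / (p : ℝ) ^ 2 = 2 * ((N : ℝ) / p) ^ 2 by ring]
    nlinarith [sq_nonneg ((N : ℝ) / p - 1)]
  have hNR : (32 : ℝ) ≤ N := by exact_mod_cast hm32.trans hmN
  have hnc : ((pt \ Good).card : ℝ) ≤ (N : ℝ) ^ 2 / 4 := by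
    refine (Nat.cast_le.mpr ((Finset.card_le_card hsub).trans Finset.card_biUnion_le)).trans ?_
    push_cast
    refine (Finset.sum_le_sum c1).trans ?_
    rw [Finset.sum_add_distrib, ← Finset.mul_sum, Finset.sum_const, nsmul_eq_mul]
    have hs := FA.Switch.sum_inv_sq_le P fun p hp => (Finset.mem_filter.mp hp).2.2
    have hc : (P.card : ℝ) ≤ N + 1 := by
      exact_mod_cast ((Finset.card_filter_le _ _).trans (Finset.card_range _).le : P.card ≤ N + 1)
    nlinarith [mul_le_mul_of_nonneg_left hs (show (0 : ℝ) ≤ 2 * (N : ℝ) ^ 2 by positivity)]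
  have hptc : pt.card = N * N := by simp [hpt]
  have hgood : (N * N : ℕ) ≤ 2 * Good.card := by
    have h := Finset.card_sdiff_add_card_eq_card (Finset.filter_subset _ pt : Good ⊆ pt)
    rw [hptc] at h
    have h' : ((pt \ Good).card : ℝ) + Good.card = (N : ℝ) * N := by exact_mod_cast h
    have : ((N * N : ℕ) : ℝ) ≤ ((2 * Good.card : ℕ) : ℝ) := by push_cast; nlinarith
    exact_mod_cast this
  -- the parameters
  set U : Finset ℤ := (Finset.range (κ₀ + 1) ×ˢ Finset.range (K * m ^ 2 + 1)).biUnion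
    fun x => {(↑(x.1 * x.2 ^ 3) : ℤ), -(↑(x.1 * x.2 ^ 3) : ℤ)} with hU
  set V : Finset ℤ := (Finset.range (κ₀ + 1) ×ˢ Finset.range (K * m ^ 2 + 1)).biUnion
    fun x => {(↑(x.2 ^ 3 / x.1) : ℤ), -(↑(x.2 ^ 3 / x.1) : ℤ)} with hV
  set T₀ := Good.image ρ with hT₀
  set Fib : ℤ × ℤ × ℤ → Finset (ℤ × ℤ) := fun t => T₀.filter fun y => disc4 a b d y.1 y.2 ≠ 0 ∧
    t.1 * t.2.1 ^ 5 = t.2.2 ^ 3 * (d * disc4 a b d y.1 y.2 ^ 3) ∧
    t.1 ^ 2 + 10 * t.1 * t.2.1 + 5 * t.2.1 ^ 2 = t.2.2 * (a * phi4 b d y.1 y.2) ∧ t.2.2 ≠ 0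
    with hFib
  have hpair : ∀ y ∈ T₀, 0 < y.2 ∧ IsCoprime y.1 y.2 ∧ (M : ℤ) ∣ y.1 - 1 ∧ (M : ℤ) ∣ y.2 ∧
      |y.1| ≤ 2 * (M : ℤ) * N ∧ |y.2| ≤ 2 * (M : ℤ) * N := fun y hy => by
    obtain ⟨x, hx, rfl⟩ := Finset.mem_image.mp hy
    obtain ⟨hxpt, hco⟩ := Finset.mem_filter.mp hx
    simp only [hpt, Finset.mem_product, Finset.mem_range, Finset.mem_Icc] at hxpt
    have hM1 : (1 : ℤ) ≤ M := by omega
    refine ⟨?_, ?_, ⟨(x.1 : ℤ), by simp [hρ]⟩, ⟨(x.2 : ℤ), rfl⟩, ?_, ?_⟩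
    · simp only [hρ]; exact mul_pos (by omega) (by omega)
    · simp only [hρ]
      have := Nat.isCoprime_iff_coprime.mpr hco
      push_cast at this
      exact this
    · simp only [hρ]
      rw [abs_of_nonneg (by positivity)]
      nlinarith [mul_le_mul_of_nonneg_left (show (x.1 : ℤ) + 1 ≤ N by omega) (show (0 : ℤ) ≤ M by omega)]
    · simp only [hρ]
      rw [abs_of_nonneg (by positivity)]
      nlinarith [mul_le_mul_of_nonneg_left (show (x.2 : ℤ) ≤ N by omega) (show (0 : ℤ) ≤ M by omega)]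
  have hfib : ∀ t : ℤ × ℤ × ℤ, (Fib t).card ≤ 4 := fun t => by
    rcases (Fib t).eq_empty_or_nonempty with h | ⟨z, hz⟩
    · simp [h]
    simp only [hFib, Finset.mem_filter] at hz
    obtain ⟨-, hz0, hzD, hzP, he⟩ := hz
    set F₀ := disc4 a b d z.1 z.2
    set P₀ := phi4 b d z.1 z.2
    refine card_zeros_le (F₀ - P₀) (b * P₀) (648 * d * F₀ + 648 * d * P₀)
      (-(216 * (b * d)) * F₀ - 108 * (b * d) * P₀)
      (-(34992 * d ^ 2) * F₀ - (11664 * d ^ 2 - 27 * a ^ 3 * d) * P₀) ?_ _ fun y hy => ?_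
    · by_contra h
      push Not at h
      obtain ⟨h1, h2⟩ := h
      rcases mul_eq_zero.mp h2 with h2 | h2
      · exact hb h2
      · exact hz0 (by linear_combination h1 + h2)
    · simp only [hFib, Finset.mem_filter] at hy
      obtain ⟨hyT, -, hyD, hyP, -⟩ := hy
      obtain ⟨hpos, hco, -⟩ := hpair y hyT
      have e1 : disc4 a b d y.1 y.2 = F₀ := (Odd.strictMono_pow (show Odd 3 by decide)).injective
        (mul_left_cancel₀ hd (mul_left_cancel₀ (pow_ne_zero 3 he) (hyD.symm.trans hzD)))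
      have e2 : phi4 b d y.1 y.2 = P₀ :=
        mul_left_cancel₀ ha (mul_left_cancel₀ he (hyP.symm.trans hzP))
      refine ⟨hpos, hco, ?_⟩
      rw [disc4_eq] at e1
      rw [phi4_eq] at e2
      simp only [binQuartic] at e1 e2 ⊢
      linear_combination F₀ * e2 - P₀ * e1
  set Z₀ := T₀.filter fun y => disc4 a b d y.1 y.2 = 0
  have hZ : Z₀.card ≤ 4 :=
    card_zeros_le 1 (-b) (-(648 * d)) (108 * (b * d)) (11664 * d ^ 2 - 27 * a ^ 3 * d)
      (Or.inl one_ne_zero) Z₀ fun y hy => by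
        obtain ⟨hy, h0⟩ := Finset.mem_filter.mp hy
        exact ⟨(hpair y hy).1, (hpair y hy).2.1, by rw [← disc4_eq]; exact h0⟩
  have hcover : T₀ ⊆ Z₀ ∪ (U ×ˢ V ×ˢ ({1, -1, 5, -5} : Finset ℤ)).biUnion Fib := fun y hy => by
    obtain ⟨hpos, hco, hd1, hd2, hb1, hb2⟩ := hpair y hy
    by_cases h0 : disc4 a b d y.1 y.2 = 0
    · exact Finset.mem_union_left _ (Finset.mem_filter.mpr ⟨hy, h0⟩)
    obtain ⟨u, v, e, huv, he, hD, hQ⟩ := hcon y.1 y.2 hco hd1 hd2 h0
    have he0 : e ≠ 0 := fun h => by rw [h, zero_dvd_iff] at he; norm_num at he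
    have hne : u * v ^ 5 ≠ 0 := by
      rw [hD]; exact mul_ne_zero (pow_ne_zero _ he0) (mul_ne_zero hd (pow_ne_zero _ h0))
    have hu0 : u ≠ 0 := left_ne_zero_of_mul hne
    have hv0 : v ≠ 0 := fun h => hne (by rw [h]; ring)
    have he5 : |e| ≤ 5 := Int.le_of_dvd (by norm_num) ((abs_dvd _ _).mpr he)
    -- bounds
    have hA0 : 0 ≤ A := by positivity
    have bD : |disc4 a b d y.1 y.2| ≤ A * (N : ℤ) ^ 4 := by
      rw [disc4_eq]
      refine (abs_binQuartic_le _ _ _ _ _ hb1 hb2).trans ?_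
      rw [hA, show (2 * (M : ℤ) * N) ^ 4 = (2 * (M : ℤ)) ^ 4 * (N : ℤ) ^ 4 by ring, ← mul_assoc]
      exact mul_le_mul_of_nonneg_right (mul_le_mul_of_nonneg_right
        (le_add_of_nonneg_right (by positivity)) (by positivity)) (by positivity)
    have bP : |phi4 b d y.1 y.2| ≤ A * (N : ℤ) ^ 4 := by
      rw [phi4_eq]
      refine (abs_binQuartic_le _ _ _ _ _ hb1 hb2).trans ?_
      rw [hA, show (2 * (M : ℤ) * N) ^ 4 = (2 * (M : ℤ)) ^ 4 * (N : ℤ) ^ 4 by ring, ← mul_assoc]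
      exact mul_le_mul_of_nonneg_right (mul_le_mul_of_nonneg_right
        (le_add_of_nonneg_left (by positivity)) (by positivity)) (by positivity)
    have hC6 : 125 * |d| * A ^ 3 ≤ (C : ℤ) ∧ 5 * |a| * A ≤ (C : ℤ) := by
      rw [hC]; push_cast; constructor <;> omega
    have hb6 : |u * v ^ 5| ≤ (C : ℤ) * ((m ^ 6 : ℕ) : ℤ) ^ 6 := by
      rw [hD, abs_mul, abs_mul, abs_pow, abs_pow]
      calc |e| ^ 3 * (|d| * |disc4 a b d y.1 y.2| ^ 3)
          ≤ 125 * (|d| * (A * (N : ℤ) ^ 4) ^ 3) := by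
            refine mul_le_mul ((pow_le_pow_left₀ (abs_nonneg e) he5 3).trans_eq (by norm_num)) ?_
              (by positivity) (by norm_num)
            gcongr
        _ = 125 * |d| * A ^ 3 * (N : ℤ) ^ 12 := by ring
        _ ≤ (C : ℤ) * (N : ℤ) ^ 12 := mul_le_mul_of_nonneg_right hC6.1 (by positivity)
        _ = _ := by rw [hN]; push_cast; ring
    have hb2' : |u ^ 2 + 10 * u * v + 5 * v ^ 2| ≤ (C : ℤ) * ((m ^ 6 : ℕ) : ℤ) ^ 2 := by
      rw [hQ, abs_mul, abs_mul]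
      calc |e| * (|a| * |phi4 b d y.1 y.2|) ≤ 5 * (|a| * (A * (N : ℤ) ^ 4)) := by gcongr
        _ = 5 * |a| * A * (N : ℤ) ^ 4 := by ring
        _ ≤ (C : ℤ) * (N : ℤ) ^ 4 := mul_le_mul_of_nonneg_right hC6.2 (by positivity)
        _ = _ := by rw [hN]; push_cast; ring
    obtain ⟨hbu, hbv⟩ := param_bound (C := C) (n := m ^ 6) (by omega) (pow_pos (by omega : 0 < m) 6)
      hb6 hb2'
    -- cubes
    have hnat : u.natAbs * v.natAbs ^ 5 = (e ^ 3 * d).natAbs * (disc4 a b d y.1 y.2).natAbs ^ 3 := by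
      rw [← Int.natAbs_pow, ← Int.natAbs_mul, hD, ← Int.natAbs_pow, ← Int.natAbs_mul, mul_assoc]
    have hcon' : Nat.Coprime u.natAbs (v.natAbs ^ 5) :=
      (Int.isCoprime_iff_nat_coprime.mp huv).pow_right 5
    have hκ : (e ^ 3 * d).natAbs ≤ κ₀ ∧ 0 < (e ^ 3 * d).natAbs := by
      refine ⟨?_, Int.natAbs_pos.mpr (mul_ne_zero (pow_ne_zero _ he0) hd)⟩
      rw [Int.natAbs_mul, Int.natAbs_pow, hκ₀]
      have : e.natAbs ≤ 5 := by rw [Int.abs_eq_natAbs] at he5; exact_mod_cast he5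
      exact Nat.mul_le_mul_right _ ((Nat.pow_le_pow_left this 3).trans_eq (by norm_num))
    have hbu' : u.natAbs ≤ 101 * C * m ^ 6 := by
      have : (u.natAbs : ℤ) ≤ ((101 * C * m ^ 6 : ℕ) : ℤ) := by
        rw [Int.natCast_natAbs]; push_cast; simpa using hbu
      exact_mod_cast this
    have hbv' : v.natAbs ≤ 101 * C * m ^ 6 := by
      have : (v.natAbs : ℤ) ≤ ((101 * C * m ^ 6 : ℕ) : ℤ) := by
        rw [Int.natCast_natAbs]; push_cast; simpa using hbv
      exact_mod_cast this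
    have hcube : ∀ {w : ℕ}, w ^ 3 ≤ K * m ^ 6 → w ≤ K * m ^ 2 := fun {w} hw =>
      (Nat.pow_le_pow_iff_left three_ne_zero).mp (hw.trans (by
        rw [mul_pow, ← pow_mul]
        exact Nat.mul_le_mul_right _ (Nat.le_self_pow three_ne_zero K)))
    have hmemU : u ∈ U := by
      obtain ⟨c, x, hc, hx⟩ := exists_cube_part (Int.natAbs_pos.mpr hu0) hcon' hnat
      have hc0 : 0 < c := Nat.pos_of_ne_zero fun h => by
        rw [h, zero_dvd_iff] at hc; omega
      have hxK : x ^ 3 ≤ K * m ^ 6 := by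
        calc x ^ 3 ≤ c * x ^ 3 := Nat.le_mul_of_pos_left _ hc0
          _ ≤ 101 * C * m ^ 6 := hx ▸ hbu'
          _ ≤ K * m ^ 6 := Nat.mul_le_mul_right _ (Nat.le_mul_of_pos_left _ (by omega))
      refine Finset.mem_biUnion.mpr ⟨(c, x), Finset.mem_product.mpr
        ⟨Finset.mem_range.mpr (by have := Nat.le_of_dvd hκ.2 hc; omega),
          Finset.mem_range.mpr (Nat.lt_succ_of_le (hcube hxK))⟩, ?_⟩
      simp only [Finset.mem_insert, Finset.mem_singleton, ← hx]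
      exact Int.natAbs_eq u
    have hmemV : v ∈ V := by
      obtain ⟨c, x, hc, hx⟩ := exists_cube_part (pow_pos (Int.natAbs_pos.mpr hv0) 5)
        hcon'.symm (by rw [mul_comm]; exact hnat)
      have hc0 : 0 < c := Nat.pos_of_ne_zero fun h => by
        rw [h, zero_dvd_iff] at hc; omega
      have hx2 : x ∣ v.natAbs ^ 2 := (Nat.pow_dvd_pow_iff three_ne_zero).mp ⟨c * v.natAbs, by
        rw [← pow_mul, show 2 * 3 = 5 + 1 from rfl, pow_succ, hx]; ring⟩
      obtain ⟨z, hz⟩ := hx2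
      have hx0 : 0 < x := Nat.pos_of_ne_zero fun h => by
        rw [h, zero_mul] at hz; exact hv0 (by simpa using hz)
      have hz3 : z ^ 3 = c * v.natAbs := Nat.eq_of_mul_eq_mul_left (pow_pos hx0 3) (by
        rw [← mul_pow, ← hz, ← pow_mul, show 2 * 3 = 5 + 1 from rfl, pow_succ, hx]; ring)
      have hcle := Nat.le_of_dvd hκ.2 hc
      have hzK : z ^ 3 ≤ K * m ^ 6 := by
        rw [hz3, hK, mul_assoc (κ₀ + 1)]
        exact Nat.mul_le_mul (by omega) hbv'
      refine Finset.mem_biUnion.mpr ⟨(c, z), Finset.mem_product.mpr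
        ⟨Finset.mem_range.mpr (by omega), Finset.mem_range.mpr (Nat.lt_succ_of_le (hcube hzK))⟩, ?_⟩
      simp only [Finset.mem_insert, Finset.mem_singleton, hz3, Nat.mul_div_cancel_left _ hc0]
      exact Int.natAbs_eq v
    have hmemE : e ∈ ({1, -1, 5, -5} : Finset ℤ) := by
      simp only [Finset.mem_insert, Finset.mem_singleton]
      rcases (Nat.dvd_prime Nat.prime_five).mp (Int.natAbs_dvd_natAbs.mpr he) with h | h <;>
        omega
    refine Finset.mem_union_right _ (Finset.mem_biUnion.mpr ⟨(u, v, e), ?_, ?_⟩)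
    · exact Finset.mem_product.mpr ⟨hmemU, Finset.mem_product.mpr ⟨hmemV, hmemE⟩⟩
    · exact Finset.mem_filter.mpr ⟨hy, h0, hD, hQ, he0⟩
  -- the count
  have hUV : ∀ f : ℕ × ℕ → ℤ, ((Finset.range (κ₀ + 1) ×ˢ Finset.range (K * m ^ 2 + 1)).biUnion
      fun x => ({f x, -f x} : Finset ℤ)).card ≤ G * m ^ 2 := fun f => by
    refine (Finset.card_biUnion_le_card_mul _ _ 2 fun x _ => Finset.card_le_two).trans ?_
    rw [Finset.card_product, Finset.card_range, Finset.card_range, hG]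
    have : K * m ^ 2 + 1 ≤ 2 * K * m ^ 2 := by
      have : 0 < K * m ^ 2 := by
        have : 0 < C := by omega
        positivity
      rw [mul_assoc 2]; omega
    calc (κ₀ + 1) * (K * m ^ 2 + 1) * 2 ≤ (κ₀ + 1) * (2 * K * m ^ 2) * 2 := by gcongr
      _ = _ := by ring
  have htot : Good.card ≤ 4 + G * m ^ 2 * (G * m ^ 2 * 4) * 4 := by
    rw [← Finset.card_image_of_injective Good hρinj]
    refine (Finset.card_le_card hcover).trans ((Finset.card_union_le _ _).trans (add_le_add hZ ?_))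
    refine (Finset.card_biUnion_le_card_mul _ _ 4 fun t _ => hfib t).trans ?_
    rw [Finset.card_product, Finset.card_product]
    gcongr
    · exact hUV _
    · exact hUV _
    · exact Finset.card_le_four
  have h := hgood.trans (Nat.mul_le_mul_left 2 htot)
  rw [hN] at h
  nlinarith [pow_pos (show 0 < m by omega) 4, mul_le_mul_of_nonneg_left hm32 (show 0 ≤ G * G * m ^ 4 by positivity)]

end FA.SS

end
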