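import Fermat.Agent.EC.S51Aux
import Fermat.Agent.Switch.SquareDisc

/-!
# Integral parameters of semistable curves with reducible `5`-torsion

A semistable model with reducible `5`-torsion has `u v⁵ = e³ Δ` and `u² + 10 u v + 5 v² = e c₄`
for coprime integers `u, v` and a divisor `e` of `5`.
-/

set_option autoImplicit false

noncomputable section

open WeierstrassCurve

namespace FA.SS

/-- `u² + 10 u v + 5 v²` has no zero with `v ≠ 0`. -/
lemma fiveForm_ne_zero {u v : ℤ} (hv : v ≠ 0) : u ^ 2 + 10 * u * v + 5 * v ^ 2 ≠ 0 := by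
  intro h
  have hv' : (v : ℚ) ≠ 0 := Int.cast_ne_zero.mpr hv
  have h' : ((u : ℚ) + 5 * v) ^ 2 = 20 * (v : ℚ) ^ 2 := by
    have h0 : ((u ^ 2 + 10 * u * v + 5 * v ^ 2 : ℤ) : ℚ) = 0 := by rw [h]; rfl
    push_cast at h0
    linear_combination h0
  have h5 : (((u : ℚ) + 5 * v) / (2 * v)) ^ 2 = 5 := by
    rw [div_pow, h']; field_simp; norm_num
  have hirr : Irrational (Real.sqrt ((5 : ℕ) : ℝ)) := Nat.prime_five.irrational_sqrt
  have h5' : ((((u : ℚ) + 5 * v) / (2 * v) : ℚ) : ℝ) ^ 2 = ((5 : ℕ) : ℝ) := by exact_mod_cast h5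
  refine hirr ⟨|((u : ℚ) + 5 * v) / (2 * v)|, ?_⟩
  rw [Rat.cast_abs, ← Real.sqrt_sq_eq_abs, h5']

/-- **The integral parameter of a reducible `5`-torsion representation.** -/
theorem exists_int_param {W : WeierstrassCurve ℤ} (hW : W.IsSemistableModel) (hΔ : W.Δ ≠ 0)
    (hred : ¬ W.ModRepIsIrreducible 5) :
    ∃ u v e : ℤ, IsCoprime u v ∧ e ∣ 5 ∧ u * v ^ 5 = e ^ 3 * W.Δ ∧
      u ^ 2 + 10 * u * v + 5 * v ^ 2 = e * W.c₄ := by
  have := FA.Frob.ratCurve_isElliptic_of_Δ hΔ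
  obtain ⟨t, -, ht⟩ := FA.EC.exists_param_five (E := W.map (Int.castRingHom ℚ)) hred
  rw [map_c₄, map_Δ, eq_intCast, eq_intCast] at ht
  set u := t.num with hu
  set v : ℤ := (t.den : ℤ) with hv
  have hv0 : v ≠ 0 := by rw [hv]; exact_mod_cast t.den_nz
  have huv : IsCoprime u v := by
    rw [hu, hv, Int.isCoprime_iff_gcd_eq_one, Int.gcd_eq_natAbs, Int.natAbs_natCast]
    exact t.reduced
  have hts : (v : ℚ) * t = (u : ℚ) := by
    rw [hu, hv, Int.cast_natCast]; exact Rat.den_mul_eq_num t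
  set Q := u ^ 2 + 10 * u * v + 5 * v ^ 2 with hQ
  have main : W.c₄ ^ 3 * (u * v ^ 5) = Q ^ 3 * W.Δ := by
    apply Int.cast_injective (α := ℚ)
    push_cast [hQ]
    rw [← hts]
    linear_combination (v : ℚ) ^ 6 * ht
  have hcd := FA.Switch.isCoprime_c₄_Δ hΔ hW
  obtain ⟨k, hk⟩ : W.Δ ∣ u * v ^ 5 :=
    (hcd.pow_right (n := 3)).dvd_of_dvd_mul_left (Dvd.intro_left _ main.symm)
  have main' : W.c₄ ^ 3 * k = Q ^ 3 :=
    mul_right_cancel₀ hΔ (by rw [← main, hk]; ring)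
  obtain ⟨e, he⟩ : W.c₄ ∣ Q :=
    (Int.pow_dvd_pow_iff three_ne_zero).mp (Dvd.intro _ main')
  have hQ0 : Q ≠ 0 := fiveForm_ne_zero hv0
  have hc : W.c₄ ≠ 0 := fun h => hQ0 (by rw [he, h, zero_mul])
  have hke : k = e ^ 3 := mul_left_cancel₀ (pow_ne_zero 3 hc) (by rw [main', he]; ring)
  have heQ : e ∣ Q := Dvd.intro_left _ he.symm
  have hev : IsCoprime e v := by
    have hQv : IsCoprime Q v := by
      rw [hQ, show u ^ 2 + 10 * u * v + 5 * v ^ 2 = u ^ 2 + v * (10 * u + 5 * v) by ring]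
      exact huv.pow_left.add_mul_left_left _
    exact hQv.of_isCoprime_of_dvd_left heQ
  have hu' : e ^ 3 ∣ u :=
    hev.pow.dvd_of_dvd_mul_right (Dvd.intro_left W.Δ (by rw [← hke, ← hk]))
  have he5v : e ∣ 5 * v ^ 2 := by
    rw [show 5 * v ^ 2 = Q - u * (u + 10 * v) by rw [hQ]; ring]
    exact dvd_sub heQ (((dvd_pow_self e three_ne_zero).trans hu').mul_right _)
  exact ⟨u, v, e, huv, hev.pow_right.dvd_of_dvd_mul_right he5v, by rw [hk, hke]; ring,
    by rw [← hQ, he]; ring⟩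

end FA.SS

end
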