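import Fermat.Agent.Switch.ThreeSwitch
import Fermat.Agent.Root.Semistable.Defs
import Fermat.Agent.Root.Semistable.Forms
import Fermat.Agent.Root.Semistable.FrameThree
import Fermat.Agent.Root.Semistable.ParamFive
import Fermat.Agent.Root.Semistable.CountFive

/-!
# The switch from irreducible `3`-torsion to irreducible `5`-torsion
-/

set_option autoImplicit false
set_option linter.unusedSectionVars false

open WeierstrassCurve

namespace FA.SS

noncomputable section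

local notation "Qb" => AlgebraicClosure ℚ

open FA.Switch (shortKl shortKl_isElliptic isIntegralModelOf_shortKl)

/-- The syzygy of the members. -/
lemma ThreeFive.member_syzygy {R : Type*} [CommRing R] {a b d r σ : R} (h : a ^ 3 - b ^ 2 = 1728 * d) :
    (a * phi4 b d r σ) ^ 3 - psi6 a b d r σ ^ 2 = 1728 * (d * disc4 a b d r σ ^ 3) := by
  rw [sub_eq_iff_eq_add] at h
  simp only [phi4, psi6, disc4, mul_pow a]
  rw [h]
  ring

lemma ThreeFive.intCast_phi4 {R : Type*} [CommRing R] (b d r σ : ℤ) :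
    ((phi4 b d r σ : ℤ) : R) = phi4 (b : R) (d : R) (r : R) (σ : R) :=
  map_phi4 (Int.castRingHom R) b d r σ

lemma ThreeFive.intCast_psi6 {R : Type*} [CommRing R] (a b d r σ : ℤ) :
    ((psi6 a b d r σ : ℤ) : R) = psi6 (a : R) (b : R) (d : R) (r : R) (σ : R) :=
  map_psi6 (Int.castRingHom R) a b d r σ

lemma ThreeFive.intCast_disc4 {R : Type*} [CommRing R] (a b d r σ : ℤ) :
    ((disc4 a b d r σ : ℤ) : R) = disc4 (a : R) (b : R) (d : R) (r : R) (σ : R) :=
  map_disc4 (Int.castRingHom R) a b d r σ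

/-- Members near `(1, 0)` are congruent to the curve. -/
lemma ThreeFive.member_congr {M : ℕ} {a b d r s : ℤ} (hr : (M : ℤ) ∣ r - 1) (hs : (M : ℤ) ∣ s) :
    (M : ℤ) ∣ a * phi4 b d r s - a ∧ (M : ℤ) ∣ psi6 a b d r s - b ∧
      (M : ℤ) ∣ disc4 a b d r s - 1 := by
  simp only [← ZMod.intCast_zmod_eq_zero_iff_dvd, Int.cast_sub, Int.cast_one, Int.cast_mul,
    ThreeFive.intCast_phi4, ThreeFive.intCast_psi6, ThreeFive.intCast_disc4, sub_eq_zero] at hr hs ⊢
  rw [hr, hs]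
  simp [phi4, psi6, disc4]

/-- The `3`-torsion of a model is that of its short model. -/
lemma ThreeFive.torsIso_shortKl {E : WeierstrassCurve ℤ} (hE : E.Δ ≠ 0) :
    FA.Switch.TorsIso 3 (FA.Frob.ratCurve E) (shortKl (E.c₄ : ℚ) (E.c₆ : ℚ)) := by
  have := FA.Frob.ratCurve_isElliptic_of_Δ hE
  have : (shortKl (E.c₄ : ℚ) (E.c₆ : ℚ)).IsElliptic := shortKl_isElliptic fun h => by
    have h' : E.c₄ ^ 3 = E.c₆ ^ 2 := by exact_mod_cast h
    have := E.c_relation
    rw [h', sub_self] at this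
    exact hE ((mul_eq_zero.mp this).resolve_left (by norm_num))
  have : Fact (Nat.Prime 3) := ⟨Nat.prime_three⟩
  obtain ⟨C, hC⟩ := isIntegralModelOf_shortKl E
  exact FA.Switch.TorsIso.of_vc C hC

/-- **A curve with the same `3`-torsion and irreducible `5`-torsion.** -/
theorem threeToFive : ThreeToFive := by
  intro W hΔ hW
  classical
  have hne : ∀ E : WeierstrassCurve ℤ, E.Δ ≠ 0 → E.c₄ ^ 3 ≠ E.c₆ ^ 2 := fun E hE h => by
    have := E.c_relation
    rw [h, sub_self] at this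
    exact hE ((mul_eq_zero.mp this).resolve_left (by norm_num))
  have ha0 := FA.Switch.c₄_ne_zero W hW
  have hb0 := FA.Switch.c₆_ne_zero W hW
  obtain ⟨B, hBa, hBb⟩ := FA.Switch.L3.exists_base (a := (W.c₄ : ℚ)) (b := (W.c₆ : ℚ))
    (Int.cast_ne_zero.mpr ha0) (Int.cast_ne_zero.mpr hb0)
    (fun h => hne W hΔ (by exact_mod_cast h))
  obtain ⟨e, he, hind, hmem⟩ := exists_member_frame B (W.Δ : ℚ)
    (by rw [hBa, hBb]; exact_mod_cast W.c_relation.symm)
  obtain ⟨N, hN0, hN⟩ :=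
    FA.Switch.exists_good_outside [B.w 0, B.w 1, e 0, e 1, (FA.Switch.det2 B.w e)⁻¹]
  set S : Finset ℕ := (Finset.range 41).filter Nat.Prime ∪ W.Δ.natAbs.primeFactors ∪
    N.primeFactors with hSdef
  have hS : ∀ p ∈ S, p.Prime := fun p hp => by
    simp only [hSdef, Finset.mem_union, Finset.mem_filter] at hp
    rcases hp with (h | h) | h
    exacts [h.2, Nat.prime_of_mem_primeFactors h, Nat.prime_of_mem_primeFactors h]
  have hsmall : ∀ p : ℕ, p.Prime → p ≤ 40 → p ∈ S := fun p hp h => by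
    simp only [hSdef, Finset.mem_union, Finset.mem_filter, Finset.mem_range]
    exact .inl (.inl ⟨by omega, hp⟩)
  set M : ℕ := ∏ p ∈ S, p ^ 10 with hMdef
  have hM0 : 0 < M := Finset.prod_pos fun p hp => pow_pos (hS p hp).pos _
  have hpM : ∀ p ∈ S, ∀ k ≤ 10, (p : ℤ) ^ k ∣ (M : ℤ) := fun p hp k hk => by
    rw [← Nat.cast_pow, Int.natCast_dvd_natCast]
    exact (pow_dvd_pow p hk).trans (Finset.dvd_prod_of_mem (fun p => p ^ 10) hp)
  obtain ⟨r, s, hrs, hr, hs, hD0, hno⟩ := exists_pair_no_param ha0 hb0 hΔ hM0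
    fun p hp h => (dvd_pow_self p (by norm_num)).trans
      (Finset.dvd_prod_of_mem (fun p => p ^ 10) (hsmall p hp h))
  clear_value M
  set C₄ : ℤ := W.c₄ * phi4 W.c₆ W.Δ r s with hC₄
  set C₆ : ℤ := psi6 W.c₄ W.c₆ W.Δ r s with hC₆
  obtain ⟨hm4, hm6, hmD⟩ := ThreeFive.member_congr (a := W.c₄) (b := W.c₆) (d := W.Δ) hr hs
  obtain ⟨e4, e6⟩ := hmem (r : Qb) (s : Qb)
  have hC4' : (C₄ : Qb) =
      FA.Switch.L3.hc4 ((r : Qb) * B.w 0 + s * e 0) ((r : Qb) * B.w 1 + s * e 1) := by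
    rw [e4, hBa, hBb, hC₄]; push_cast [ThreeFive.intCast_phi4]; simp
  have hC6' : (C₆ : Qb) =
      FA.Switch.L3.hc6 ((r : Qb) * B.w 0 + s * e 0) ((r : Qb) * B.w 1 + s * e 1) := by
    rw [e6, hBa, hBb, hC₆, ThreeFive.intCast_psi6]; simp
  have hprec : ∀ p, FA.Switch.prec p ≤ 10 := fun p => by
    unfold FA.Switch.prec; split_ifs <;> norm_num
  obtain ⟨W', hW'4, hW'6, hW's, -⟩ := FA.Switch.exists_model S hS
    (hsmall 2 Nat.prime_two (by norm_num)) (hsmall 3 Nat.prime_three (by norm_num)) W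
    (fun p hp => hW p (hS p hp)) C₄ C₆
    (fun p hp => (hpM p hp _ (hprec p)).trans hm4)
    (fun p hp => (hpM p hp _ (hprec p)).trans hm6) (by
      rintro p hp hpS ⟨h4, h6⟩
      obtain ⟨A, hA⟩ := FA.Deform.exists_liesOverPrime hp
      have h40 : 40 < p := not_le.mp fun h => hpS (hsmall p hp h)
      have hpN : ¬ p ∣ N := fun h => hpS (by
        simp only [hSdef, Finset.mem_union]
        exact .inr (Nat.mem_primeFactors.mpr ⟨hp, h, hN0.ne'⟩))
      have hg := hN p hp hpN A hA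
      refine FA.Switch.not_dvd_both₃ (w := B.w) (e := e) hp hA (by omega) (by omega)
        (fun i => hg _ (by fin_cases i <;> simp)) (fun i => hg _ (by fin_cases i <;> simp))
        (hg _ (by simp)) hind (a := r) (b := s) (fun h => ?_) ⟨?_, ?_⟩
      · exact (Nat.prime_iff_prime_int.mp hp).not_isUnit (hrs.isUnit_of_dvd' h.1 h.2)
      · rw [← hC4']; exact (FA.Switch.intCast_lt_one_iff hp hA _).mpr h4
      · rw [← hC6']; exact (FA.Switch.intCast_lt_one_iff hp hA _).mpr h6)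
  have hΔ'eq : W'.Δ = W.Δ * disc4 W.c₄ W.c₆ W.Δ r s ^ 3 := by
    have h := W'.c_relation
    rw [hW'4, hW'6, hC₄, hC₆, ThreeFive.member_syzygy W.c_relation.symm] at h
    exact mul_left_cancel₀ (by norm_num) h
  have hΔ' : W'.Δ ≠ 0 := hΔ'eq ▸ mul_ne_zero hΔ (pow_ne_zero 3 hD0)
  refine ⟨W', hΔ', hW's, ?_, ?_, ?_⟩
  · by_contra hred
    obtain ⟨u, v, c, huv, hc, h1, h2⟩ := exists_int_param hW's hΔ' hred
    exact hno u v c huv hc ⟨by rw [h1, hΔ'eq], by rw [h2, hW'4]⟩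
  · have hne' : ∀ E : WeierstrassCurve ℤ, E.Δ ≠ 0 →
        (algebraMap ℚ Qb (E.c₄ : ℚ)) ^ 3 ≠ (algebraMap ℚ Qb (E.c₆ : ℚ)) ^ 2 := fun E hE h => by
      simp only [eq_ratCast, Rat.cast_intCast] at h
      exact hne E hE (by exact_mod_cast h)
    refine ((ThreeFive.torsIso_shortKl hΔ).trans ?_).trans (ThreeFive.torsIso_shortKl hΔ').symm
    refine B.inV_base.torsIso (B.inV_base.lin he (r : ℚ) (s : ℚ))
      ⟨?_, ?_, hne' W hΔ⟩ ⟨?_, ?_, hne' W' hΔ'⟩
    · rw [B.sat.eq4, hBa]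
    · rw [B.sat.eq6, hBb]
    · rw [hW'4]; simpa using hC4'.symm
    · rw [hW'6]; simpa using hC6'.symm
  · rw [hΔ'eq]
    refine ⟨fun h => dvd_mul_of_dvd_left h _, fun h => ?_⟩
    rcases Int.prime_three.dvd_or_dvd h with h | h
    · exact h
    · have hD := Int.prime_three.dvd_of_dvd_pow h
      have h3M : (3 : ℤ) ∣ (M : ℤ) := by
        have h1 := hpM 3 (hsmall 3 Nat.prime_three (by norm_num)) 1 (by norm_num)
        rwa [pow_one, Nat.cast_ofNat] at h1
      have h1 := dvd_sub hD (h3M.trans hmD)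
      rw [sub_sub_cancel] at h1
      exact absurd h1 (by decide)

end

end FA.SS
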