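import Fermat.Agent.Switch.ThreeSwitch

/-!
# Targets at `2` for the switch to a seed

A point of a twisted plane of level `3`, fixed by the decomposition group at `2`, whose invariants
are close to those of a model with supersingular reduction.
-/

set_option autoImplicit false

open WeierstrassCurve
open scoped Pointwise

namespace FA.SS

noncomputable section

local notation "Qb" => AlgebraicClosure ℚ
local notation "GQ" => AlgebraicClosure ℚ ≃ₐ[ℚ] AlgebraicClosure ℚ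

/-- What is prescribed at `2`. -/
structure TargetTwo (B : FA.Switch.L3.Base) (e : Fin 2 → Qb) (A : ValuationSubring Qb)
    (r s x y z : Qb) (D₀ : ℤ) (Wq : WeierstrassCurve ℤ) : Prop where
  fixed : ∀ σ : GQ, σ • A = A → σ r = r ∧ σ s = s
  eq4 : FA.Switch.L3.hc4 (r * B.w 0 + s * e 0) (r * B.w 1 + s * e 1) = x
  eq6 : FA.Switch.L3.hc6 (r * B.w 0 + s * e 0) (r * B.w 1 + s * e 1) = y
  rel : x ^ 3 - y ^ 2 = 1728 * z
  int4 : A.valuation x ≤ 1
  int6 : A.valuation y ≤ 1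
  disc : A.valuation z = A.valuation (D₀ : Qb)
  disc_odd : ¬ (2 : ℤ) ∣ D₀
  near4 : A.valuation (x - (Wq.c₄ : Qb)) ≤ A.valuation (2 : Qb) ^ FA.Switch.prec 2
  near6 : A.valuation (y - (Wq.c₆ : Qb)) ≤ A.valuation (2 : Qb) ^ FA.Switch.prec 2
  a1_even : (2 : ℤ) ∣ Wq.a₁
  a3_odd : ¬ (2 : ℤ) ∣ Wq.a₃

/-- Every semistable curve admissible for the switch has a target at `2`. -/
def HasTargetTwo : Prop :=
  ∀ (W : WeierstrassCurve ℤ), W.Δ ≠ 0 → W.IsSemistableModel →
    ((2 : ℤ) ∣ W.Δ → 3 ∣ padicValInt 2 W.Δ) →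
    ∀ (B : FA.Switch.L3.Base), B.a = (W.c₄ : ℚ) → B.b = (W.c₆ : ℚ) →
    ∀ (e : Fin 2 → Qb), B.InV e → FA.Switch.det2 B.w e ≠ 0 →
    ∀ (A : ValuationSubring Qb), A.LiesOverPrime 2 →
      ∃ r s x y z D₀ Wq, TargetTwo B e A r s x y z D₀ Wq

end

end FA.SS
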