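import Fermat.Agent.Root.Semistable.Defs
import Fermat.Agent.Root.Semistable.Target

/-!
# The switch to a seed

A semistable curve admissible at `2` has a seed with the same `3`-torsion, given targets at `2`.
The form of the switched discriminant is made so large that it has a prime factor outside the
exceptional set, so that there is a bad prime other than `3`.
-/

set_option autoImplicit false
set_option linter.unusedSectionVars false

open WeierstrassCurve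
open scoped Pointwise

namespace FA.SS

open FA.Switch Polynomial

noncomputable section

local notation "Qb" => AlgebraicClosure ℚ
local notation "GQ" => AlgebraicClosure ℚ ≃ₐ[ℚ] AlgebraicClosure ℚ

/-- On a narrower cone the values of the form are large. -/
lemma exists_cone_large {Q : ℤ[X]} (hQ : Q.natDegree ≤ 4) {Δ u w : ℤ} {K : ℕ} (hw : 0 < w)
    (hneg : ∀ a b : ℤ, 0 < b → (K : ℤ) * |a * w - b * u| ≤ b * w → Δ * qform Q a b < 0)
    (X₀ : ℕ) :
    ∃ K' B : ℕ, K ≤ K' ∧ ∀ a b : ℤ, (B : ℤ) < b → (K' : ℤ) * |a * w - b * u| ≤ b * w →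
      (X₀ : ℤ) < |qform Q a b| := by
  set g : ℝ → ℝ := fun t => (Q.map (Int.castRingHom ℝ)).eval t
  have hwR : (0 : ℝ) < w := Int.cast_pos.mpr hw
  have hcast : ∀ a b : ℤ, 0 < b → ((qform Q a b : ℤ) : ℝ) = (b : ℝ) ^ 4 * g ((a : ℝ) / b) :=
    fun a b hb => by
      rw [← eq_intCast (Int.castRingHom ℝ) (qform Q a b), map_qform, eq_intCast, eq_intCast]
      exact L3.qform_real hQ _ _ (Int.cast_pos.mpr hb).ne'
  have hg0 : g ((u : ℝ) / w) ≠ 0 := fun h => by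
    have h1 := hneg u w hw (by rw [mul_comm u w, sub_self, abs_zero, mul_zero]; positivity)
    have h2 : qform Q u w = 0 := by
      have := hcast u w hw
      rw [h, mul_zero] at this
      exact_mod_cast this
    rw [h2, mul_zero] at h1
    exact lt_irrefl _ h1
  set c : ℝ := |g ((u : ℝ) / w)| / 2 with hc
  have hc0 : 0 < c := half_pos (abs_pos.mpr hg0)
  have hgc : Continuous g := Polynomial.continuous _
  obtain ⟨ε, hε, hball⟩ := Metric.isOpen_iff.mp (isOpen_Ioi.preimage hgc.abs) ((u : ℝ) / w)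
    (show c < |g ((u : ℝ) / w)| from half_lt_self (abs_pos.mpr hg0))
  obtain ⟨K₁, hK₁⟩ := exists_nat_gt (1 / ε)
  obtain ⟨B, hB⟩ := exists_nat_gt ((X₀ : ℝ) / c)
  refine ⟨max K K₁, B, le_max_left _ _, fun a b hb hcone => ?_⟩
  have hb0 : 0 < b := (Int.natCast_nonneg B).trans_lt hb
  have hbR : (1 : ℝ) ≤ b := by exact_mod_cast hb0
  have hcone₁ : (K₁ : ℤ) * |a * w - b * u| ≤ b * w :=
    (mul_le_mul_of_nonneg_right (Int.ofNat_le.mpr (le_max_right _ _)) (abs_nonneg _)).trans hcone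
  have hcR : (K₁ : ℝ) * |(a : ℝ) * w - b * u| ≤ b * w := by exact_mod_cast hcone₁
  have hK0 : (0 : ℝ) < K₁ := (one_div_pos.mpr hε).trans hK₁
  have hnear : dist ((a : ℝ) / b) ((u : ℝ) / w) < ε := by
    have hbw : (0 : ℝ) < b * w := mul_pos (one_pos.trans_le hbR) hwR
    rw [Real.dist_eq, div_sub_div _ _ (one_pos.trans_le hbR).ne' hwR.ne', abs_div,
      abs_of_pos hbw, div_lt_iff₀ hbw]
    refine lt_of_mul_lt_mul_left (a := (K₁ : ℝ)) (hcR.trans_lt ?_) hK0.le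
    rw [div_lt_iff₀ hε] at hK₁
    nlinarith
  have hgv : c < |g ((a : ℝ) / b)| := hball hnear
  have h4 : (b : ℝ) ≤ (b : ℝ) ^ 4 := le_self_pow₀ hbR (by norm_num)
  have hBb : (B : ℝ) < b := by exact_mod_cast hb
  rw [← Int.cast_lt (R := ℝ), Int.cast_natCast, Int.cast_abs, hcast a b hb0, abs_mul,
    abs_of_pos (by positivity : (0 : ℝ) < (b : ℝ) ^ 4)]
  rw [div_lt_iff₀ hc0] at hB
  calc (X₀ : ℝ) < B * c := hB
    _ ≤ (b : ℝ) ^ 4 * c := mul_le_mul_of_nonneg_right (hBb.le.trans h4) hc0.le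
    _ ≤ _ := mul_le_mul_of_nonneg_left hgv.le (by positivity)

/-- A residue all of whose positive representatives for a large modulus are large. -/
lemma exists_shift (b₀ : ℤ) {M : ℕ} (hM : 0 < M) (B : ℕ) :
    ∃ (k : ℕ) (t : ℤ), B + 1 < 2 ^ k ∧
      ∀ j : ℤ, 0 < b₀ + (M : ℤ) * t + ((M * 2 ^ k : ℕ) : ℤ) * j →
        (B : ℤ) < b₀ + (M : ℤ) * t + ((M * 2 ^ k : ℕ) : ℤ) * j := by
  obtain ⟨k, hk⟩ : ∃ k : ℕ, B + 1 < 2 ^ k := ⟨B + 1, Nat.lt_two_pow_self⟩
  refine ⟨k, (B - b₀) / M + 1, hk, fun j hj => ?_⟩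
  have hM' : (0 : ℤ) < M := Int.natCast_pos.mpr hM
  have h1 := Int.emod_nonneg (B - b₀) hM'.ne'
  have h2 := Int.emod_lt_of_pos (B - b₀) hM'
  have h3 : (M : ℤ) * ((B - b₀) / M) + (B - b₀) % M = B - b₀ := Int.mul_ediv_add_emod _ _
  have h4 : ((B : ℤ) + 2) ≤ ((2 ^ k : ℕ) : ℤ) := by exact_mod_cast hk
  rw [Nat.cast_mul, mul_assoc] at hj ⊢
  rcases le_or_gt 0 j with h | h
  · nlinarith [mul_nonneg hM'.le (mul_nonneg (Int.natCast_nonneg (2 ^ k)) h)]
  · exfalso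
    nlinarith [mul_le_mul_of_nonneg_left (show (1 : ℤ) ≤ -j by omega)
      (mul_nonneg hM'.le (Int.natCast_nonneg (2 ^ k))),
      mul_le_mul_of_nonneg_left h4 hM'.le, mul_nonneg (Int.natCast_nonneg B) (show (0 : ℤ) ≤ M - 1 by omega)]

/-- The valuation of a cube. -/
lemma padicValInt_cube {p : ℕ} [Fact p.Prime] {n : ℤ} (hn : n ≠ 0) :
    padicValInt p (n ^ 3) = 3 * padicValInt p n := by
  rw [pow_succ, padicValInt.mul (pow_ne_zero 2 hn) hn, pow_two, padicValInt.mul hn hn]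
  ring

/-- The discriminant of a supersingular model at `2` is odd. -/
lemma not_two_dvd_disc {W : WeierstrassCurve ℤ} (h₁ : (2 : ℤ) ∣ W.a₁) (h₃ : ¬ (2 : ℤ) ∣ W.a₃) :
    ¬ (2 : ℤ) ∣ W.Δ := by
  intro h
  apply h₃
  obtain ⟨c, hc⟩ := h₁
  have h2 : ((W.Δ : ℤ) : ZMod 2) = 0 := (ZMod.intCast_zmod_eq_zero_iff_dvd _ 2).mpr h
  refine (ZMod.intCast_zmod_eq_zero_iff_dvd _ 2).mp ?_
  rw [WeierstrassCurve.Δ, WeierstrassCurve.b₂, WeierstrassCurve.b₄, WeierstrassCurve.b₆,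
    WeierstrassCurve.b₈, hc] at h2
  push_cast at h2
  generalize (W.a₃ : ZMod 2) = z₃, (W.a₂ : ZMod 2) = z₂, (W.a₄ : ZMod 2) = z₄,
    (W.a₆ : ZMod 2) = z₆, (c : ZMod 2) = zc at h2 ⊢
  revert h2
  revert z₃ z₂ z₄ z₆ zc
  decide

/-- What is prescribed at a prime of the exceptional set. -/
structure SeedTarget (B : L3.Base) (e : Fin 2 → Qb) (W : WeierstrassCurve ℤ) (p : ℕ)
    (A : ValuationSubring Qb) (r s x y z : Qb) (D₀ : ℤ) (Wq : WeierstrassCurve ℤ) : Prop where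
  fixed : ∀ σ : GQ, σ • A = A → σ r = r ∧ σ s = s
  eq4 : L3.hc4 (r * B.w 0 + s * e 0) (r * B.w 1 + s * e 1) = x
  eq6 : L3.hc6 (r * B.w 0 + s * e 0) (r * B.w 1 + s * e 1) = y
  rel : x ^ 3 - y ^ 2 = 1728 * z
  int4 : A.valuation x ≤ 1
  int6 : A.valuation y ≤ 1
  disc : A.valuation z = A.valuation (D₀ : Qb)
  ne : D₀ ≠ 0
  odd : (p : ℤ) ∣ D₀ → Odd (padicValInt p D₀)
  near4 : A.valuation (x - (Wq.c₄ : Qb)) ≤ A.valuation (p : Qb) ^ prec p
  near6 : A.valuation (y - (Wq.c₆ : Qb)) ≤ A.valuation (p : Qb) ^ prec p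
  semistable : (p : ℤ) ∣ Wq.Δ → ¬ (p : ℤ) ∣ Wq.c₄
  atTwo : p = 2 → (2 : ℤ) ∣ Wq.a₁ ∧ ¬ (2 : ℤ) ∣ Wq.a₃ ∧ ¬ (2 : ℤ) ∣ D₀
  away : p ≠ 2 → Wq = W

variable {B : L3.Base} {e : Fin 2 → Qb} {W Wq : WeierstrassCurve ℤ} {p : ℕ}
  {A : ValuationSubring Qb} {r s x y z : Qb} {D₀ : ℤ}

lemma SeedTarget.of_target (h2 : p ≠ 2) (h : Target B e W p A r s x y z D₀ Wq) :
    SeedTarget B e W p A r s x y z D₀ Wq where
  fixed := h.fixed
  eq4 := h.eq4
  eq6 := h.eq6
  rel := h.rel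
  int4 := h.int4
  int6 := h.int6
  disc := h.disc
  ne := h.ne
  odd := h.odd
  near4 := h.near4
  near6 := h.near6
  semistable := h.semistable
  atTwo := fun hp => absurd hp h2
  away := fun hp => (h.away hp).1

lemma SeedTarget.of_two (h : TargetTwo B e A r s x y z D₀ Wq) :
    SeedTarget B e W 2 A r s x y z D₀ Wq where
  fixed := h.fixed
  eq4 := h.eq4
  eq6 := h.eq6
  rel := h.rel
  int4 := h.int4
  int6 := h.int6
  disc := h.disc
  ne := fun h0 => h.disc_odd (h0 ▸ dvd_zero _)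
  odd := fun hd => absurd (by exact_mod_cast hd) h.disc_odd
  near4 := by exact_mod_cast h.near4
  near6 := by exact_mod_cast h.near6
  semistable := fun hd => absurd (by exact_mod_cast hd) (not_two_dvd_disc h.a1_even h.a3_odd)
  atTwo := fun _ => ⟨h.a1_even, h.a3_odd, h.disc_odd⟩
  away := fun hp => absurd rfl hp

set_option maxHeartbeats 4000000 in
/-- **The switch to a seed**, from targets at `2`. -/
theorem threeToSeed_of (htwo : HasTargetTwo) : ThreeToSeed := by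
  intro W hΔ hW h3
  classical
  obtain ⟨B, hBa, hBb⟩ := L3.exists_base (a := (W.c₄ : ℚ)) (b := (W.c₆ : ℚ))
    (Int.cast_ne_zero.mpr (c₄_ne_zero W hW)) (Int.cast_ne_zero.mpr (c₆_ne_zero W hW))
    (fun h => by
      have h' : W.c₄ ^ 3 = W.c₆ ^ 2 := by exact_mod_cast h
      have := W.c_relation
      rw [h', sub_self] at this
      exact hΔ ((mul_eq_zero.mp this).resolve_left (by norm_num)))
  obtain ⟨e, he, hind', -⟩ := B.exists_frame
  have hind : det2 B.w e ≠ 0 := fun h => hind' (by simp only [det2] at h; linear_combination -h)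
  obtain ⟨L, Q, hQ⟩ := B.exists_quartic he hind
  obtain ⟨A₁, C₁, R, hR0, hR⟩ := hQ.separable
  obtain ⟨u, w, K, hw, hneg⟩ := hQ.exists_cone he hind W.Δ
    (by rw [hBa, hBb]; exact_mod_cast W.c_relation.symm) hΔ
  obtain ⟨N, hN0, hN⟩ := exists_good_outside [B.w 0, B.w 1, e 0, e 1, (det2 B.w e)⁻¹]
  set S : Finset ℕ := (Finset.range 41).filter Nat.Prime ∪ W.Δ.natAbs.primeFactors ∪
    N.primeFactors ∪ L.primeFactors ∪ R.natAbs.primeFactors with hSdef
  have hS : ∀ p ∈ S, p.Prime := fun p hp => by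
    simp only [hSdef, Finset.mem_union, Finset.mem_filter] at hp
    rcases hp with (((h | h) | h) | h) | h
    exacts [h.2, Nat.prime_of_mem_primeFactors h, Nat.prime_of_mem_primeFactors h,
      Nat.prime_of_mem_primeFactors h, Nat.prime_of_mem_primeFactors h]
  have hsmall : ∀ p : ℕ, p.Prime → p ≤ 40 → p ∈ S := fun p hp h => by
    simp only [hSdef, Finset.mem_union, Finset.mem_filter, Finset.mem_range]
    exact .inl (.inl (.inl (.inl ⟨by omega, hp⟩)))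
  have hΔS : ∀ p : ℕ, p.Prime → (p : ℤ) ∣ W.Δ → p ∈ S := fun p hp h => by
    simp only [hSdef, Finset.mem_union]
    exact .inl (.inl (.inl (.inr (Nat.mem_primeFactors.mpr
      ⟨hp, Int.natCast_dvd.mp h, Int.natAbs_ne_zero.mpr hΔ⟩))))
  have hout : ∀ p : ℕ, p.Prime → p ∉ S → 40 < p ∧ ¬ (p : ℤ) ∣ W.Δ ∧ ¬ p ∣ N ∧ ¬ p ∣ L ∧
      ¬ (p : ℤ) ∣ R := fun p hp hpS => by
    refine ⟨not_le.mp fun h => hpS (hsmall p hp h), fun h => hpS (hΔS p hp h), fun h => hpS ?_,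
      fun h => hpS ?_, fun h => hpS ?_⟩
    · simp only [hSdef, Finset.mem_union]
      exact .inl (.inl (.inr (Nat.mem_primeFactors.mpr ⟨hp, h, hN0.ne'⟩)))
    · simp only [hSdef, Finset.mem_union]
      exact .inl (.inr (Nat.mem_primeFactors.mpr ⟨hp, h, hQ.pos.ne'⟩))
    · simp only [hSdef, Finset.mem_union]
      exact .inr (Nat.mem_primeFactors.mpr
        ⟨hp, Int.natCast_dvd.mp h, Int.natAbs_ne_zero.mpr hR0⟩)
  choose! P hP using fun (p : ℕ) (hp : p.Prime) => FA.Deform.exists_liesOverPrime hp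
  have h2S : 2 ∈ S := hsmall 2 Nat.prime_two (by norm_num)
  have h3S : 3 ∈ S := hsmall 3 Nat.prime_three (by norm_num)
  have htarget : ∀ p : ℕ, p.Prime → ∃ r s x y z D₀ Wq,
      SeedTarget B e W p (P p) r s x y z D₀ Wq := by
    intro p hp
    by_cases h2 : p = 2
    · subst h2
      obtain ⟨r, s, x, y, z, D, Wq, h⟩ :=
        htwo W hΔ hW h3 B hBa hBb e he hind (P 2) (hP 2 hp)
      exact ⟨r, s, x, y, z, D, Wq, .of_two h⟩
    · by_cases hev : (p : ℤ) ∣ W.Δ ∧ Even (padicValInt p W.Δ)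
      · obtain ⟨r, s, x, y, z, h⟩ :=
          exists_target_even hΔ hW hBa hBb he hind hp (hP p hp) h2 hev.1 hev.2
        exact ⟨r, s, x, y, z, _, W, .of_target h2 h⟩
      · exact ⟨_, _, _, _, _, _, _, .of_target h2 (exists_target_base hΔ hW hBa hBb h2
          fun h => Nat.not_even_iff_odd.mp fun h' => hev ⟨h, h'⟩)⟩
  choose! r s x y z D₀ Wp hT using htarget
  set m₀ : ℕ → ℕ := fun p => padicValInt p (1728 * D₀ p) + 11 with hm₀
  set P4 : MvPolynomial (Fin 2) Qb := L3.hc4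
    (MvPolynomial.X 0 * MvPolynomial.C (B.w 0) + MvPolynomial.X 1 * MvPolynomial.C (e 0))
    (MvPolynomial.X 0 * MvPolynomial.C (B.w 1) + MvPolynomial.X 1 * MvPolynomial.C (e 1))
  set P6 : MvPolynomial (Fin 2) Qb := L3.hc6
    (MvPolynomial.X 0 * MvPolynomial.C (B.w 0) + MvPolynomial.X 1 * MvPolynomial.C (e 0))
    (MvPolynomial.X 0 * MvPolynomial.C (B.w 1) + MvPolynomial.X 1 * MvPolynomial.C (e 1))
  have hP46 : ∀ v : Fin 2 → Qb,
      MvPolynomial.eval v P4 = L3.hc4 (v 0 * B.w 0 + v 1 * e 0) (v 0 * B.w 1 + v 1 * e 1) ∧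
      MvPolynomial.eval v P6 = L3.hc6 (v 0 * B.w 0 + v 1 * e 0) (v 0 * B.w 1 + v 1 * e 1) :=
    fun v => by constructor <;> simp [P4, P6, L3.map_hc4, L3.map_hc6]
  choose! ν hν4 hν6 using fun p (hp : p ∈ S) => show ∃ ν : ℕ,
      (∀ v : Fin 2 → Qb, (∀ i, (P p).valuation (v i - ![r p, s p] i) ≤
          (P p).valuation (p : Qb) ^ ν) →
        (P p).valuation (MvPolynomial.eval v P4 - x p) ≤ (P p).valuation (p : Qb) ^ m₀ p) ∧
      (∀ v : Fin 2 → Qb, (∀ i, (P p).valuation (v i - ![r p, s p] i) ≤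
          (P p).valuation (p : Qb) ^ ν) →
        (P p).valuation (MvPolynomial.eval v P6 - y p) ≤ (P p).valuation (p : Qb) ^ m₀ p) by
    have hA := hP p (hS p hp)
    obtain ⟨ν₄, h₄⟩ := exists_continuity (hS p hp) hA P4 ![r p, s p] (m₀ p)
    obtain ⟨ν₆, h₆⟩ := exists_continuity (hS p hp) hA P6 ![r p, s p] (m₀ p)
    have e4' : MvPolynomial.eval ![r p, s p] P4 = x p := by
      rw [(hP46 _).1]; exact (hT p (hS p hp)).eq4
    have e6' : MvPolynomial.eval ![r p, s p] P6 = y p := by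
      rw [(hP46 _).2]; exact (hT p (hS p hp)).eq6
    refine ⟨max ν₄ ν₆, fun v hv => ?_, fun v hv => ?_⟩
    · rw [← e4']; exact h₄ v fun i => (hv i).trans (pow_q_anti hA (le_max_left _ _))
    · rw [← e6']; exact h₆ v fun i => (hv i).trans (pow_q_anti hA (le_max_right _ _))
  obtain ⟨m, M, a₀, b₀, hm0, hmS', hM0, hMS, ha0, -, happr⟩ :=
    exists_approx S hS P (fun p hp => hP p (hS p hp)) r s (fun p hp => (hT p (hS p hp)).fixed) ν
  set M₁ : ℕ := ∏ p ∈ S, p ^ (padicValInt p a₀ + 1) with hM₁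
  have hM₁pos : 0 < M₁ := Finset.prod_pos fun p hp => pow_pos (hS p hp).pos _
  set Bnd : ℕ := ∏ p ∈ S, p ^ (padicValInt p ((L : ℤ) * (m : ℤ) ^ 4) + padicValInt p (D₀ p))
    with hBnd
  obtain ⟨K', Bb, hKK, hlarge⟩ := exists_cone_large hQ.deg hw hneg Bnd
  have hMM : 0 < M * M₁ := Nat.mul_pos hM0 hM₁pos
  obtain ⟨k, t, hk1, hk2⟩ := exists_shift b₀ hMM Bb
  obtain ⟨a, b, i₁, j₁, ha₁, hb₁, hb0, hcone', hsq⟩ := exists_sqfree_value Q hQ.deg S hsmall
    (fun p hp hpS => by rw [hQ.lead, Int.natCast_dvd_natCast]; exact (hout p hp hpS).2.2.2.1)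
    hR (fun p hp hpS => (hout p hp hpS).2.2.2.2) (M * M₁ * 2 ^ k) (Nat.mul_pos hMM (pow_pos two_pos k))
    (fun p hp hd => by
      rcases hp.dvd_mul.mp hd with hd | hd
      swap
      · rwa [(Nat.prime_dvd_prime_iff_eq hp Nat.prime_two).mp (hp.dvd_of_dvd_pow hd)]
      rcases hp.dvd_mul.mp hd with h | h
      · exact hMS p hp h
      · obtain ⟨l, hl, hpl⟩ := (Prime.dvd_finsetProd_iff hp.prime _).mp h
        rwa [(Nat.prime_dvd_prime_iff_eq hp (hS l hl)).mp (hp.dvd_of_dvd_pow hpl)])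
    a₀ (b₀ + ((M * M₁ : ℕ) : ℤ) * t) ha0 (fun p hp => by
      rw [Nat.cast_mul, Nat.cast_mul]
      refine dvd_mul_of_dvd_left (dvd_mul_of_dvd_right ?_ _) _
      rw [hM₁, Nat.cast_prod]
      exact (dvd_of_eq (by push_cast; rfl)).trans
        (Finset.dvd_prod_of_mem (fun p => ((p ^ (padicValInt p a₀ + 1) : ℕ) : ℤ)) hp)) u w hw K'
  set F : ℤ := qform Q a b with hF
  have hcone : (K : ℤ) * |a * w - b * u| ≤ b * w :=
    (mul_le_mul_of_nonneg_right (Int.ofNat_le.mpr hKK) (abs_nonneg _)).trans hcone'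
  have hFneg : W.Δ * F < 0 := hneg a b hb0 hcone
  have hFlarge : (Bnd : ℤ) < |F| := hlarge a b (hk2 j₁ (hb₁ ▸ hb0) |>.trans_eq hb₁.symm) hcone'
  obtain ⟨i, ha⟩ : ∃ i : ℤ, a = a₀ + ((M * M₁ : ℕ) : ℤ) * i :=
    ⟨((2 ^ k : ℕ) : ℤ) * i₁, by rw [ha₁]; push_cast; ring⟩
  obtain ⟨j, hb⟩ : ∃ j : ℤ, b = b₀ + ((M * M₁ : ℕ) : ℤ) * j :=
    ⟨t + ((2 ^ k : ℕ) : ℤ) * j₁, by rw [hb₁]; push_cast; ring⟩
  have hprim : ∀ p : ℕ, p.Prime → p ∉ S → ¬ ((p : ℤ) ∣ a ∧ (p : ℤ) ∣ b) := fun p hp hpS hd =>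
    hsq p hp hpS (prime_sq_dvd_qform hd.1 hd.2)
  set V : Fin 2 → Qb := fun i =>
    (((a : ℚ) / m : ℚ) : Qb) * B.w i + (((b : ℚ) / m : ℚ) : Qb) * e i with hVdef
  have hV : B.InV V := B.inV_base.lin he _ _
  obtain ⟨c4, c6, hc4, hc6⟩ := hV.exists_invariants
  have hclose : ∀ p ∈ S, (P p).valuation ((c4 : Qb) - x p) ≤ (P p).valuation (p : Qb) ^ m₀ p ∧
      (P p).valuation ((c6 : Qb) - y p) ≤ (P p).valuation (p : Qb) ^ m₀ p := fun p hp => by
    obtain ⟨h₁, h₂⟩ := happr p hp (M₁ * i) (M₁ * j)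
    rw [← mul_assoc, ← Nat.cast_mul, ← ha] at h₁
    rw [← mul_assoc, ← Nat.cast_mul, ← hb] at h₂
    have hv : ∀ i, (P p).valuation (![(a : Qb) / m, (b : Qb) / m] i - ![r p, s p] i) ≤
        (P p).valuation (p : Qb) ^ ν p := fun i => by fin_cases i; exacts [h₁, h₂]
    have e4 : MvPolynomial.eval ![(a : Qb) / m, (b : Qb) / m] P4 = (c4 : Qb) := by
      rw [(hP46 _).1, hc4]; simp [hVdef]
    have e6 : MvPolynomial.eval ![(a : Qb) / m, (b : Qb) / m] P6 = (c6 : Qb) := by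
      rw [(hP46 _).2, hc6]; simp [hVdef]
    rw [← e4, ← e6]
    exact ⟨hν4 p hp _ hv, hν6 p hp _ hv⟩
  have hm' : (m : Qb) ≠ 0 := Nat.cast_ne_zero.mpr hm0.ne'
  have hyV : ∀ i, (a : Qb) * B.w i + b * e i = (m : Qb) * V i := fun i => by
    simp only [hVdef]; push_cast; field_simp
  have hscaled : (m : Qb) ^ 4 * (c4 : Qb) =
      L3.hc4 ((a : Qb) * B.w 0 + b * e 0) ((a : Qb) * B.w 1 + b * e 1) ∧
      (m : Qb) ^ 6 * (c6 : Qb) =
      L3.hc6 ((a : Qb) * B.w 0 + b * e 0) ((a : Qb) * B.w 1 + b * e 1) := by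
    rw [hc4, hc6, hyV 0, hyV 1, L3.hc4_smul, L3.hc6_smul]
    exact ⟨rfl, rfl⟩
  have hgood : ∀ p : ℕ, p.Prime → p ∉ S → ∀ i : Fin 2, (P p).valuation (B.w i) ≤ 1 ∧
      (P p).valuation (e i) ≤ 1 ∧ (P p).valuation (det2 B.w e)⁻¹ ≤ 1 ∧
      (P p).valuation (m : Qb) = 1 := fun p hp hpS i => by
    have h := hN p hp (hout p hp hpS).2.2.1 (P p) (hP p hp)
    refine ⟨h _ (by fin_cases i <;> simp), h _ (by fin_cases i <;> simp), h _ (by simp),
      v_natCast_eq_one hp (hP p hp) fun hd => hpS (hmS' p hp hd)⟩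
  have key : ∀ p : ℕ, p.Prime →
      (P p).valuation (c4 : Qb) ≤ 1 ∧ (P p).valuation (c6 : Qb) ≤ 1 := by
    intro p hp
    by_cases hpS : p ∈ S
    · have h1 := pow_le_one₀ (zero_le (a := (P p).valuation (p : Qb)))
        (v_natPrime_lt (hP p hp)).le (n := m₀ p)
      constructor
      · rw [← sub_add_cancel (c4 : Qb) (x p)]
        exact (P p).valuation.map_add_le ((hclose p hpS).1.trans h1) (hT p hp).int4
      · rw [← sub_add_cancel (c6 : Qb) (y p)]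
        exact (P p).valuation.map_add_le ((hclose p hpS).2.trans h1) (hT p hp).int6
    · have hg := hgood p hp hpS
      have hy : ∀ i, (a : Qb) * B.w i + b * e i ∈ P p := fun i =>
        ((P p).valuation_le_one_iff _).mp ((P p).valuation.map_add_le
          ((map_mul _ _ _).trans_le (mul_le_one' (FA.Local.intCast_le_one a) (hg i).1))
          ((map_mul _ _ _).trans_le (mul_le_one' (FA.Local.intCast_le_one _) (hg i).2.1)))
      constructor
      · have h := congrArg (P p).valuation hscaled.1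
        rw [map_mul, map_pow, (hg 0).2.2.2, one_pow, one_mul] at h
        rw [h, (P p).valuation_le_one_iff]
        exact hc4_mem (hy 0) (hy 1)
      · have h := congrArg (P p).valuation hscaled.2
        rw [map_mul, map_pow, (hg 0).2.2.2, one_pow, one_mul] at h
        rw [h, (P p).valuation_le_one_iff]
        exact hc6_mem (hy 0) (hy 1)
  obtain ⟨C₄, hC4⟩ := exists_int_of_integral (x := c4) fun p hp => ⟨P p, hP p hp, (key p hp).1⟩
  obtain ⟨C₆, hC6⟩ := exists_int_of_integral (x := c6) fun p hp => ⟨P p, hP p hp, (key p hp).2⟩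
  have hC4' : (C₄ : Qb) = (c4 : Qb) := by rw [← hC4, Rat.cast_intCast]
  have hC6' : (C₆ : Qb) = (c6 : Qb) := by rw [← hC6, Rat.cast_intCast]
  obtain ⟨W₀, hW₀⟩ := exists_congr_model S hS m₀ Wp
  have hprec : ∀ p, prec p ≤ m₀ p := fun p => by
    simp only [hm₀, prec]; split_ifs <;> omega
  have hm1 : ∀ p, 0 < m₀ p := fun p => by simp [hm₀]
  have hdvd1 : ∀ p : ℕ, (p : ℤ) ∣ ((p ^ m₀ p : ℕ) : ℤ) := fun p => by
    exact_mod_cast dvd_pow_self p (hm1 p).ne'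
  have hW₀4 : ∀ p ∈ S, (p : ℤ) ∣ W₀.Δ → ¬ (p : ℤ) ∣ W₀.c₄ := fun p hp hd h4 =>
    (hT p (hS p hp)).semistable (by simpa using dvd_sub hd ((hdvd1 p).trans (hW₀ p hp).dvd_Δ))
      (by simpa using dvd_sub h4 ((hdvd1 p).trans (hW₀ p hp).dvd_c₄))
  have hcong : ∀ p ∈ S, (p : ℤ) ^ prec p ∣ C₄ - W₀.c₄ ∧ (p : ℤ) ^ prec p ∣ C₆ - W₀.c₆ := by
    intro p hp
    have hA := hP p (hS p hp)
    have step : ∀ (C : ℤ) (c : Qb) (t : Qb) (w₀ wp : ℤ), (C : Qb) = c →
        (P p).valuation (c - t) ≤ (P p).valuation (p : Qb) ^ m₀ p →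
        (P p).valuation (t - (wp : Qb)) ≤ (P p).valuation (p : Qb) ^ prec p →
        ((p ^ m₀ p : ℕ) : ℤ) ∣ w₀ - wp → (p : ℤ) ^ prec p ∣ C - w₀ := by
      intro C c t w₀ wp hC h1 h2 h3
      refine (intCast_le_pow_iff (hS p hp) hA _ _).mp ?_
      rw [show ((C - w₀ : ℤ) : Qb) = (c - t) + (t - (wp : Qb)) - ((w₀ - wp : ℤ) : Qb) by
        rw [← hC]; push_cast; ring]
      refine ((P p).valuation.map_sub _ _).trans (max_le ((P p).valuation.map_add_le
        (h1.trans (pow_q_anti hA (hprec p))) h2) ?_)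
      exact (intCast_le_pow_iff (hS p hp) hA _ _).mpr
        ((pow_dvd_pow _ (hprec p)).trans (by rwa [Nat.cast_pow] at h3))
    exact ⟨step _ _ _ _ _ hC4' (hclose p hp).1 (hT p (hS p hp)).near4 (hW₀ p hp).dvd_c₄,
      step _ _ _ _ _ hC6' (hclose p hp).2 (hT p (hS p hp)).near6 (hW₀ p hp).dvd_c₆⟩
  have hcop : ∀ p : ℕ, p.Prime → p ∉ S → ¬ ((p : ℤ) ∣ C₄ ∧ (p : ℤ) ∣ C₆) := by
    rintro p hp hpS ⟨h4, h6⟩
    have hA := hP p hp
    have h40 := (hout p hp hpS).1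
    refine not_dvd_both₃ (w := B.w) (e := e) hp hA (by omega) (by omega)
      (fun i => (hgood p hp hpS i).1) (fun i => (hgood p hp hpS i).2.1)
      (hgood p hp hpS 0).2.2.1 hind (a := a) (b := b) (hprim p hp hpS) ⟨?_, ?_⟩
    · rw [← hscaled.1, map_mul, map_pow, (hgood p hp hpS 0).2.2.2, one_pow, one_mul, ← hC4']
      exact (intCast_lt_one_iff hp hA _).mpr h4
    · rw [← hscaled.2, map_mul, map_pow, (hgood p hp hpS 0).2.2.2, one_pow, one_mul, ← hC6']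
      exact (intCast_lt_one_iff hp hA _).mpr h6
  obtain ⟨W', hW'4, hW'6, hW's, hW'r⟩ := exists_model S hS h2S h3S W₀ hW₀4 C₄ C₆
    (fun p hp => (hcong p hp).1) (fun p hp => (hcong p hp).2) hcop
  have hrel' : (C₄ : Qb) ^ 3 - (C₆ : Qb) ^ 2 = 1728 * (W'.Δ : Qb) := by
    rw [← hW'4, ← hW'6]; exact_mod_cast W'.c_relation.symm
  have hdisc : ∀ p ∈ S, W'.Δ ≠ 0 ∧ padicValInt p W'.Δ = padicValInt p (D₀ p) := fun p hp => by
    have t := hT p (hS p hp)
    refine padic_disc (hS p hp) (hP p (hS p hp)) (x := x p) (y := y p) (z := z p) (n := m₀ p)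
      (C₄ := C₄) (C₆ := C₆) (by rw [← hW'4, ← hW'6]; exact W'.c_relation.symm) t.rel t.ne t.disc
      t.int4 t.int6 ?_ ?_ (by simp [hm₀])
    · rw [hC4']; exact (hclose p hp).1
    · rw [hC6']; exact (hclose p hp).2
  have hΔ' : W'.Δ ≠ 0 := (hdisc 2 h2S).1
  have hred : ∀ p ∈ S, W'.reductionMod p = (Wp p).reductionMod p := fun p hp =>
    (hW'r p hp).trans ((hW₀ p hp).reduction (hm1 p))
  -- the discriminant in terms of the form
  have hDF : ((L : ℤ) * (m : ℤ) ^ 4) ^ 3 * W'.Δ = W.Δ * F ^ 3 := by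
    apply Int.cast_injective (α := Qb)
    have hδ : 1728 * L3.hD (B.w 0) (B.w 1) ^ 3 = 1728 * (W.Δ : Qb) := by
      rw [← L3.hesse_syzygy, (base_sat₃ hBa hBb).1, (base_sat₃ hBa hBb).2]
      exact_mod_cast W.c_relation.symm
    have hδ' := mul_left_cancel₀ (by norm_num) hδ
    have hVD : 1728 * L3.hD (V 0) (V 1) ^ 3 = 1728 * (W'.Δ : Qb) := by
      rw [← L3.hesse_syzygy, ← hc4, ← hc6, ← hC4', ← hC6', hrel']
    have hVD' := mul_left_cancel₀ (by norm_num) hVD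
    have hval := hQ.value (a : Qb) (b : Qb)
    rw [hyV 0, hyV 1, L3.hD_smul] at hval
    have hFq : (F : Qb) = qform Q (a : Qb) (b : Qb) := by
      rw [hF, ← eq_intCast (Int.castRingHom Qb), map_qform, eq_intCast, eq_intCast]
    push_cast
    rw [← hVD', ← hδ', hFq, ← mul_pow, ← mul_pow, mul_assoc, hval]
  have hF0 : F ≠ 0 := fun h => by rw [h, mul_zero] at hFneg; exact lt_irrefl _ hFneg
  have hpos : 0 < ((L : ℤ) * (m : ℤ) ^ 4) ^ 3 :=
    pow_pos (mul_pos (Int.natCast_pos.mpr hQ.pos) (pow_pos (Int.natCast_pos.mpr hm0) 4)) 3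
  have hneg' : W'.Δ < 0 := by
    have h1 : W.Δ * F ^ 3 < 0 := by
      rw [show W.Δ * F ^ 3 = (W.Δ * F) * F ^ 2 by ring]
      exact mul_neg_of_neg_of_pos hFneg (lt_of_le_of_ne (sq_nonneg F) (pow_ne_zero 2 hF0).symm)
    by_contra hle
    have h2 := mul_nonneg hpos.le (not_lt.mp hle)
    rw [hDF] at h2
    exact absurd h2 (not_le.mpr h1)
  have hodd : ∀ q : ℕ, q.Prime → (q : ℤ) ∣ W'.Δ → Odd (padicValInt q W'.Δ) := by
    intro q hq hqd
    have : Fact q.Prime := ⟨hq⟩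
    by_cases hqS : q ∈ S
    · rw [(hdisc q hqS).2]
      refine (hT q hq).odd ?_
      by_contra hnd
      have h1 := (padicValInt_dvd_iff (p := q) 1 W'.Δ).mp (by simpa using hqd)
      rw [(hdisc q hqS).2, padicValInt.eq_zero_of_not_dvd hnd] at h1
      rcases h1 with h1 | h1
      · exact hΔ' h1
      · omega
    · obtain ⟨-, hqΔ, -, hqL, -⟩ := hout q hq hqS
      have hqF : (q : ℤ) ∣ F := by
        have h : (q : ℤ) ∣ W.Δ * F ^ 3 := hDF ▸ dvd_mul_of_dvd_right hqd _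
        exact (Nat.prime_iff_prime_int.mp hq).dvd_of_dvd_pow
          (((Nat.prime_iff_prime_int.mp hq).dvd_or_dvd h).resolve_left hqΔ)
      have hqm : ¬ (q : ℤ) ∣ ((L : ℤ) * (m : ℤ) ^ 4) ^ 3 := fun h => by
        rcases (Nat.prime_iff_prime_int.mp hq).dvd_or_dvd
          ((Nat.prime_iff_prime_int.mp hq).dvd_of_dvd_pow h) with h | h
        · exact hqL (Int.natCast_dvd_natCast.mp h)
        · exact hqS (hmS' q hq (Int.natCast_dvd_natCast.mp
            ((Nat.prime_iff_prime_int.mp hq).dvd_of_dvd_pow h)))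
      have e := congrArg (padicValInt q) hDF
      rw [padicValInt.mul hpos.ne' hΔ', padicValInt.eq_zero_of_not_dvd hqm, zero_add,
        padicValInt.mul hΔ (pow_ne_zero 3 hF0), padicValInt.eq_zero_of_not_dvd hqΔ, zero_add,
        pow_succ, padicValInt.mul (pow_ne_zero 2 hF0) hF0, pow_two,
        padicValInt.mul hF0 hF0] at e
      have h1 : 1 ≤ padicValInt q F :=
        ((padicValInt_dvd_iff (p := q) 1 F).mp (by simpa using hqF)).resolve_left hF0
      have h2 : padicValInt q F < 2 := by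
        by_contra h
        exact hsq q hq hqS ((pow_dvd_pow _ (not_lt.mp h)).trans (padicValInt_dvd F))
      rw [e, show padicValInt q F = 1 by omega]
      decide
  obtain ⟨h21, h23, h2D⟩ := (hT 2 Nat.prime_two).atTwo rfl
  have hgood2 : W'.IsGoodPrimeFor 2 := by
    intro hd
    have : Fact (Nat.Prime 2) := ⟨Nat.prime_two⟩
    have h1 := (padicValInt_dvd_iff (p := 2) 1 W'.Δ).mp (by simpa using hd)
    rw [(hdisc 2 h2S).2, padicValInt.eq_zero_of_not_dvd (by exact_mod_cast h2D)] at h1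
    rcases h1 with h1 | h1
    · exact hΔ' h1
    · omega
  have hc1 : (W'.a₁ : ZMod 2) = ((Wp 2).a₁ : ZMod 2) := congrArg WeierstrassCurve.a₁ (hred 2 h2S)
  have hc3 : (W'.a₃ : ZMod 2) = ((Wp 2).a₃ : ZMod 2) := congrArg WeierstrassCurve.a₃ (hred 2 h2S)
  have ha1 : (2 : ℤ) ∣ W'.a₁ := (ZMod.intCast_zmod_eq_zero_iff_dvd _ 2).mp
    (hc1.trans ((ZMod.intCast_zmod_eq_zero_iff_dvd _ 2).mpr h21))
  have ha3 : ¬ (2 : ℤ) ∣ W'.a₃ := fun h => h23 ((ZMod.intCast_zmod_eq_zero_iff_dvd _ 2).mp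
    (hc3.symm.trans ((ZMod.intCast_zmod_eq_zero_iff_dvd _ 2).mpr h)))
  obtain ⟨q₀, hq₀, hq₀S, hq₀F⟩ : ∃ q : ℕ, q.Prime ∧ q ∉ S ∧ (q : ℤ) ∣ F := by
    by_contra hcon
    push Not at hcon
    have hBpos : 0 < Bnd := Finset.prod_pos fun p hp => pow_pos (hS p hp).pos _
    have hdvd : F.natAbs ∣ Bnd := by
      rw [Nat.dvd_iff_prime_pow_dvd_dvd]
      intro p k hp hpk
      rcases Nat.eq_zero_or_pos k with rfl | hk0
      · simp
      have : Fact p.Prime := ⟨hp⟩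
      have hpF : (p : ℤ) ^ k ∣ F := by
        rw [← Nat.cast_pow]; exact Int.natCast_dvd.mpr hpk
      have hpS : p ∈ S := by
        by_contra h
        exact hcon p hp h ((dvd_pow_self _ hk0.ne').trans hpF)
      have hvk : k ≤ padicValInt p F := ((padicValInt_dvd_iff k F).mp hpF).resolve_left hF0
      have hLm : (L : ℤ) * (m : ℤ) ^ 4 ≠ 0 :=
        mul_ne_zero (Int.natCast_ne_zero.mpr hQ.pos.ne') (pow_ne_zero _ (Int.natCast_ne_zero.mpr hm0.ne'))
      have e := congrArg (padicValInt p) hDF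
      rw [padicValInt.mul hpos.ne' hΔ', padicValInt.mul hΔ (pow_ne_zero 3 hF0),
        padicValInt_cube hLm, padicValInt_cube hF0, (hdisc p hpS).2] at e
      exact (pow_dvd_pow p (hvk.trans (by omega))).trans
        (Finset.dvd_prod_of_mem (fun p => p ^ (padicValInt p ((L : ℤ) * (m : ℤ) ^ 4) +
          padicValInt p (D₀ p))) hpS)
    have hle := Nat.le_of_dvd hBpos hdvd
    rw [← Int.natCast_natAbs] at hFlarge
    omega
  have hq₀Δ : (q₀ : ℤ) ∣ W'.Δ := by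
    obtain ⟨-, -, -, hqL, -⟩ := hout q₀ hq₀ hq₀S
    have hqP := Nat.prime_iff_prime_int.mp hq₀
    have h : (q₀ : ℤ) ∣ ((L : ℤ) * (m : ℤ) ^ 4) ^ 3 * W'.Δ :=
      hDF ▸ dvd_mul_of_dvd_right (dvd_pow hq₀F three_ne_zero) _
    refine (hqP.dvd_or_dvd h).resolve_left fun h => ?_
    rcases hqP.dvd_or_dvd (hqP.dvd_of_dvd_pow h) with h | h
    · exact hqL (Int.natCast_dvd_natCast.mp h)
    · exact hq₀S (hmS' q₀ hq₀ (Int.natCast_dvd_natCast.mp (hqP.dvd_of_dvd_pow h)))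
  refine ⟨W', ⟨hneg', hW's, hgood2, ha1, modRepIsIrreducible_two hΔ' ha1 ha3, hodd,
    q₀, hq₀, hq₀Δ, fun h => hq₀S (h ▸ h3S)⟩, ?_, ?_⟩
  · have key : ∀ (E : WeierstrassCurve ℤ), E.Δ ≠ 0 →
        TorsIso 3 (FA.Frob.ratCurve E) (shortKl (E.c₄ : ℚ) (E.c₆ : ℚ)) := fun E hE => by
      have := FA.Frob.ratCurve_isElliptic_of_Δ hE
      have : (shortKl (E.c₄ : ℚ) (E.c₆ : ℚ)).IsElliptic := shortKl_isElliptic fun h => by
        have h' : E.c₄ ^ 3 = E.c₆ ^ 2 := by exact_mod_cast h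
        have := E.c_relation
        rw [h', sub_self] at this
        exact hE ((mul_eq_zero.mp this).resolve_left (by norm_num))
      have : Fact (Nat.Prime 3) := ⟨Nat.prime_three⟩
      obtain ⟨C, hC⟩ := isIntegralModelOf_shortKl E
      exact TorsIso.of_vc C hC
    have hne : ∀ E : WeierstrassCurve ℤ, E.Δ ≠ 0 →
        (algebraMap ℚ Qb (E.c₄ : ℚ)) ^ 3 ≠ (algebraMap ℚ Qb (E.c₆ : ℚ)) ^ 2 := fun E hE h => by
      refine hE ?_
      have h' : E.c₄ ^ 3 = E.c₆ ^ 2 := by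
        simp only [eq_ratCast, Rat.cast_intCast] at h; exact_mod_cast h
      have := E.c_relation
      rw [h', sub_self] at this
      exact (mul_eq_zero.mp this).resolve_left (by norm_num)
    refine ((key W hΔ).trans ?_).trans (key W' hΔ').symm
    refine B.inV_base.torsIso hV ⟨(base_sat₃ hBa hBb).1.trans (by simp),
      (base_sat₃ hBa hBb).2.trans (by simp), hne W hΔ⟩ ⟨?_, ?_, hne W' hΔ'⟩
    · rw [hW'4, ← hc4, ← hC4']; simp
    · rw [hW'6, ← hc6, ← hC6']; simp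
  · have hd3 : ((W'.Δ : ℤ) : ZMod 3) = ((W.Δ : ℤ) : ZMod 3) := by
      have h := congrArg WeierstrassCurve.Δ (hred 3 h3S)
      rw [(hT 3 Nat.prime_three).away (by norm_num)] at h
      simpa [reductionMod, WeierstrassCurve.map_Δ] using h
    constructor <;> intro h
    · exact (ZMod.intCast_zmod_eq_zero_iff_dvd _ 3).mp
        (hd3.trans ((ZMod.intCast_zmod_eq_zero_iff_dvd _ 3).mpr h))
    · exact (ZMod.intCast_zmod_eq_zero_iff_dvd _ 3).mp
        (hd3.symm.trans ((ZMod.intCast_zmod_eq_zero_iff_dvd _ 3).mpr h))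

end

end FA.SS
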