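import Fermat.Agent.Root.Semistable.Assembly
import Fermat.Agent.Root.Semistable.Consequences
import Fermat.Agent.Root.Semistable.LiftSeed
import Fermat.Agent.Root.Semistable.ThreeToSeed
import Fermat.Agent.Root.Semistable.TargetsTwo
import Fermat.Agent.Root.Semistable.FiveToThree
import Fermat.Agent.Root.Semistable.ThreeToFive
import Fermat.Agent.Root.Closing
import Fermat.Agent.Root.DepthPieces
import Fermat.Agent.Root.DepthSeps

/-!
# Semistable curves are modular
-/

set_option autoImplicit false

noncomputable section

open WeierstrassCurve

namespace FA.SS

/-- Modularity lifting at `3` and `5`. -/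
theorem liftOdd_closed : FA.Root.LiftOdd :=
  FA.Root.liftOdd_of
    (FA.Root.pairTowers_of (FA.Root.pairSeps_of FA.Root.depthPieces FA.Root.depthSeparations))
    (FA.Root.unionTowers_of (FA.Root.unionSeps_of FA.Root.depthPieces FA.Root.depthSeparations))

/-- **Every semistable curve is modular of the product of its bad primes.** -/
theorem semistableModular : SemistableModular := fun _ hΔ hW =>
  semistable_modular_of liftSeed liftOdd_closed (threeToSeed_of hasTargetTwo) fiveToThree
    threeToFive hΔ hW

end FA.SS

end
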