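import Fermat.Agent.Root.Semistable.Defs
import Fermat.Agent.EC.S51Aux

/-!
# Modularity of semistable curves from the inputs
-/

set_option autoImplicit false

noncomputable section

open WeierstrassCurve

namespace FA.SS

open FA.Theta (badProd)

variable (hseed : LiftSeed) (hodd : FA.Root.LiftOdd) (h3 : ThreeToSeed) (h53 : FiveToThree)

include hseed hodd h3 h53 in
/-- Semistable curves with irreducible `5`-torsion. -/
theorem modular_of_five {W : WeierstrassCurve ℤ} (hΔ : W.Δ ≠ 0) (hW : W.IsSemistableModel)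
    (hirr : W.ModRepIsIrreducible 5) : W.IsModularModelOfLevel (badProd W) := by
  obtain ⟨W₁, hΔ₁, hW₁, hirr₁, hv₁, hiso₅, h5⟩ := h53 W hΔ hW
  obtain ⟨W₂, hs₂, hiso₃, hd3⟩ := h3 W₁ hΔ₁ hW₁ hv₁
  exact hodd 5 W W₁ (Or.inr rfl) hΔ hΔ₁ hW hW₁ hirr hiso₅ h5
    (hodd 3 W₁ W₂ (Or.inl rfl) hΔ₁ hs₂.neg.ne hW₁ hs₂.ss hirr₁ hiso₃ hd3 (hseed W₂ hs₂))

include hseed hodd h3 h53 in
/-- **Semistable curves are modular of the product of their bad primes.** -/
theorem semistable_modular_of (h35 : ThreeToFive) {W : WeierstrassCurve ℤ} (hΔ : W.Δ ≠ 0)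
    (hW : W.IsSemistableModel) : W.IsModularModelOfLevel (badProd W) := by
  rcases FA.EC.modThreeOrFive W hΔ hW with hirr | hirr
  · obtain ⟨W', hΔ', hW', hirr', hiso, hd⟩ := h35 W hΔ hW
    exact hodd 3 W W' (Or.inl rfl) hΔ hΔ' hW hW' hirr hiso hd
      (modular_of_five hseed hodd h3 h53 hΔ' hW' hirr')
  · exact modular_of_five hseed hodd h3 h53 hΔ hW hirr

end FA.SS

end
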