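import Fermat.Agent.Root.Semistable.SeedResidual
import Fermat.Agent.Two.CurveApprox

/-!
# The Hecke side data at `2` of a seed

The base, the places at the auxiliary primes and the artinian point, as for the curves produced by
the `3`-switch, with `a₁` even in place of `a₂(W) = 0`.
-/

set_option autoImplicit false
set_option linter.unusedSectionVars false
set_option linter.style.haveILetI false
set_option synthInstance.maxHeartbeats 400000
set_option maxHeartbeats 1000000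

noncomputable section

open IsLocalRing Matrix WeierstrassCurve FA.EC FA.Frob FA.Deform FA.LocalDef FA.HeckeH1 FA.JTorsion FA.TW FA.Two
open scoped MatrixGroups Pointwise

namespace FA.SS.Seed

open FA.RT (curveRep)
open FA.RT.Tate
open FA.Theta (badProd)
open FA.ModField (IsTameGen)

local notation "Qb" => AlgebraicClosure ℚ
local notation "GQ" => AlgebraicClosure ℚ ≃ₐ[ℚ] AlgebraicClosure ℚ
local notation "M2" k:max => Matrix (Fin 2) (Fin 2) k

local instance : Fact (Nat.Prime 2) := ⟨Nat.prime_two⟩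

/-- **The setting of a curve exists.** -/
theorem exists_curveBase (W : WeierstrassCurve ℤ) [(ratCurve W).IsElliptic] (O : Type) [CommRing O] [IsDomain O]
    [IsDiscreteValuationRing O] [IsAdicComplete (maximalIdeal O) O] [CharZero O]
    [CharP (ResidueField O) 2] [Fintype (ResidueField O)] (hW : IsSeed W) (N : ℕ) (B : TateBasis 2 W) (avoid : Finset ℕ) :
    Nonempty (CurveBase W O N B avoid) := by
  obtain ⟨S0, hr0, hD⟩ := exists_seedSetting W (ResidueField O) hW.neg hW.ss hW.good hW.a1_even hW.irr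
    hW.odd hW.ne3
  obtain ⟨R, hn, hρ⟩ := exists_refine S0 hr0 hD hW.neg.ne hW.ss hW.good B N
  obtain ⟨Q0, r, h1, h2, h3, h4⟩ := S0.exists_auxiliary R avoid
  exact ⟨⟨S0, hr0, hD, R, hn, hρ, Q0, r, h1, h2, hD ▸ h3, h4⟩⟩

variable {W : WeierstrassCurve ℤ} [(ratCurve W).IsElliptic] {O : Type} [CommRing O] [IsDomain O]
  [IsDiscreteValuationRing O] [IsAdicComplete (maximalIdeal O) O] [CharZero O]
  [CharP (ResidueField O) 2] [Fintype (ResidueField O)]
  {N : ℕ} {B : TateBasis 2 W} {avoid : Finset ℕ} (C : CurveBase W O N B avoid)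

variable (hW : IsSeed W)

/-- **The base of the curve**: levels `D ∏ q`, the system `a_ℓ` modulo `2`. -/
def seedBd : BaseData O ↥C.Q0 where
  D := badProd W
  neZeroD := ⟨(Finset.prod_pos fun q hq => (Nat.prime_of_mem_primeFactors hq).pos).ne'⟩
  qn x := x.1
  qn_prime x := (C.aux x.1 x.2).1
  qn_inj := Subtype.val_injective
  qn_not_dvd x h := (C.aux x.1 x.2).2.2.1 (by rw [C.D_eq]; exact h)
  S := C.omit'
  dvd_mem ℓ h := C.mem_omit'.2 (Or.inl (h.mul_left 2))
  qn_mem x := C.mem_omit'.2 (Or.inr x.2)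
  c ℓ := (W.apOfModel ℓ : ResidueField O)
  hasSys := by
    haveI : NeZero (badProd W) :=
      ⟨(Finset.prod_pos fun q hq => (Nat.prime_of_mem_primeFactors hq).pos).ne'⟩
    obtain ⟨χ, hχ, -⟩ := exists_seedSystem hW.neg hW.ss hW.good hW.a1_even hW.irr hW.odd hW.ne3 O
      C.omit' fun l hl => C.mem_omit'.2 (Or.inl hl)
    exact ⟨χ, hχ⟩
  nonEis L hL := by
    obtain ⟨l, hl, hlS, hlL, hl1, hla⟩ := exists_seedPrime hW.neg hW.ss hW.good hW.a1_even hW.irr
      hW.odd hW.ne3 (Nat.pos_of_ne_zero hL) {2}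
    refine ⟨⟨l, hl⟩, hlL, hl1, ?_⟩
    have hodd' : Odd l := hl.odd_of_ne_two fun e => hlS (Finset.mem_singleton.2 e)
    have hla' := congrArg (ZMod.castHom (dvd_refl 2) (ResidueField O)) hla
    rw [map_intCast, map_one] at hla'
    show (W.apOfModel l : ResidueField O) ≠ (l : ResidueField O) + 1
    rw [hla', odd_cast_eq_one hodd', CharTwo.add_self_eq_zero]
    exact one_ne_zero

theorem Bd_D : (seedBd C hW).D = badProd W := rfl

theorem Bd_qn (x : ↥C.Q0) : (seedBd C hW).qn x = x.1 := rfl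

theorem Bd_c (ℓ : Nat.Primes) : (seedBd C hW).c ℓ = (W.apOfModel ℓ : ResidueField O) := rfl

theorem mem_Bd_S {ℓ : Nat.Primes} :
    ℓ ∈ (seedBd C hW).S ↔ (ℓ : ℕ) ∣ 2 * badProd W ∨ (ℓ : ℕ) ∈ C.Q0 := C.mem_omit'

theorem two_mem : (⟨2, Nat.prime_two⟩ : Nat.Primes) ∈ (seedBd C hW).S :=
  (mem_Bd_S C hW).2 (Or.inl (dvd_mul_right _ _))

/-- The level `D` is odd. -/
theorem two_not_dvd_D : ¬ 2 ∣ (seedBd C hW).D := fun h =>
  hW.good ((dvd_badProd_iff hW.neg.ne Nat.prime_two).1 h)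

theorem two_not_dvd_lev (K : Finset ↥C.Q0) : ¬ 2 ∣ (seedBd C hW).lev K := by
  intro h
  rcases (seedBd C hW).dvd_lev Nat.prime_two h with h | ⟨x, -, hx⟩
  · exact two_not_dvd_D C hW h
  · exact (C.aux x.1 x.2).2.1 hx.symm

/-- The residual representation has the traces of the system at Frobenius elements. -/
theorem residualFrob : (seedBd C hW).ResidualFrob C.rb := by
  intro ℓ hℓ A hA σ hσ
  rw [mem_Bd_S, not_or] at hℓ
  have hl2 : (ℓ : ℕ) ≠ 2 := fun e => hℓ.1 (by rw [e]; exact dvd_mul_right _ _)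
  refine ⟨?_, ?_⟩
  · show ((C.S0.r0 σ).map (ZMod.castHom (dvd_refl 2) (ResidueField O))).trace = _
    rw [← AddMonoidHom.map_trace (ZMod.castHom (dvd_refl 2) (ResidueField O)),
      C.trace_one_of_frob ℓ.2 hl2 hW.neg.ne (fun h => hℓ.1 (h.mul_left 2)) hA hσ, map_intCast]
    rfl
  · show ((ZMod.castHom (dvd_refl 2) (ResidueField O)).mapMatrix (C.S0.r0 σ)).det = _
    rw [← RingHom.map_det, odd_cast_eq_one (ℓ.2.odd_of_ne_two hl2)]
    rcases FA.Theta.zmod_two_cases (C.S0.r0 σ).det with h | h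
    · exact absurd h (C.S0.det_ne σ)
    · rw [h, map_one]

include hW in
/-- The level `D` is neat: it has a prime congruent to `3` modulo `4`. -/
theorem neat : IsNeatOn O (GamH (seedBd C hW).D ⊤) := by
  obtain ⟨T, -, -⟩ := exists_seedDatum hW.neg hW.ss hW.good hW.a1_even hW.odd hW.ne3
  have hD8 : badProd W % 8 = 3 := T.mod8
  obtain ⟨r₀, hr, hrD, hr4⟩ := exists_prime_three_mod_four (badProd W) (by omega)
  haveI : Fact r₀.Prime := ⟨hr⟩
  refine isNeatOn_of_trace (Or.inr fun γ hγ => trace_ne_zero_of_prime hr4 ?_) (Or.inl ?_)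
  · rw [GamH_top] at hγ
    exact (Int.natCast_dvd_natCast.2 hrD).trans
      ((ZMod.intCast_zmod_eq_zero_iff_dvd _ _).1 (CongruenceSubgroup.Gamma0_mem.1 hγ))
  · rw [← IsLocalRing.residue_ne_zero_iff_isUnit, map_ofNat,
      show (3 : ResidueField O) = ((3 : ℕ) : ResidueField O) by norm_num,
      odd_cast_eq_one (by decide)]
    exact one_ne_zero

/-- **Taylor-Wiles data of every depth**, keeping the bound on classes. -/
theorem exists_twData (hω : ∃ w : ResidueField O, w ^ 2 + w + 1 = 0) (n : ℕ) :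
    ∃ T : (seedBd C hW).TWData C.r n,
      (∀ i, (residue O (T.α i)) ^ 2 + residue O (T.α i) + 1 = 0) ∧
      (∀ i (A : ValuationSubring Qb), A.LiesOverPrime (T.qv i) → ∀ φ : GQ,
        A.IsFrobeniusAt φ (T.qv i) → (C.S0.r0 φ).trace = 1) ∧
      (∀ i, T.qv i ∉ avoid) ∧
      ∀ (V : Type) [AddCommGroup V] [Module (ResidueField O) V]
        (κ : V →ₗ[ResidueField O] (GQ → M2 (ResidueField O))),
        (∀ t, C.S0.IsClass C.Q0 (Set.range T.qv) (κ t)) →
        (∀ t X, (∀ g, κ t g = C.S0.act g X - X) → t = 0) →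
        FiniteDimensional (ResidueField O) V ∧
          Module.finrank (ResidueField O) V + C.Q0.card ≤ 2 * C.r := by
  obtain ⟨qv, hinj, hq, hbound⟩ := C.tangent (n + 1)
  obtain ⟨w, hw⟩ := hω
  obtain ⟨a, ha⟩ := residue_surjective w
  have hD : ∀ i, ¬ qv i ∣ badProd W := fun i => C.D_eq ▸ (hq i).2.2.1
  have hc : ∀ i, (W.apOfModel (qv i) : ResidueField O) = 1 := fun i => by
    obtain ⟨A, hA⟩ := FA.Deform.exists_liesOverPrime (hq i).1
    obtain ⟨φ, hφ⟩ := exists_isFrobeniusAt (hq i).1 hA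
    have h := congrArg (ZMod.castHom (dvd_refl 2) (ResidueField O))
      ((C.trace_one_of_frob (hq i).1 (hq i).2.1 hW.neg.ne (hD i) hA hφ).symm.trans
        ((hq i).2.2.2.2.2.2 A hA φ hφ))
    rwa [map_intCast, map_one] at h
  refine ⟨{
    qv := qv
    prime := fun i => (hq i).1
    inj := hinj
    not_dvd := hD
    ne_qn := fun i x e => (hq i).2.2.2.1 (e ▸ x.2)
    notMem_S := fun i h => by
      rcases (mem_Bd_S C hW).1 h with h | h
      · rcases (hq i).1.dvd_mul.1 h with h | h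
        · exact (hq i).2.1 ((Nat.prime_dvd_prime_iff_eq (hq i).1 Nat.prime_two).1 h)
        · exact hD i h
      · exact (hq i).2.2.2.1 h
    dvd := fun i => (hq i).2.2.2.2.2.1
    α := fun _ => a
    root := fun i => by
      show residue O a ^ 2 - (W.apOfModel (qv i) : ResidueField O) * residue O a + 1 = 0
      rw [ha, hc, one_mul, CharTwo.sub_eq_add]
      exact hw
    simple := fun i => by
      show (W.apOfModel (qv i) : ResidueField O) ≠ 0
      rw [hc]
      exact one_ne_zero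
    neat := neat C hW }, fun _ => by rw [ha]; exact hw, fun i => (hq i).2.2.2.2.2.2,
    fun i => (hq i).2.2.2.2.1, hbound⟩


include hW in
theorem isGood_of_mem {q : ℕ} (hq : q ∈ C.Q0) : W.IsGoodPrimeFor q := fun h =>
  (C.aux q hq).2.2.1 (by rw [C.D_eq]; exact (dvd_badProd_iff hW.neg.ne (C.aux q hq).1).2 h)

include hW in
/-- The auxiliary primes are congruent to `1` modulo `2^(N+1)`. -/
theorem aux_cast_eq_one {q : ℕ} (hq : q ∈ C.Q0) : (q : ZMod (2 ^ (N + 1))) = 1 := by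
  obtain ⟨A, φ, hA, hφ, hr⟩ := C.exists_place hq
  have hsq := C.rep_frob_sq hq hA hφ
  have hdet := (B.rep_frobenius (C.aux q hq).1 hA (C.aux q hq).2.1 (isGood_of_mem C hW hq) hφ).2
  rw [map_pow, map_sub, map_one] at hsq
  set X := (PadicInt.toZModPow (N + 1)).mapMatrix (B.rep φ) with hX
  haveI : NeZero (2 ^ (N + 1)) := ⟨pow_ne_zero _ two_ne_zero⟩
  have hu : IsUnit (X 0 1) := by
    have h1 : ZMod.castHom (dvd_pow_self 2 N.succ_ne_zero) (ZMod 2) (X 0 1) = 1 := by
      have h0 : C.S0.r0 φ 0 1 = 1 := by rw [hr]; rfl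
      have h2 := congrFun (congrFun (C.R.red φ) 0) 1
      rw [h0] at h2
      have h3 : ((C.R.ρ φ 0 1).val : ZMod 2) = 1 := by
        rw [← h2]
        show _ = ZMod.castHom (dvd_pow_self 2 C.R.n.succ_ne_zero) (ZMod 2) (C.R.ρ φ 0 1)
        haveI : NeZero (2 ^ (C.R.n + 1)) := ⟨pow_ne_zero _ two_ne_zero⟩
        conv_rhs => rw [← ZMod.natCast_zmod_val (C.R.ρ φ 0 1)]
        rw [map_natCast]
      rw [C.R_ρ] at h3
      rw [← ZMod.natCast_zmod_val (X 0 1), map_natCast]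
      exact h3
    obtain ⟨a, ha⟩ := ZMod.natCast_zmod_surjective (X 0 1)
    rw [← ha, map_natCast] at h1
    rw [← ha, ZMod.isUnit_iff_coprime]
    refine Nat.Coprime.pow_right _ ((Nat.Prime.coprime_iff_not_dvd Nat.prime_two).2 fun hd => ?_).symm
    rw [(ZMod.natCast_eq_zero_iff _ _).2 hd] at h1
    exact zero_ne_one h1
  have h := det_eq_one_of_sq hu hsq
  rw [hX, ← RingHom.map_det, hdet, map_natCast] at h
  exact h

include hW in
theorem aux_mod_four (hN : 1 ≤ N) {q : ℕ} (hq : q ∈ C.Q0) : q % 4 = 1 := by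
  have h := congrArg (ZMod.castHom (pow_dvd_pow 2 (show 2 ≤ N + 1 by omega)) (ZMod (2 ^ 2)))
    (aux_cast_eq_one C hW hq)
  rw [map_natCast, map_one, ← Nat.cast_one, ZMod.natCast_eq_natCast_iff'] at h
  simpa using h

/-- **Places at the auxiliary primes.** -/
theorem exists_auxPlaces (hN : 1 ≤ N) : Nonempty ((seedBd C hW).AuxPlaces C.rb) := by
  choose A φ hA hφ hr using fun x : ↥C.Q0 => C.exists_place x.2
  choose s hs hgen using fun x : ↥C.Q0 =>
    FA.RT.exists_tame_gen Nat.prime_two (C.aux x.1 x.2).1 (C.aux x.1 x.2).2.1.symm (hA x)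
  obtain ⟨γ, hγ⟩ := C.S0.surj !![1, 0; 1, 1] (by decide)
  have hrb : ∀ (σ : GQ) (i j : Fin 2), C.rb σ i j =
      ZMod.castHom (dvd_refl 2) (ResidueField O) (C.S0.r0 σ i j) := fun σ i j => rfl
  exact ⟨{
    A := A
    lies := hA
    φ := φ
    frob := hφ
    φ01 := fun x => by rw [hrb, hr x]; simp
    φtr := fun x => by
      rw [Matrix.trace_fin_two, hrb, hrb, hr x]
      simp [CharTwo.add_self_eq_zero]
    s := s
    tame := fun x => ⟨hs x, hgen x⟩
    unr := fun x σ hσ => (repTwo_eq_one_iff C.S0.r0 σ).2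
      (C.S0.unr x.1 (C.aux x.1 x.2).1 (C.aux x.1 x.2).2.1 (C.aux x.1 x.2).2.2.1 (A x) (hA x) σ hσ)
    γ := γ
    γ10 := by rw [hrb, hγ]; simp
    γ01 := by rw [hrb, hγ]; simp
    γd := by rw [hrb, hrb, hγ]; simp
    one_mod := fun x => aux_mod_four C hW hN x.2 }⟩

variable (ιp : ℤ_[2] →+* O)

include hW in
theorem isCurvePoint (h2 : (2 : O) ∈ maximalIdeal O) :
    IsCurvePoint W (C.ptHom ιp) (C.ptRep ιp) := by
  haveI : IsLocalHom (Ideal.Quotient.mk (maximalIdeal O ^ (N + 1))) :=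
    IsLocalHom.of_surjective _ Ideal.Quotient.mk_surjective
  haveI : Finite (ResidueField (PtRing O N)) :=
    Finite.of_surjective (IsLocalRing.ResidueField.map (Ideal.Quotient.mk (maximalIdeal O ^ (N + 1))))
      (fun y => by
        obtain ⟨y, rfl⟩ := residue_surjective y
        obtain ⟨a, rfl⟩ := Ideal.Quotient.mk_surjective y
        exact ⟨residue O a, rfl⟩)
  refine exists_curvePoint hW.neg.ne hW.ss hW.good B _ ?_
  rw [← map_ofNat (Ideal.Quotient.mk (maximalIdeal O ^ (N + 1))),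
    IsLocalRing.mem_maximalIdeal]
  exact fun hu => (IsLocalRing.mem_maximalIdeal _).1 h2 (isUnit_of_map_unit _ _ hu)

include hW in
theorem ptRep_lift (h2 : (2 : O) ∈ maximalIdeal O) : mapRep C.ptEps (C.ptRep ιp) = C.rb := by
  refine MonoidHom.ext fun σ => ?_
  have h := (exists_curvePoint hW.neg.ne hW.ss hW.good B ιp h2).residual σ
    (ZMod.castHom (dvd_refl 2) (ResidueField O))
  rw [CurveBase.rb_eq]
  exact h

include hW in
theorem ptRep_aux (h2 : (2 : O) ∈ maximalIdeal O) {q : ℕ} (hq : q ∈ C.Q0)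
    {A : ValuationSubring Qb} (hA : A.LiesOverPrime q) {φ : GQ} (hφ : A.IsFrobeniusAt φ q) :
    ((q : (PtRing O N)) = 1) ∧ (C.ptRep ιp φ - 1) ^ 2 = 0 ∧
      ∀ σ ∈ A.inertiaSubgroupIn ℚ, C.ptRep ιp σ = 1 := by
  refine ⟨?_, ?_, fun σ hσ => (isCurvePoint C hW ιp h2).unr q (C.aux q hq).1 (C.aux q hq).2.1
    (isGood_of_mem C hW hq) A hA σ hσ⟩
  · refine sub_eq_zero.1 ?_
    rw [← map_natCast (C.ptHom ιp), ← map_one (C.ptHom ιp), ← map_sub]
    refine C.ptHom_eq_zero ιp h2 ?_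
    rw [map_sub, map_natCast, map_one, aux_cast_eq_one C hW hq, sub_self]
  · show ((C.ptHom ιp).mapMatrix (B.rep φ) - 1) ^ 2 = 0
    rw [← map_one (C.ptHom ιp).mapMatrix, ← map_sub, ← map_pow]
    refine Matrix.ext fun i j => ?_
    exact C.ptHom_eq_zero ιp h2 (congrFun (congrFun (C.rep_frob_sq hq hA hφ) i) j)

/-- The family of the one artinian point, with distinguished values one. -/
def ptFamily (h2 : (2 : O) ∈ maximalIdeal O) : Family (O := O) C.rb ↥C.Q0 where
  J := Unit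
  B _ := (PtRing O N)
  r _ := C.ptRep ιp
  ε _ := C.ptEps
  ε_algebraMap _ _ := rfl
  lift _ := ptRep_lift C hW ιp h2
  cont _ := (isCurvePoint C hW ιp h2).cont
  al _ _ := 1
  ε_al _ _ := map_one _

/-- **The artinian point satisfies the local conditions.** -/
theorem ptFamily_conds (h2 : (2 : O) ∈ maximalIdeal O) (U : Set ℕ) :
    C.S0.PointConds C.Q0 U (ptFamily C hW ιp h2) where
  unr _ l hl hl2 hlD _ _ A hA σ hσ := (isCurvePoint C hW ιp h2).unr l hl hl2
    (fun h => hlD (by rw [C.D_eq]; exact (dvd_badProd_iff hW.neg.ne hl).2 h)) A hA σ hσ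
  ram _ l hl hlD A hA σ hσ := by
    rw [C.D_eq] at hlD
    exact (isCurvePoint C hW ιp h2).ram l hl
      (fun e => two_not_dvd_D C hW (e ▸ hlD)) ((dvd_badProd_iff hW.neg.ne hl).1 hlD) A hA σ hσ
  det_two _ _ σ _ := ⟨ιp ((cycP 2 σ : ℤ_[2]ˣ) : ℤ_[2]), fun _ =>
    (isCurvePoint C hW ιp h2).det σ⟩
  flat _ A hA := (isCurvePoint C hW ιp h2).flat A hA
  aux _ q A hA φ hφ := by
    obtain ⟨h1, h3, h4⟩ := ptRep_aux C hW ιp h2 q.2 hA hφ
    show (C.ptRep ιp φ - ((q.1 : PtRing O N) * 1) • (1 : M2 (PtRing O N))) *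
        (C.ptRep ιp φ - (1 : PtRing O N) • (1 : M2 (PtRing O N))) = 0 ∧
      ∀ σ ∈ A.inertiaSubgroupIn ℚ,
        (C.ptRep ιp φ - ((q.1 : PtRing O N) * 1) • (1 : M2 (PtRing O N))) *
            (C.ptRep ιp σ - 1) = 0 ∧
          (C.ptRep ιp σ - 1) *
            (C.ptRep ιp φ - (1 : PtRing O N) • (1 : M2 (PtRing O N))) = 0
    refine ⟨?_, fun σ hσ => ?_⟩
    · rw [h1, one_mul, one_smul, ← pow_two]
      exact h3
    · rw [h4 σ hσ, sub_self, mul_zero, zero_mul]
      exact ⟨rfl, rfl⟩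

include hW in
/-- The traces at Frobenius elements away from the omitted primes are the `a_ℓ`. -/
theorem ptRep_trace (h2 : (2 : O) ∈ maximalIdeal O) {ℓ : Nat.Primes} (hℓ : ℓ ∉ (seedBd C hW).S)
    {A : ValuationSubring Qb} (hA : A.LiesOverPrime (ℓ : ℕ)) {σ : GQ}
    (hσ : A.IsFrobeniusAt σ (ℓ : ℕ)) :
    (C.ptRep ιp σ).trace = Ideal.Quotient.mk (maximalIdeal O ^ (N + 1))
        ((W.apOfModel ℓ : ℤ) : O) ∧ (C.ptRep ιp σ).det = ((ℓ : ℕ) : (PtRing O N)) := by
  rw [mem_Bd_S, not_or] at hℓ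
  obtain ⟨h1, h3⟩ := (isCurvePoint C hW ιp h2).trace_good ℓ ℓ.2
    (fun e => hℓ.1 (by rw [e]; exact dvd_mul_right _ _))
    (fun h => hℓ.1 (((dvd_badProd_iff hW.neg.ne ℓ.2).2 h).mul_left 2)) A hA σ hσ
  exact ⟨h1.trans (map_intCast (Ideal.Quotient.mk (maximalIdeal O ^ (N + 1))) _).symm, h3⟩


end FA.SS.Seed

end
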