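import Fermat.Agent.Root.Semistable.Defs
import Fermat.Agent.Two.ResidualLevel

/-!
# The residual data at `2` of a seed

The cubic datum, the residual setting and the residual system at level `D` of a curve with good
reduction at `2` and `a₁` even; supersingular reduction at `2` is only used through `a₁` even and
`a₃` odd.
-/

set_option autoImplicit false
set_option linter.unusedSectionVars false

noncomputable section

namespace FA.SS

open Module NumberField Ideal WeierstrassCurve FA.Theta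
open scoped nonZeroDivisors WeierstrassCurve.Affine

local notation "Qb" => AlgebraicClosure ℚ

/-- Good reduction at `2` with `a₁` even forces `a₃` odd. -/
theorem seed_a₃_odd {W : WeierstrassCurve ℤ} (h2 : W.IsGoodPrimeFor 2) (hev2 : (2 : ℤ) ∣ W.a₁) :
    ¬ (2 : ℤ) ∣ W.a₃ := by
  have key : ∀ a₂ a₄ a₆ : ZMod 2,
      (⟨0, a₂, 0, a₄, a₆⟩ : WeierstrassCurve (ZMod 2)).Δ = 0 := by
    intro a₂ a₄ a₆
    simp only [WeierstrassCurve.Δ, WeierstrassCurve.b₂, WeierstrassCurve.b₄, WeierstrassCurve.b₆,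
      WeierstrassCurve.b₈]
    revert a₂ a₄ a₆
    decide
  intro h3
  refine h2 ((ZMod.intCast_zmod_eq_zero_iff_dvd _ 2).mp ?_)
  have e : W.map (Int.castRingHom (ZMod 2)) =
      ⟨0, (W.a₂ : ZMod 2), 0, (W.a₄ : ZMod 2), (W.a₆ : ZMod 2)⟩ := by
    ext <;> simp [(ZMod.intCast_zmod_eq_zero_iff_dvd _ 2).mpr hev2,
      (ZMod.intCast_zmod_eq_zero_iff_dvd _ 2).mpr h3]
  have h := W.map_Δ (Int.castRingHom (ZMod 2))
  rw [e, key, eq_intCast] at h
  exact h.symm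

/-- The cubic datum of a curve. -/
lemma exists_seedDatum {W : WeierstrassCurve ℤ} (hneg : W.Δ < 0) (hss : W.IsSemistableModel)
    (h2 : W.IsGoodPrimeFor 2) (hev2 : (2 : ℤ) ∣ W.a₁)
    (hodd : ∀ q : ℕ, q.Prime → (q : ℤ) ∣ W.Δ → Odd (padicValInt q W.Δ))
    (hne3 : ∃ q : ℕ, q.Prime ∧ (q : ℤ) ∣ W.Δ ∧ q ≠ 3) :
    ∃ T : CubicDatum (badProd W), W.Δ = -(badProd W : ℤ) * T.s ^ 2 ∧
      ∀ l : ℕ, l.Prime → l ≠ 2 → W.IsGoodPrimeFor l → (2 : ℤ) ∣ W.apOfModel l →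
        ∃ r : ℤ, (l : ℤ) ∣ T.ev r := by
  classical
  obtain ⟨⟨c, hc⟩, h3⟩ := (⟨hev2, seed_a₃_odd h2 hev2⟩ : _ ∧ _)
  obtain ⟨d, hd⟩ := Int.not_even_iff_odd.mp fun h => h3 (even_iff_two_dvd.mp h)
  set n := W.Δ.natAbs with hn
  have hn0 : n ≠ 0 := Int.natAbs_ne_zero.mpr hneg.ne
  set D := badProd W with hD
  set s : ℕ := ∏ q ∈ n.primeFactors, q ^ (n.factorization q / 2) with hs
  have hDs : D * s ^ 2 = n := by
    have h1 : D * s ^ 2 = ∏ q ∈ n.primeFactors, q * (q ^ (n.factorization q / 2)) ^ 2 := by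
      rw [Finset.prod_mul_distrib, Finset.prod_pow]
      rfl
    rw [h1]
    conv_rhs => rw [← Nat.factorization_prod_pow_eq_self hn0, Finsupp.prod, Nat.support_factorization]
    refine Finset.prod_congr rfl fun q hq => ?_
    have hqp := Nat.prime_of_mem_primeFactors hq
    have hv : Odd (n.factorization q) := by
      have h := hodd q hqp (Int.natCast_dvd.mpr (Nat.dvd_of_mem_primeFactors hq))
      rwa [padicValInt, ← Nat.factorization_def _ hqp] at h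
    obtain ⟨j, hj⟩ := hv
    rw [← pow_mul, ← pow_succ', hj]
    congr 1
    omega
  have hΔ : W.Δ = -(D : ℤ) * (s : ℤ) ^ 2 := by
    have e : (n : ℤ) = -W.Δ := by rw [hn, Int.ofNat_natAbs_of_nonpos hneg.le]
    rw [← hDs] at e
    push_cast at e
    linarith
  set B : ℤ := c ^ 2 + W.a₂
  set C : ℤ := W.a₄ + c * W.a₃
  set E : ℤ := W.b₆
  have hb2 : W.b₂ = 4 * B := by simp only [B, WeierstrassCurve.b₂, hc]; ring
  have hb4 : W.b₄ = 2 * C := by simp only [C, WeierstrassCurve.b₄, hc]; ring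
  have hEdef : E = 4 * (d ^ 2 + d + W.a₆) + 1 := by
    simp only [E, WeierstrassCurve.b₆, hd]; ring
  have hdelta : W.Δ = -16 * B ^ 3 * E + 16 * B ^ 2 * C ^ 2 - 64 * C ^ 3 - 27 * E ^ 2
      + 72 * B * C * E := by
    have h8 : 4 * W.b₈ = W.b₂ * W.b₆ - W.b₄ ^ 2 := W.b_relation
    rw [hb2, hb4] at h8
    have h8' : W.b₈ = B * E - C ^ 2 := by linarith
    rw [WeierstrassCurve.Δ, hb2, hb4, h8']
    ring
  have hsodd : Odd s := by
    refine Nat.not_even_iff_odd.mp fun he => h2 ?_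
    obtain ⟨t, ht⟩ := he
    exact ⟨-(2 * (D : ℤ) * (t : ℤ) ^ 2), by rw [hΔ, ht]; push_cast; ring⟩
  have hD8 : D % 8 = 3 := by
    have hΔ8 : (8 : ℤ) ∣ W.Δ - 5 := by
      refine ⟨-2 * B ^ 3 * E + 2 * B ^ 2 * C ^ 2 - 8 * C ^ 3 + 9 * B * C * E
        - 54 * (d ^ 2 + d + W.a₆) ^ 2 - 27 * (d ^ 2 + d + W.a₆) - 4, ?_⟩
      rw [hdelta, hEdef]; ring
    obtain ⟨j, hj⟩ := hsodd
    obtain ⟨i, hi⟩ := Int.even_mul_succ_self (j : ℤ)
    obtain ⟨z, hz⟩ := hΔ8
    rw [hΔ, hj] at hz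
    have e : ((2 * j + 1 : ℕ) : ℤ) ^ 2 = 8 * i + 1 := by push_cast; linear_combination 4 * hi
    rw [e] at hz
    have : ((D : ℤ)) % 8 = 3 := by
      have : (D : ℤ) = 8 * (-z - (D : ℤ) * i) - 5 := by linarith
      omega
    omega
  have hgt : 3 < D := by
    obtain ⟨q, hq, hqd, hq3⟩ := hne3
    have hqD : q ∣ D := Finset.dvd_prod_of_mem _
      (Nat.mem_primeFactors.mpr ⟨hq, Int.natCast_dvd.mp hqd, hn0⟩)
    rcases (show D = 3 ∨ 3 < D by omega) with h | h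
    · rw [h] at hqD
      exact absurd ((Nat.prime_dvd_prime_iff_eq hq Nat.prime_three).mp hqD) hq3
    · exact h
  have hcop : IsCoprime (B ^ 2 - 3 * C) ((D : ℤ) * (s : ℤ) ^ 2) := by
    refine isCoprime_of_prime_dvd (by
      rintro ⟨-, h⟩
      rw [hΔ] at hneg
      linarith) fun z hz hzc hzd => ?_
    have hq : z.natAbs.Prime := Int.prime_iff_natAbs_prime.mp hz
    refine hss z.natAbs hq ?_ ?_
    · rw [hΔ, neg_mul, dvd_neg]; exact Int.natAbs_dvd.mpr hzd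
    · rw [Int.natAbs_dvd, show W.c₄ = (B ^ 2 - 3 * C) * 16 by
        rw [WeierstrassCurve.c₄, hb2, hb4]; ring]
      exact hzc.mul_right _
  refine ⟨⟨B, C, E, s, by rw [hEdef]; omega, ?_, hcop,
    squarefree_prod_primes _ fun p hp => Nat.prime_of_mem_primeFactors hp, hD8, hgt⟩, hΔ, ?_⟩
  · linear_combination 4 * (hΔ.symm.trans hdelta).symm
  intro l hl hl2 hgood heven
  have : Fact l.Prime := ⟨hl⟩
  set V := W.reductionMod l with hV
  have hcard : 2 ∣ Nat.card V.toAffine.Point := by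
    have h : (W.apOfModel l) = (l : ℤ) + 1 - (Nat.card V.toAffine.Point : ℤ) := by
      rw [apOfModel, traceOfFrobenius, Nat.card_zmod]; rfl
    have hlo := hl.eq_two_or_odd.resolve_left hl2
    omega
  obtain ⟨P, hP⟩ := exists_prime_addOrderOf_dvd_card' 2 hcard
  rcases P with _ | ⟨x, y, hxy⟩
  · rw [← Affine.Point.zero_def, addOrderOf_zero] at hP; omega
  have h2P : (Affine.Point.some x y hxy : V.toAffine.Point) + Affine.Point.some x y hxy = 0 := by
    rw [← two_nsmul, ← hP, addOrderOf_nsmul_eq_zero]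
  rw [← eq_neg_iff_add_eq_zero, Affine.Point.neg_some] at h2P
  obtain ⟨-, hy⟩ := Affine.Point.some.inj h2P
  rw [Affine.negY] at hy
  have heq := (Affine.nonsingular_iff _ _).mp hxy |>.1
  rw [Affine.equation_iff] at heq
  refine ⟨((2 * x).val : ℤ), ?_⟩
  rw [← ZMod.intCast_zmod_eq_zero_iff_dvd, ← eq_intCast (Int.castRingHom (ZMod l)),
    CubicDatum.map_ev, eq_intCast, Int.cast_natCast, ZMod.natCast_zmod_val]
  have ha1 : V.a₁ = 2 * (c : ZMod l) := by simp [hV, reductionMod, hc]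
  have ha : V.a₂ = (W.a₂ : ZMod l) ∧ V.a₃ = (W.a₃ : ZMod l) ∧ V.a₄ = (W.a₄ : ZMod l) ∧
      V.a₆ = (W.a₆ : ZMod l) := by simp [hV, reductionMod]
  simp only [CubicDatum.ev, B, C, E, WeierstrassCurve.b₆]
  push_cast
  simp only [ha1, ha.1, ha.2.1, ha.2.2.1, ha.2.2.2] at heq hy
  linear_combination (-8 : ZMod l) * heq + 2 * (2 * y + 2 * (c : ZMod l) * x + (W.a₃ : ZMod l)) * hy

/-- The predicted values are the traces of `E[2]`. -/
theorem exists_seedCongruent {W : WeierstrassCurve ℤ} (hneg : W.Δ < 0)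
    (hss : W.IsSemistableModel) (h2 : W.IsGoodPrimeFor 2) (hev2 : (2 : ℤ) ∣ W.a₁)
    (hodd : ∀ q : ℕ, q.Prime → (q : ℤ) ∣ W.Δ → Odd (padicValInt q W.Δ))
    (hne3 : ∃ q : ℕ, q.Prime ∧ (q : ℤ) ∣ W.Δ ∧ q ≠ 3)
    (hatt : ∀ (g : CuspForm (CongruenceSubgroup.Gamma0 (4 * badProd W)) 2),
      g.IsNormalizedEigenform → ∀ (k : Type) [Field k] [CharP k 2]
        (φ : integralClosure ℤ ℂ →+* k), ∃ ρ : ResidualGaloisRep k, ρ.IsAttachedTo g φ) :
    ∃ (T : CubicDatum (badProd W)) (c : Ray T.QF →* Multiplicative (ZMod 3)),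
      Function.Surjective c ∧ ∀ l : ℕ, l.Prime → ¬ l ∣ 4 * badProd W →
        (W.apOfModel l : ZMod 2) = (T.iq.predicted c l : ZMod 2) := by
  classical
  obtain ⟨T, hΔ, hroot⟩ := exists_seedDatum hneg hss h2 hev2 hodd hne3
  let D := badProd W
  obtain ⟨c, hc, hno⟩ := T.exists_character
  obtain ⟨f, m, hf, hm, h2m, hcong⟩ := T.iq.exists_eigenform c hc
  have h2m' : ((2 : ℕ) : integralClosure ℤ ℂ) ∈ m := by exact_mod_cast h2m
  let k := integralClosure ℤ ℂ ⧸ m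
  let : Field k := Ideal.Quotient.field m
  let φ : integralClosure ℤ ℂ →+* k := Ideal.Quotient.mk m
  have : CharP k 2 := CharTwo.of_one_ne_zero_of_two_eq_zero one_ne_zero (by
    rw [← map_ofNat φ 2]
    exact Ideal.Quotient.eq_zero_iff_mem.mpr h2m)
  obtain ⟨ρ, hρ⟩ := hatt f hf k φ
  let r := FA.Deform.resMatrix ρ
  have hr : IsOpen (r.ker : Set FA.Deform.GQ) := by
    obtain ⟨L, hL, h⟩ := FA.Deform.resMatrix_eq_one ρ
    exact Subgroup.isOpen_mono (H₁ := L.fixingSubgroup)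
      (fun σ hσ => h σ ((IntermediateField.mem_fixingSubgroup_iff L σ).mp hσ))
      (IntermediateField.fixingSubgroup_isOpen L)
  have : (FA.Frob.ratCurve W).IsElliptic := FA.Frob.ratCurve_isElliptic_of_Δ hneg.ne
  have : Fact (Nat.Prime 2) := ⟨Nat.prime_two⟩
  let ρE : ResidualGaloisRep (ZMod 2) := (FA.Frob.ratCurve W).residualGaloisRepOf 2
    (FA.EC.natCard_torsion _ two_ne_zero) (FA.EC.galoisFactorsThroughFiniteLevel _ two_ne_zero)
  let e := FA.Deform.resMatrix ρE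
  have he : IsOpen (e.ker : Set FA.Deform.GQ) := by
    obtain ⟨L, hL, h⟩ := FA.Deform.resMatrix_eq_one ρE
    exact Subgroup.isOpen_mono (H₁ := L.fixingSubgroup)
      (fun σ hσ => h σ ((IntermediateField.mem_fixingSubgroup_iff L σ).mp hσ))
      (IntermediateField.fixingSubgroup_isOpen L)
  -- the traces at good primes
  have hgoodD : ∀ l : ℕ, l.Prime → ¬ l ∣ 4 * D → W.IsGoodPrimeFor l ∧
      ¬ (l : ℤ) ∣ (D : ℤ) * (2 * T.s) ^ 2 ∧ l ≠ 2 := by
    intro l hl hlN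
    have hg : W.IsGoodPrimeFor l := fun h => hlN (dvd_mul_of_dvd_right
      (Finset.dvd_prod_of_mem _ (Nat.mem_primeFactors.mpr
        ⟨hl, Int.natCast_dvd.mp h, Int.natAbs_ne_zero.mpr hneg.ne⟩)) 4)
    have hl2 : l ≠ 2 := fun e => hlN (e ▸ dvd_mul_of_dvd_left (by norm_num) D)
    refine ⟨hg, fun h => ?_, hl2⟩
    have hp := Nat.prime_iff_prime_int.mp hl
    rw [mul_pow, mul_left_comm] at h
    rcases hp.dvd_or_dvd h with h | h
    · exact hl2 ((Nat.prime_dvd_prime_iff_eq hl Nat.prime_two).mp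
        (Int.natCast_dvd_natCast.mp (hp.dvd_of_dvd_pow h)))
    · refine hg ?_
      show (l : ℤ) ∣ W.Δ
      rw [hΔ, neg_mul, dvd_neg]
      exact h
  have hat : ∀ l : ℕ, l.Prime → ¬ l ∣ 4 * D → ∀ A : ValuationSubring Qb, A.LiesOverPrime l →
      ∀ σ : FA.Deform.GQ, A.IsFrobeniusAt σ l →
        (r σ).trace = (if T.iq.HasDegOne c l then 1 else 0) ∧ (r σ).det = 1 ∧
        (e σ).trace = (W.apOfModel l : ZMod 2) ∧ (e σ).det = 1 ∧
        ∀ a : integralClosure ℤ ℂ, (a : ℂ) = ModularFormClass.qCoeff f l → φ a = (r σ).trace := by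
    intro l hl hlN A hA σ hσ
    obtain ⟨hg, -, hl2⟩ := hgoodD l hl hlN
    have hl1 : ∀ (R : Type) [CommRing R] [CharP R 2], (l : R) = 1 := by
      intro R _ _
      obtain ⟨j, hj⟩ := hl.odd_of_ne_two hl2
      rw [hj]
      push_cast
      rw [CharTwo.two_eq_zero, zero_mul, zero_add]
    obtain ⟨a, ha, hchar⟩ := hρ l hl hlN (by rw [hl1]; exact one_ne_zero) A hA σ hσ
    have hr' : (r σ).charpoly = _ := (LinearMap.charpoly_toMatrix (ρ.ρ σ)
      (FA.Deform.resBasis ρ)).trans hchar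
    obtain ⟨htr, hdet⟩ := trace_det_of_charpoly hr'
    obtain ⟨x, hx, hxm⟩ := hcong l hl hlN
    have hax : a = x := Subtype.ext (ha.trans hx.symm)
    have hE := FA.Frob.charpoly_galoisRep W hl hg (p := 2) hl2.symm hA hσ
    have he' : (e σ).charpoly = _ := (LinearMap.charpoly_toMatrix (ρE.ρ σ)
      (FA.Deform.resBasis ρE)).trans hE
    obtain ⟨htE, hdE⟩ := trace_det_of_charpoly he'
    refine ⟨?_, by rw [hdet, hl1], htE, by rw [hdE, hl1], fun a' ha' => ?_⟩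
    · rw [htr, hax]
      have : φ x = φ (if T.iq.HasDegOne c l then 1 else 0) := Ideal.Quotient.eq.mpr hxm
      rw [this]
      split_ifs <;> simp
    · rw [htr, show a' = a from Subtype.ext (ha'.trans ha.symm)]
  have hz2 : ∀ x : ZMod 2, x = 0 ∨ x = 1 := zmod_two_cases
  have hfrob : ∀ q : ℕ, q.Prime → q ∉ (4 * D).primeFactors → ∀ A : ValuationSubring Qb,
      A.LiesOverPrime q → ∀ σ : FA.Deform.GQ, A.IsFrobeniusAt σ q →
        (r σ).det = 1 ∧ (e σ).det = 1 ∧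
          ((r σ).trace = 0 ∨ ((r σ).trace = 1 ∧ (e σ).trace = 1)) := by
    intro q hq hqS A hA σ hσ
    have hqN : ¬ q ∣ 4 * D := fun h =>
      hqS (Nat.mem_primeFactors.mpr ⟨hq, h, mul_ne_zero four_ne_zero T.pos.ne'⟩)
    obtain ⟨htr, hdet, htE, hdE, -⟩ := hat q hq hqN A hA σ hσ
    refine ⟨hdet, hdE, ?_⟩
    obtain ⟨hg, hqD, hq2⟩ := hgoodD q hq hqN
    split_ifs at htr with h
    · refine Or.inr ⟨htr, ?_⟩
      rw [htE]
      by_contra hne
      have h0 : (W.apOfModel q : ZMod 2) = 0 :=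
        (hz2 _).resolve_right hne
      obtain ⟨z, hz⟩ := hroot q hq hq2 hg ((ZMod.intCast_zmod_eq_zero_iff_dvd _ 2).mp h0)
      exact hno q hq hqD h z hz
    · exact Or.inl htr
  obtain ⟨l₀, hl₀, hl₀N, hdeg⟩ := T.iq.exists_hasDegOne c hc
  obtain ⟨A₀, hA₀⟩ := FA.Deform.exists_liesOverPrime hl₀
  obtain ⟨g₀, hg₀⟩ := FA.Deform.exists_isFrobeniusAt hl₀ hA₀
  have hg₀t : (r g₀).trace ≠ 0 := by
    rw [(hat l₀ hl₀ hl₀N A₀ hA₀ g₀ hg₀).1, if_pos hdeg]
    exact one_ne_zero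
  have htraces := trace_eq_of_dihedral r e hr he _ hfrob hg₀t
  refine ⟨T, c, hc, fun l hl hlN => ?_⟩
  obtain ⟨A, hA⟩ := FA.Deform.exists_liesOverPrime hl
  obtain ⟨σ, hσ⟩ := FA.Deform.exists_isFrobeniusAt hl hA
  obtain ⟨htr, -, htE, -, -⟩ := hat l hl hlN A hA σ hσ
  have h := htraces σ
  rw [htr, htE] at h
  refine (ZMod.castHom (dvd_refl 2) k).injective ?_
  simp only [IQ.predicted]
  split_ifs at h ⊢ <;> simpa using h.symm

end FA.SS

namespace FA.SS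

open Matrix IsLocalRing WeierstrassCurve FA.EC FA.Frob FA.Deform FA.LocalDef FA.HeckeH1 FA.Two FA.Two.Level4
open FA.RT (curveRep isOpen_ker_curveRep curveRep_unramified curveRep_unipotent isFlatRes_curveRep)
open FA.Theta (badProd)
open scoped WeierstrassCurve.Affine

local notation "Qb" => AlgebraicClosure ℚ
local notation "GQ" => AlgebraicClosure ℚ ≃ₐ[ℚ] AlgebraicClosure ℚ
local notation "M2" k:max => Matrix (Fin 2) (Fin 2) k

variable {W : WeierstrassCurve ℤ} [(ratCurve W).IsElliptic]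

/-- Supersingular reduction at `2`: inertia has an element of order three. -/
lemma exists_seedInertia (hev2 : (2 : ℤ) ∣ W.a₁) (h2 : W.IsGoodPrimeFor 2)
    {A : ValuationSubring Qb} (hA : A.LiesOverPrime 2) :
    ∃ g ∈ A.inertiaSubgroupIn ℚ, (curveRep 2 W g).trace = 1 := by
  by_contra hcon
  push Not at hcon
  have hcase : ∀ g ∈ A.inertiaSubgroupIn ℚ,
      curveRep 2 W g = 1 ∨ IsTransp (curveRep 2 W g) := fun g hg =>
    not_trace_one _ (det_curveRep_two_ne W g) (hcon g hg)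
  obtain ⟨v, hv0, hv⟩ : ∃ v : Fin 2 → ZMod 2, v ≠ 0 ∧
      ∀ g ∈ A.inertiaSubgroupIn ℚ, curveRep 2 W g *ᵥ v = v := by
    by_cases hall : ∀ g ∈ A.inertiaSubgroupIn ℚ, curveRep 2 W g = 1
    · exact ⟨![1, 0], by decide, fun g hg => by rw [hall g hg, one_mulVec]⟩
    · push Not at hall
      obtain ⟨t, ht, ht1⟩ := hall
      have hT := (hcase t ht).resolve_left ht1
      obtain ⟨v, hv0, hv⟩ := fixed_vec hT
      refine ⟨v, hv0, fun g hg => ?_⟩
      rcases hcase g hg with h | h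
      · rw [h, one_mulVec]
      · by_cases he : curveRep 2 W g = curveRep 2 W t
        · rw [he, hv]
        · exact absurd (by rw [map_mul]; exact transp_pair _ _ h hT he) (hcon _ (mul_mem hg ht))
  set e := eRoot W v
  have hfix : ∀ g ∈ A.inertiaSubgroupIn ℚ, g e = e := fun g hg => by
    rw [← eRoot_mulVec, hv g hg]
  obtain ⟨ha1, ha3⟩ := (⟨hev2, seed_a₃_odd h2 hev2⟩ : _ ∧ _)
  have hb2 : (4 : ℤ) ∣ W.b₂ := by
    obtain ⟨c, hc⟩ := ha1
    exact ⟨c ^ 2 + W.a₂, by rw [WeierstrassCurve.b₂, hc]; ring⟩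
  have hb4 : (2 : ℤ) ∣ W.b₄ := by
    obtain ⟨c, hc⟩ := ha1
    exact ⟨W.a₄ + c * W.a₃, by rw [WeierstrassCurve.b₄, hc]; ring⟩
  have hb6 : ¬ (2 : ℤ) ∣ W.b₆ := by
    intro h
    refine ha3 ((Nat.prime_iff_prime_int.mp Nat.prime_two).dvd_of_dvd_pow (n := 2) ?_)
    obtain ⟨c, hc⟩ := h
    exact ⟨c - 2 * W.a₆, by rw [WeierstrassCurve.b₆] at hc; linear_combination hc⟩
  have h2v := valuation_p_lt_one hA
  push_cast at h2v
  set t := A.valuation (2 : Qb) with ht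
  have hv2 : ∀ z : ℤ, A.valuation (z : Qb) ≤ 1 := fun z => FA.Local.intCast_le_one z
  have hunit : A.valuation (W.b₆ : Qb) = 1 :=
    FA.Local.natCast_eq_one_of_not_dvd Nat.prime_two (by exact_mod_cast h2v) hb6
  have he := eRoot_eq W hv0
  have he0 : e ≠ 0 := fun h0 => by
    rw [show eRoot W v = e from rfl, h0] at he
    rw [show (W.b₆ : Qb) = 0 by linear_combination he, map_zero] at hunit
    exact zero_ne_one hunit
  obtain ⟨k, hk⟩ := exists_zpow_of_mem_kur Nat.prime_two hA (mem_kur.mpr hfix) he0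
  push_cast at hk
  have ht0 : t ≠ 0 := A.valuation.ne_zero_iff.mpr two_ne_zero
  have h4 : A.valuation (4 : Qb) = t ^ (2 : ℤ) := by
    rw [show (4 : Qb) = 2 * 2 by norm_num, map_mul, zpow_two]
  obtain ⟨B, hB⟩ := hb2
  obtain ⟨C, hC⟩ := hb4
  rw [hB, hC] at he
  push_cast at he
  have hanti := zpow_right_strictAnti₀ (zero_lt_iff.mpr ht0) h2v
  have T1 : A.valuation (4 * e ^ 3) = t ^ (2 + 3 * k) := by
    rw [map_mul, map_pow, h4, hk, ← zpow_natCast (t ^ k), ← _root_.zpow_mul, ← zpow_add₀ ht0]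
    norm_num [mul_comm]
  have T2 : A.valuation (4 * (B : Qb) * e ^ 2) ≤ t ^ (2 + 2 * k) := by
    rw [map_mul, map_mul, map_pow, h4, hk, ← zpow_natCast (t ^ k), ← _root_.zpow_mul,
      zpow_add₀ ht0, show k * ((2 : ℕ) : ℤ) = 2 * k by push_cast; ring]
    exact mul_le_mul_left ((mul_le_mul_right (hv2 B) _).trans_eq (mul_one _)) _
  have T3 : A.valuation (2 * (2 * (C : Qb)) * e) ≤ t ^ (2 + k) := by
    rw [show (2 : Qb) * (2 * (C : Qb)) = 4 * C by ring, map_mul, map_mul, h4, hk, zpow_add₀ ht0]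
    exact mul_le_mul_left ((mul_le_mul_right (hv2 C) _).trans_eq (mul_one _)) _
  rcases le_or_gt 0 k with hk0 | hk0
  · have hlt : ∀ j : ℤ, 2 ≤ j → t ^ j < 1 := fun j hj => by
      simpa using hanti (show (0 : ℤ) < j by omega)
    have : A.valuation (4 * e ^ 3 + 4 * (B : Qb) * e ^ 2 + 2 * (2 * (C : Qb)) * e) < 1 :=
      A.valuation.map_add_lt (A.valuation.map_add_lt (T1 ▸ hlt _ (by omega))
        (T2.trans_lt (hlt _ (by omega)))) (T3.trans_lt (hlt _ (by omega)))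
    rw [show 4 * e ^ 3 + 4 * (B : Qb) * e ^ 2 + 2 * (2 * (C : Qb)) * e = -(W.b₆ : Qb) by
      linear_combination he, Valuation.map_neg, hunit] at this
    exact lt_irrefl _ this
  · have hlt : ∀ j : ℤ, 2 + 3 * k < j → t ^ j < t ^ (2 + 3 * k) := fun j hj => hanti hj
    have : A.valuation (4 * (B : Qb) * e ^ 2 + 2 * (2 * (C : Qb)) * e + (W.b₆ : Qb)) <
        t ^ (2 + 3 * k) := by
      refine A.valuation.map_add_lt (A.valuation.map_add_lt (T2.trans_lt (hlt _ (by omega)))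
        (T3.trans_lt (hlt _ (by omega)))) ?_
      rw [hunit, ← zpow_zero t]
      exact hlt _ (by omega)
    rw [show 4 * (B : Qb) * e ^ 2 + 2 * (2 * (C : Qb)) * e + (W.b₆ : Qb) = -(4 * e ^ 3) by
      linear_combination he, Valuation.map_neg, T1] at this
    exact lt_irrefl _ this

variable (W)

omit [(ratCurve W).IsElliptic] in
/-- The residual setting of a curve as produced by the `3`-switch. -/
theorem exists_seedSetting (k : Type) [Field k] [Fintype k] [CharP k 2] (hneg : W.Δ < 0)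
    (hss : W.IsSemistableModel) (h2 : W.IsGoodPrimeFor 2) (hev2 : (2 : ℤ) ∣ W.a₁)
    (hirr : W.ModRepIsIrreducible 2)
    (hodd : ∀ q : ℕ, q.Prime → (q : ℤ) ∣ W.Δ → Odd (padicValInt q W.Δ))
    (hne3 : ∃ q : ℕ, q.Prime ∧ (q : ℤ) ∣ W.Δ ∧ q ≠ 3) [(ratCurve W).IsElliptic] :
    ∃ S : Setting k, S.r0 = curveRep 2 W ∧ S.Q.D = FA.Theta.badProd W := by
  obtain ⟨T, hΔ, -⟩ := exists_seedDatum hneg hss h2 hev2 hodd hne3
  let D := FA.Theta.badProd W
  have hD8 : D % 8 = 3 := T.mod8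
  have hgt : 3 < D := T.gt
  let Q := Quad.ofNat D T.sqfree (by omega)
  have hdvd : ∀ l : ℕ, l.Prime → (l ∣ D ↔ (l : ℤ) ∣ W.Δ) := fun l hl => by
    constructor
    · intro h
      obtain ⟨q, hq, hlq⟩ := (Nat.Prime.prime hl).exists_mem_finset_dvd h
      rw [(Nat.prime_dvd_prime_iff_eq hl (Nat.prime_of_mem_primeFactors hq)).mp hlq]
      exact Int.natCast_dvd.mpr (Nat.dvd_of_mem_primeFactors hq)
    · exact fun h => Finset.dvd_prod_of_mem _
        (Nat.mem_primeFactors.mpr ⟨hl, Int.natCast_dvd.mp h, Int.natAbs_ne_zero.mpr hneg.ne⟩)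
  have hsgn : ∀ σ, sgn (curveRep 2 W σ) = 0 ↔ σ ∈ Q.H := fun σ =>
    sgn_curveRep_iff hΔ hneg.ne Q.sq σ
  obtain ⟨σ₀, hσ₀⟩ := Q.exists_not_mem
  have hT : IsTransp (curveRep 2 W σ₀) := by
    rw [← (sgn_facts (det_curveRep_two_ne W σ₀)).1]
    exact (sgn_facts (det_curveRep_two_ne W σ₀)).2.1.resolve_left fun h => hσ₀ ((hsgn σ₀).mp h)
  exact ⟨{
    r0 := curveRep 2 W
    ker_open := isOpen_ker_curveRep W
    surj := fun M hM => surj_curveRep hirr hT hM
    Q := Q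
    odd := by show ¬ 2 ∣ D; omega
    one_lt := by show 1 < D; omega
    sgn_iff := hsgn
    unr := fun l hl hl2 hlD A hA σ hσ =>
      curveRep_unramified W hl hl2 (fun h => hlD ((hdvd l hl).mpr h)) hA hσ
    unip := fun l hl hlD A hA σ hσ => by
      rw [pow_two]
      refine curveRep_unipotent W hneg.ne hss hl (fun e => ?_) ((hdvd l hl).mp hlD) hA hσ
      subst e
      exact h2 ((hdvd 2 hl).mp hlD)
    ss2 := fun A hA => exists_seedInertia hev2 h2 hA
    flat2 := fun A hA => isFlatRes_repTwo k (isFlatRes_curveRep W hA h2) }, rfl, rfl⟩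

variable {W}

/-- Primes congruent to `1` modulo `L` at which the `2`-torsion has trace one. -/
theorem exists_seedPrime     (hneg : W.Δ < 0) (hss : W.IsSemistableModel) (h2 : W.IsGoodPrimeFor 2)
    (hev2 : (2 : ℤ) ∣ W.a₁) (hirr : W.ModRepIsIrreducible 2)
    (hodd : ∀ q : ℕ, q.Prime → (q : ℤ) ∣ W.Δ → Odd (padicValInt q W.Δ))
    (hne3 : ∃ q : ℕ, q.Prime ∧ (q : ℤ) ∣ W.Δ ∧ q ≠ 3) {L : ℕ} (hL : 0 < L) (S : Finset ℕ) :
    ∃ l : ℕ, l.Prime ∧ l ∉ S ∧ ¬ l ∣ L ∧ (l : ZMod L) = 1 ∧ (W.apOfModel l : ZMod 2) = 1 := by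
  classical
  obtain ⟨St, hr0, -⟩ := exists_seedSetting W (ZMod 2) hneg hss h2 hev2 hirr hodd hne3
  obtain ⟨a, ha⟩ := St.surj !![0, 1; 1, 0] (by decide)
  obtain ⟨b, hb⟩ := St.surj !![1, 1; 0, 1] (by decide)
  rw [hr0] at ha hb
  let r := curveRep 2 W
  let U := fixMu L
  let s : GQ := a * b * a⁻¹ * b⁻¹
  have hsU : s ∈ U := commutator_mem_fixMu hL a b
  obtain ⟨htr, hcube, hsq, hne⟩ := commutator_facts (r s) (by
    rw [← ha, ← hb, ← map_mul, ← map_mul, ← map_mul]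
    congr 1
    simp only [s]
    group)
  let N : Subgroup GQ := r.ker ⊓ U
  have hN : IsOpen (N : Set GQ) := (FA.RT.isOpen_ker_curveRep W).inter (isOpen_fixMu hL)
  obtain ⟨l, A, σ, n, hl, hlS, hA, hσ, hk, j, hj⟩ :=
    FA.Density.exists_frobenius_generating N hN s
      (S ∪ L.primeFactors ∪ (2 * W.Δ.natAbs).primeFactors)
  simp only [Finset.mem_union, not_or, Nat.mem_primeFactors] at hlS
  obtain ⟨⟨hlS, hlL⟩, hlΔ⟩ := hlS
  have hΔ0 : 2 * W.Δ.natAbs ≠ 0 := mul_ne_zero two_ne_zero (Int.natAbs_ne_zero.mpr hneg.ne)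
  have hlL' : ¬ l ∣ L := fun h => hlL ⟨hl, h, hL.ne'⟩
  have hl2 : l ≠ 2 := fun h => hlΔ ⟨hl, by rw [h]; exact dvd_mul_right 2 _, hΔ0⟩
  have hgood : W.IsGoodPrimeFor l := fun h =>
    hlΔ ⟨hl, (Int.natCast_dvd.mp h).mul_left 2, hΔ0⟩
  have hσU : σ ∈ U := by
    have := U.mul_mem (U.pow_mem hsU j) hj.2
    rwa [mul_inv_cancel_left] at this
  refine ⟨l, hl, hlS, hlL', ?_, ?_⟩
  · rw [← Nat.cast_one, ZMod.natCast_eq_natCast_iff]
    exact modEq_one_of_frobenius hL hl hlL' hA hσ hσU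
  · rw [← FA.RT.trace_curveRep W hl hgood hl2.symm hA hσ]
    have hσr : r σ = r s ^ j := by
      rw [show σ = s ^ j * ((s ^ j)⁻¹ * σ) by group, map_mul, show r ((s ^ j)⁻¹ * σ) = 1 from hj.1,
        mul_one, map_pow]
    have hsr : r s = r σ ^ n := by
      rw [show s = σ ^ n * ((σ ^ n)⁻¹ * s) by group, map_mul, show r ((σ ^ n)⁻¹ * s) = 1 from hk.1,
        mul_one, map_pow]
    have h3 : r s ^ 3 = 1 := by rw [pow_succ, pow_two, hcube]
    show (r σ).trace = 1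
    rw [hσr, pow_eq_pow_mod j h3]
    rcases (show j % 3 = 0 ∨ j % 3 = 1 ∨ j % 3 = 2 by omega) with e | e | e <;> rw [e]
    · exfalso
      refine hne ?_
      rw [hsr, hσr, pow_eq_pow_mod j h3, e, pow_zero, one_pow]
    · rw [pow_one]; exact htr
    · rw [pow_two]; exact hsq

omit [(ratCurve W).IsElliptic] in
/-- **The residual system at level `D`.** -/
theorem exists_seedSystem (hneg : W.Δ < 0)
    (hss : W.IsSemistableModel) (h2 : W.IsGoodPrimeFor 2) (hev2 : (2 : ℤ) ∣ W.a₁)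
    (hirr : W.ModRepIsIrreducible 2)
    (hodd : ∀ q : ℕ, q.Prime → (q : ℤ) ∣ W.Δ → Odd (padicValInt q W.Δ))
    (hne3 : ∃ q : ℕ, q.Prime ∧ (q : ℤ) ∣ W.Δ ∧ q ≠ 3)
    (O : Type) [CommRing O] [IsDomain O] [IsLocalRing O] [CharZero O]
    [CharP (ResidueField O) 2] (S : Finset Nat.Primes)
    (hS : ∀ l : Nat.Primes, (l : ℕ) ∣ 2 * badProd W → l ∈ S) [NeZero (badProd W)] :
    ∃ χ₀ : heckeAlg (badProd W) ⊤ O S →ₐ[O] ResidueField O,
      (∀ l ∉ S, χ₀ (Tgen (badProd W) ⊤ O S l) = (W.apOfModel l : ResidueField O)) ∧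
      ∀ L : ℕ, L ≠ 0 → ∃ l : Nat.Primes, ¬ (l : ℕ) ∣ L ∧ ((l : ℕ) : ZMod L) = 1 ∧
        χ₀ (Tgen (badProd W) ⊤ O S l) ≠ ((l : ℕ) : ResidueField O) + 1 := by
  classical
  set D := badProd W with hD
  obtain ⟨T, c, hc, hpred⟩ := exists_seedCongruent hneg hss h2 hev2 hodd hne3
    fun g hg k _ _ φ => (Fermat.Agent.S29.result hg Nat.prime_two φ).imp fun ρ h => h.1
  have hD8 : D % 8 = 3 := T.mod8
  obtain ⟨ε, F, G, hε, hG, hne, hcong, hshift, hfricke⟩ := T.iq.exists_signed_form c hc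
  obtain ⟨x, hx, hinv, heig⟩ := exists_class_mod_two hε (T.iq.predicted c) F G hG hne hcong hshift
    hfricke
  let k := ResidueField O
  let ι : ZMod 2 →+* k := ZMod.castHom (dvd_refl 2) k
  have hι : Function.Injective ι := ι.injective
  let xk : Par (GamH (4 * D) (⊤ : Subgroup (ZMod (4 * D))ˣ)) k :=
    ⟨ι.toAddMonoidHom.comp x.1, Par_comp _ x.2⟩
  have hxk : xk ≠ 0 := fun h => hx (Subtype.ext (AddMonoidHom.ext fun γ =>
    hι ((DFunLike.congr_fun (congrArg Subtype.val h) γ).trans (map_zero ι).symm)))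
  obtain ⟨l₀, hl₀, hl₀N, hdeg⟩ := T.iq.exists_hasDegOne c hc
  obtain ⟨r, hr, hrD, hr4⟩ := exists_prime_three_mod_four D (by omega)
  have : Fact r.Prime := ⟨hr⟩
  have hneat : IsNeatOn O (GamUp D 2 (⊤ : Subgroup (ZMod D)ˣ)) := by
    refine isNeatOn_of_trace (Or.inr fun γ hγ => trace_ne_zero_of_prime hr4 ?_) (Or.inl ?_)
    · exact ((Int.natCast_dvd_natCast.2 hrD).trans ⟨2, mul_comm _ _⟩).trans (mem_G2.1 hγ)
    · rw [← IsLocalRing.residue_ne_zero_iff_isUnit]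
      rw [map_ofNat, show (3 : k) = ((3 : ℕ) : k) by norm_num, odd_cast_eq_one (by decide)]
      exact one_ne_zero
  obtain ⟨z, hz0, hzT⟩ := exists_class_down (residue O) residue_surjective hneat (by omega) xk hxk
    (fun γ => ⟨congrArg ι (hinv γ).1, congrArg ι (hinv γ).2⟩) (T.iq.predicted c) (fun l => by
      rw [show xk.1 = ι.toAddMonoidHom.comp x.1 from rfl, Corr.act_comp_hom, heig l]
      refine AddMonoidHom.ext fun γ => ?_
      show ι ((T.iq.predicted c l.1 : ZMod 2) * x.1 γ) = (T.iq.predicted c l.1 : k) * ι (x.1 γ)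
      rw [map_mul, map_intCast])
    ⟨l₀, hl₀, hl₀N⟩ (by
      show Odd (T.iq.predicted c l₀)
      simp only [FA.Theta.IQ.predicted, if_pos hdeg]
      exact odd_one)
  have h4 : ∀ l : Nat.Primes, l ∉ S → ¬ (l : ℕ) ∣ 4 * D := fun l hl h => hl (hS l (by
    rcases l.2.dvd_mul.1 h with h | h
    · exact (l.2.dvd_of_dvd_pow (show (l : ℕ) ∣ 2 ^ 2 from h)).mul_right D
    · exact h.mul_left 2))
  obtain ⟨χ, hχ⟩ := exists_character (S := S) hz0 z rfl (fun l => (W.apOfModel l : k))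
    fun l hl => by
      show (Tc D ⊤ (l : ℕ)).act ((residue O).toAddMonoidHom.comp z) =
        (W.apOfModel l : k) • (residue O).toAddMonoidHom.comp z
      rw [Corr.act_comp_hom, hzT ⟨l, l.2, h4 l hl⟩]
      have h := congrArg ι (hpred l l.2 (h4 l hl))
      rw [map_intCast, map_intCast] at h
      rw [h]
  refine ⟨χ, hχ, fun L hL => ?_⟩
  have : (ratCurve W).IsElliptic := FA.Frob.ratCurve_isElliptic_of_Δ hneg.ne
  obtain ⟨l, hl, hlS, hlL, hl1, hla⟩ := exists_seedPrime hneg hss h2 hev2 hirr hodd hne3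
    (Nat.pos_of_ne_zero hL) (S.image Subtype.val)
  have hlS' : (⟨l, hl⟩ : Nat.Primes) ∉ S := fun h => hlS (Finset.mem_image.2 ⟨_, h, rfl⟩)
  refine ⟨⟨l, hl⟩, hlL, hl1, ?_⟩
  have hodd' : Odd l := hl.odd_of_ne_two fun e => hlS'
    (hS _ (by show l ∣ _; rw [e]; exact dvd_mul_right 2 _))
  have hla' := congrArg ι hla
  rw [map_intCast, map_one] at hla'
  rw [hχ _ hlS', odd_cast_eq_one hodd', CharTwo.add_self_eq_zero]
  show (W.apOfModel l : k) ≠ 0
  rw [hla']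
  exact one_ne_zero

end FA.SS

end
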